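import Mathlib

/-!
# Two by two matrices over a field: nilpotents, commutants and derivations

Elementary facts for the study of the image: commutants of non-scalar matrices, orders of
matrices with distinct eigenvalues, and `exists_inner_of_span`: a trace zero derivation along a
spanning multiplicative family is inner.
-/

set_option autoImplicit false

noncomputable section

namespace FLTAgent.TW

open Matrix Polynomial

variable {k : Type*} [Field k]

local notation "𝕄" => Matrix (Fin 2) (Fin 2) k

/-- A matrix is scalar if it commutes with everything. -/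
theorem scalar_of_commute_all {X : 𝕄} (h : ∀ Y : 𝕄, X * Y = Y * X) : X = X 0 0 • 1 := by
  have h1 := h !![0, 1; 0, 0]
  have h00 := congrFun (congrFun h1 0) 0
  have h01 := congrFun (congrFun h1 0) 1
  have h2 := congrFun (congrFun (h !![0, 0; 1, 0]) 0) 0
  simp [Matrix.mul_apply, Fin.sum_univ_two] at h00 h01 h2
  ext i j
  fin_cases i <;> fin_cases j <;> simp [← h00, h01, h2]

/-- A matrix orthogonal to everything for the trace pairing vanishes. -/
theorem eq_zero_of_trace_mul {X : 𝕄} (h : ∀ Y : 𝕄, (X * Y).trace = 0) : X = 0 := by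
  have h1 := h !![1, 0; 0, 0]
  have h2 := h !![0, 1; 0, 0]
  have h3 := h !![0, 0; 1, 0]
  have h4 := h !![0, 0; 0, 1]
  simp [Matrix.mul_apply, Fin.sum_univ_two, Matrix.trace_fin_two] at h1 h2 h3 h4
  ext i j
  fin_cases i <;> fin_cases j <;> simp [h1, h2, h3, h4]

/-- Orthogonality to the trace zero matrices means scalar. -/
theorem scalar_of_trace_mul {X : 𝕄} (h : ∀ Y : 𝕄, Y.trace = 0 → (X * Y).trace = 0) :
    X = X 0 0 • 1 := by
  have h1 := h !![1, 0; 0, -1] (by simp [Matrix.trace_fin_two])
  have h2 := h !![0, 1; 0, 0] (by simp [Matrix.trace_fin_two])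
  have h3 := h !![0, 0; 1, 0] (by simp [Matrix.trace_fin_two])
  simp [Matrix.mul_apply, Fin.sum_univ_two, Matrix.trace_fin_two] at h1 h2 h3
  ext i j
  fin_cases i <;> fin_cases j <;> simp [h2, h3]
  linear_combination -h1

/-- The trace zero commutant of a matrix is spanned by its trace zero part. -/
theorem eq_smul_of_commute (h2 : (2 : k) ≠ 0) {A X : 𝕄} (hA : ¬ A = A 0 0 • 1) (hX : X.trace = 0)
    (hc : A * X = X * A) : ∃ s : k, X = s • (A - (A.trace / 2) • 1) := by
  have e00 := congrFun (congrFun hc 0) 0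
  have e01 := congrFun (congrFun hc 0) 1
  have e10 := congrFun (congrFun hc 1) 0
  rw [Matrix.trace_fin_two] at hX
  simp [Matrix.mul_apply, Fin.sum_univ_two] at e00 e01 e10
  have hX11 : X 1 1 = -X 0 0 := by linear_combination hX
  rw [hX11] at e01 e10
  by_cases hb : A 0 1 = 0
  · by_cases hc' : A 1 0 = 0
    · have ha : A 0 0 - A 1 1 ≠ 0 := fun h => hA (by
        ext i j
        fin_cases i <;> fin_cases j <;> simp [hb, hc']
        linear_combination -h)
      refine ⟨2 * X 0 0 / (A 0 0 - A 1 1), ?_⟩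
      have f01 : X 0 1 = 0 := by
        refine (mul_eq_zero.mp (?_ : (A 0 0 - A 1 1) * X 0 1 = 0)).resolve_left ha
        rw [hb] at e01; linear_combination e01
      have f10 : X 1 0 = 0 := by
        refine (mul_eq_zero.mp (?_ : (A 0 0 - A 1 1) * X 1 0 = 0)).resolve_left ha
        rw [hc'] at e10; linear_combination -e10
      ext i j
      fin_cases i <;> fin_cases j <;>
        simp [hb, hc', f01, f10, hX11, Matrix.trace_fin_two] <;> field_simp <;> ring
    · refine ⟨X 1 0 / A 1 0, ?_⟩
      ext i j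
      fin_cases i <;> fin_cases j <;>
        simp [hX11, Matrix.trace_fin_two] <;> field_simp
      · linear_combination e10
      · linear_combination -e00
      · linear_combination -e10
  · refine ⟨X 0 1 / A 0 1, ?_⟩
    ext i j
    fin_cases i <;> fin_cases j <;>
      simp [hX11, Matrix.trace_fin_two] <;> field_simp
    · linear_combination -e01
    · linear_combination e00
    · linear_combination e01

/-- Cayley–Hamilton for two by two matrices. -/
theorem mul_self_eq (A : 𝕄) : A * A = A.trace • A - A.det • (1 : 𝕄) := by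
  ext i j
  fin_cases i <;> fin_cases j <;>
    simp [Matrix.mul_apply, Fin.sum_univ_two, Matrix.trace_fin_two, Matrix.det_fin_two] <;> ring

theorem trace_eq_zero_of_sq {N : 𝕄} (h : N * N = 0) : N.trace = 0 ∧ N.det = 0 := by
  have hd : N.det = 0 := by
    have := congrArg Matrix.det h
    rw [Matrix.det_mul, Matrix.det_zero, mul_self_eq_zero] at this
    exact this
  refine ⟨?_, hd⟩
  have h1 := mul_self_eq N
  rw [h, hd, zero_smul, sub_zero] at h1
  rcases smul_eq_zero.mp h1.symm with h2 | h2
  · exact h2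
  · rw [h2, Matrix.trace_zero]

theorem mul_mul_eq_smul {N : 𝕄} (h : N * N = 0) (X : 𝕄) : N * X * N = (X * N).trace • N := by
  obtain ⟨ht, hd⟩ := trace_eq_zero_of_sq h
  rw [Matrix.trace_fin_two] at ht
  rw [Matrix.det_fin_two] at hd
  have h11 : N 1 1 = -N 0 0 := by linear_combination ht
  rw [h11] at hd
  ext i j
  fin_cases i <;> fin_cases j <;>
    simp [Matrix.mul_apply, Fin.sum_univ_two, Matrix.trace_fin_two, h11]
  · linear_combination -(X 1 1) * hd
  · linear_combination (X 0 1) * hd
  · linear_combination (X 1 0) * hd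
  · linear_combination -(X 0 0) * hd

/-- Two orthogonal nilpotents are proportional. -/
theorem eq_smul_of_trace_mul {N N' : 𝕄} (h : N * N = 0) (h' : N' * N' = 0) (hN : N ≠ 0)
    (hm : (N * N').trace = 0) : ∃ s : k, N' = s • N := by
  obtain ⟨ht, hd⟩ := trace_eq_zero_of_sq h
  obtain ⟨ht', hd'⟩ := trace_eq_zero_of_sq h'
  rw [Matrix.trace_fin_two] at ht ht'
  rw [Matrix.det_fin_two] at hd hd'
  have h11 : N 1 1 = -N 0 0 := by linear_combination ht
  have h11' : N' 1 1 = -N' 0 0 := by linear_combination ht'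
  simp [Matrix.mul_apply, Fin.sum_univ_two, Matrix.trace_fin_two, h11, h11'] at hm
  rw [h11] at hd
  rw [h11'] at hd'
  by_cases hb : N 0 1 = 0
  · have ha : N 0 0 = 0 := by
      rw [hb] at hd
      exact mul_self_eq_zero.mp (by linear_combination -hd)
    have hc : N 1 0 ≠ 0 := fun hc => hN (by
      ext i j; fin_cases i <;> fin_cases j <;> simp [ha, hb, hc, h11])
    refine ⟨N' 1 0 / N 1 0, ?_⟩
    rw [hb, ha] at hm
    have hb' : N' 0 1 = 0 := by
      refine (mul_eq_zero.mp (?_ : N 1 0 * N' 0 1 = 0)).resolve_left hc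
      linear_combination hm
    have ha' : N' 0 0 = 0 := by
      rw [hb'] at hd'
      exact mul_self_eq_zero.mp (by linear_combination -hd')
    ext i j
    fin_cases i <;> fin_cases j <;> simp [ha, hb, ha', hb', h11, h11', hc]
  · refine ⟨N' 0 1 / N 0 1, ?_⟩
    have ha : N' 0 0 * N 0 1 = N 0 0 * N' 0 1 := by
      refine sub_eq_zero.mp (mul_self_eq_zero.mp ?_)
      linear_combination -(N 0 1 * N' 0 1) * hm - (N' 0 1 * N' 0 1) * hd - (N 0 1 * N 0 1) * hd'
    have hc : N' 1 0 * N 0 1 = N 1 0 * N' 0 1 := by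
      refine mul_left_cancel₀ hb ?_
      linear_combination N 0 1 * hm - 2 * N 0 0 * ha + 2 * N' 0 1 * hd
    ext i j
    fin_cases i <;> fin_cases j <;> simp [h11, h11'] <;> field_simp
    · linear_combination ha
    · linear_combination hc
    · linear_combination ha

/-- A matrix with distinct eigenvalues in a finite field has order prime to the characteristic. -/
theorem pow_card_sub_one_eq_one [Fintype k] {A : 𝕄} {α β : k} (hne : α ≠ β)
    (ht : A.trace = α + β) (hd : A.det = α * β) (h0 : A.det ≠ 0) :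
    A ^ (Fintype.card k - 1) = 1 := by
  rw [hd] at h0
  set n := Fintype.card k - 1
  have hroot : ∀ x : k, x ≠ 0 → (X ^ n - 1 : k[X]).IsRoot x := fun x hx => by
    simp [IsRoot, n, FiniteField.pow_card_sub_one_eq_one x hx]
  obtain ⟨r, hr⟩ : (X - C α) * (X - C β) ∣ (X ^ n - 1 : k[X]) :=
    (isCoprime_X_sub_C_of_isUnit_sub (sub_ne_zero.mpr hne).isUnit).mul_dvd
      (dvd_iff_isRoot.mpr (hroot α (left_ne_zero_of_mul h0)))
      (dvd_iff_isRoot.mpr (hroot β (right_ne_zero_of_mul h0)))
  have hz : aeval A ((X - C α) * (X - C β)) = 0 := by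
    rw [map_mul, map_sub, map_sub, aeval_X, aeval_C, aeval_C, sub_mul, mul_sub, mul_sub,
      mul_self_eq A, ht, hd]
    simp only [Algebra.algebraMap_eq_smul_one, Matrix.mul_smul, Matrix.smul_mul, mul_one, one_mul,
      smul_smul]
    rw [add_smul]
    simp only [mul_comm β α]
    abel
  have := congrArg (aeval A) hr
  rw [map_mul, hz, zero_mul, map_sub, map_pow, aeval_X, map_one, sub_eq_zero] at this
  exact this

/-- A trace zero derivation along a spanning multiplicative family is inner. -/
theorem exists_inner_of_span {G : Type*} [Monoid G] (f : G →* 𝕄)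
    (hspan : Submodule.span k (Set.range f) = ⊤) (h2 : (2 : k) ≠ 0) (D : G → 𝕄)
    (hD : ∀ g h, D (g * h) = D g * f h + f g * D h) (htr : ∀ g, (D g).trace = 0) :
    ∃ Y : 𝕄, Y.trace = 0 ∧ ∀ g, D g = f g * Y - Y * f g := by
  have hsurj : Function.Surjective (Finsupp.linearCombination k f) := by
    rw [← LinearMap.range_eq_top, Finsupp.range_linearCombination, hspan]
  obtain ⟨s, hs⟩ := LinearMap.exists_rightInverse_of_surjective _ (LinearMap.range_eq_top.mpr hsurj)
  set L := Finsupp.linearCombination k D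
  have hker : ∀ w, Finsupp.linearCombination k f w = 0 → L w = 0 := by
    intro w hw
    refine eq_zero_of_trace_mul fun Y => ?_
    have hY : Y ∈ Submodule.span k (Set.range f) := hspan ▸ Submodule.mem_top
    induction hY using Submodule.span_induction with
    | mem Y hY =>
      obtain ⟨h, rfl⟩ := hY
      have key : ∀ g, (D g * f h).trace = -((f g * D h).trace) := fun g => by
        rw [eq_neg_iff_add_eq_zero, ← Matrix.trace_add, ← hD, htr]
      have hl : ∀ v : G →₀ k, (L v * f h).trace = -((Finsupp.linearCombination k f v * D h).trace) := by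
        intro v
        induction v using Finsupp.induction_linear with
        | zero => simp
        | add v w hv hw => simp [add_mul, hv, hw]; ring
        | single g c => simp [L, key]
      rw [hl, hw, zero_mul, Matrix.trace_zero, neg_zero]
    | zero => simp
    | add Y Y' _ _ h h' => rw [mul_add, Matrix.trace_add, h, h', add_zero]
    | smul c Y _ h => rw [Matrix.mul_smul, Matrix.trace_smul, h, smul_zero]
  set Δ : 𝕄 →ₗ[k] 𝕄 := L.comp s
  have hΔ : ∀ g, Δ (f g) = D g := fun g => by
    have := hker (s (f g) - Finsupp.single g 1) (by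
      rw [map_sub, Finsupp.linearCombination_single, one_smul]
      exact sub_eq_zero.mpr (LinearMap.congr_fun hs (f g)))
    rw [map_sub, Finsupp.linearCombination_single, one_smul, sub_eq_zero] at this
    exact this
  have hder : ∀ A B : 𝕄, Δ (A * B) = Δ A * B + A * Δ B := by
    intro A B
    have hA : A ∈ Submodule.span k (Set.range f) := hspan ▸ Submodule.mem_top
    induction hA using Submodule.span_induction with
    | mem A hA =>
      obtain ⟨g, rfl⟩ := hA
      have hB : B ∈ Submodule.span k (Set.range f) := hspan ▸ Submodule.mem_top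
      induction hB using Submodule.span_induction with
      | mem B hB => obtain ⟨h, rfl⟩ := hB; rw [← map_mul, hΔ, hΔ, hΔ, hD]
      | zero => simp
      | add B B' _ _ h h' => simp only [mul_add, map_add, h, h']; abel
      | smul c B _ h => simp only [Matrix.mul_smul, map_smul, h, smul_add]
    | zero => simp
    | add A A' _ _ h h' => simp only [add_mul, map_add, h, h']; abel
    | smul c A _ h => simp only [Matrix.smul_mul, map_smul, h, smul_add]
  set E₀ : 𝕄 := !![1, 0; 0, 0] with hE₀
  set E₁ : 𝕄 := !![0, 0; 1, 0] with hE₁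
  set R₁ : 𝕄 := !![0, 1; 0, 0] with hR₁
  set Y₀ : 𝕄 := -(Δ E₀ * E₀ + Δ E₁ * R₁)
  have hY₀ : ∀ B : 𝕄, Δ B = B * Y₀ - Y₀ * B := by
    intro B
    have e0 : B * E₀ = B 0 0 • E₀ + B 1 0 • E₁ := by
      ext i j; fin_cases i <;> fin_cases j <;> simp [E₀, E₁, Matrix.mul_apply, Fin.sum_univ_two]
    have e1 : B * E₁ = B 0 1 • E₀ + B 1 1 • E₁ := by
      ext i j; fin_cases i <;> fin_cases j <;> simp [E₀, E₁, Matrix.mul_apply, Fin.sum_univ_two]
    have r0 : E₀ * B = B 0 0 • E₀ + B 0 1 • R₁ := by
      ext i j; fin_cases i <;> fin_cases j <;> simp [E₀, R₁, Matrix.mul_apply, Fin.sum_univ_two]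
    have r1 : R₁ * B = B 1 0 • E₀ + B 1 1 • R₁ := by
      ext i j; fin_cases i <;> fin_cases j <;> simp [E₀, R₁, Matrix.mul_apply, Fin.sum_univ_two]
    have h1 : E₀ * E₀ + E₁ * R₁ = 1 := by
      ext i j; fin_cases i <;> fin_cases j <;> simp [E₀, E₁, R₁]
    have a0 : B * Δ E₀ = Δ (B 0 0 • E₀ + B 1 0 • E₁) - Δ B * E₀ := by rw [← e0, hder]; abel
    have a1 : B * Δ E₁ = Δ (B 0 1 • E₀ + B 1 1 • E₁) - Δ B * E₁ := by rw [← e1, hder]; abel
    calc Δ B = Δ B * (E₀ * E₀ + E₁ * R₁) := by rw [h1, mul_one]
      _ = _ := by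
        simp only [Y₀, mul_neg, neg_mul, sub_neg_eq_add, mul_add, add_mul, ← mul_assoc, a0, a1]
        rw [mul_assoc (Δ E₀) E₀ B, r0, mul_assoc (Δ E₁) R₁ B, r1]
        simp only [map_add, map_smul, mul_add, add_mul, sub_mul, Matrix.mul_smul, Matrix.smul_mul]
        abel
  refine ⟨Y₀ - (Y₀.trace / 2) • 1, ?_, fun g => ?_⟩
  · rw [Matrix.trace_sub, Matrix.trace_smul, Matrix.trace_one, Fintype.card_fin, smul_eq_mul]
    push_cast
    field_simp
    ring
  · rw [← hΔ, hY₀]
    simp only [mul_sub, sub_mul, Matrix.mul_smul, Matrix.smul_mul, mul_one, one_mul]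
    abel

end FLTAgent.TW
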