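import Fermat.Agent.TW.Global.Defs
import Fermat.Agent.TW.Global.GroupMat
import Fermat.Agent.TW.Idele.Norm
import Fermat.Agent.TW.Idele.Roots

/-!
# The Kummer lift of a cocycle

For a cocycle `c` with values in `ad⁰`, Hilbert 90 over the field cut out by `M` gives
`Φ : Free → ℚ̄ˣ`, multiplicative, with `σ (Φ x) = Φ (σ x) · ψ (tr (c σ · σ (proj x)))` for a
nontrivial character `ψ` of `k` into the `p`-th roots of unity (`KummerLift`,
`nonempty_kummerLift`).
-/

set_option autoImplicit false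
set_option linter.style.haveILetI false

noncomputable section

namespace FLTAgent.TW

open Matrix FLTAgent.Deform

variable {k : Type} [Field k] {p : ℕ}

local notation "𝕄" => Matrix (Fin 2) (Fin 2) k
local notation "ℚ̄" => AlgebraicClosure ℚ
local notation "𝔽" M => Coh.Free (Img M) (TwAd M)

/-- The action of a Galois element on the units of `ℚ̄`. -/
def galU (σ : GQ) : ℚ̄ˣ →* ℚ̄ˣ := Units.map (σ : ℚ̄ →* ℚ̄)

theorem coe_galU (σ : GQ) (x : ℚ̄ˣ) : ((galU σ x : ℚ̄ˣ) : ℚ̄) = σ x := rfl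

theorem galU_mul (σ τ : GQ) (x : ℚ̄ˣ) : galU (σ * τ) x = galU σ (galU τ x) := Units.ext rfl

/-- A nontrivial character of `k` into the `p`-th roots of unity. -/
theorem exists_muChar [Fact p.Prime] [CharP k p] :
    ∃ ψ : AddChar k ℚ̄ˣ, (∀ a, ψ a ^ p = 1) ∧ ∃ a, ψ a ≠ 1 := by
  letI : Algebra (ZMod p) k := ZMod.algebra k p
  obtain ⟨ζ, hζ⟩ := exists_primitiveRoot_qbar p
  have hp : p.Prime := Fact.out
  let ζu : ℚ̄ˣ := Units.mk0 ζ (hζ.ne_zero hp.ne_zero)
  have hζu : ζu ^ p = 1 := Units.ext (by simp [ζu, hζ.pow_eq_one])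
  obtain ⟨l, hl0, -⟩ := Submodule.exists_le_ker_of_lt_top (⊥ : Submodule (ZMod p) k) bot_lt_top
  obtain ⟨x, hx⟩ : ∃ x, l x ≠ 0 := by
    by_contra h
    push Not at h
    exact hl0 (LinearMap.ext h)
  refine ⟨(AddChar.zmodChar p hζu).compAddMonoidHom l.toAddMonoidHom, fun a => ?_,
    (l x)⁻¹ • x, ?_⟩
  · rw [AddChar.compAddMonoidHom_apply, AddChar.zmodChar_apply, ← pow_mul, mul_comm, pow_mul,
      hζu, one_pow]
  · rw [AddChar.compAddMonoidHom_apply, LinearMap.toAddMonoidHom_coe, map_smul, smul_eq_mul,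
      inv_mul_cancel₀ hx, AddChar.zmodChar_apply, ZMod.val_one, pow_one]
    exact fun h => hζ.ne_one hp.one_lt (congrArg Units.val h)

/-- Galois acts on the character through the determinant. -/
theorem galU_muChar [Fact p.Prime] {M : MatRep k} (hdet : DetCyclotomic M p) {ψ : AddChar k ℚ̄ˣ}
    (hψ : ∀ a, ψ a ^ p = 1) (σ : GQ) (a : k) : galU σ (ψ a) = ψ ((M σ).det * a) := by
  obtain ⟨ζ, hζ⟩ := exists_primitiveRoot_qbar p
  haveI : NeZero p := ⟨(Fact.out : p.Prime).ne_zero⟩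
  obtain ⟨r, -, hr⟩ := hζ.eq_pow_of_pow_eq_one
    (show σ ζ ^ p = 1 by rw [← map_pow, hζ.pow_eq_one, map_one])
  have hr' : ∀ μ : ℚ̄, μ ^ p = 1 → σ μ = μ ^ r := fun μ hμ => by
    obtain ⟨i, -, rfl⟩ := hζ.eq_pow_of_pow_eq_one hμ
    rw [map_pow, ← hr, ← pow_mul, ← pow_mul, mul_comm]
  rw [hdet σ r hr', ← nsmul_eq_mul, AddChar.map_nsmul_eq_pow]
  refine Units.ext ?_
  rw [coe_galU, Units.val_pow_eq_pow_val]
  exact hr' _ (by rw [← Units.val_pow_eq_pow_val, hψ, Units.val_one])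

variable {M : MatRep k}

/-- The Kummer pairing. -/
def kPair (ψ : AddChar k ℚ̄ˣ) (X : 𝕄) (n : TwAd M) : ℚ̄ˣ := ψ ((X * TwAd.mat n).trace)

variable (ψ : AddChar k ℚ̄ˣ)

theorem kPair_add_left (X X' : 𝕄) (n : TwAd M) :
    kPair ψ (X + X') n = kPair ψ X n * kPair ψ X' n := by
  rw [kPair, add_mul, Matrix.trace_add, AddChar.map_add_eq_mul]; rfl

theorem kPair_add_right (X : 𝕄) (n n' : TwAd M) :
    kPair ψ X (n + n') = kPair ψ X n * kPair ψ X n' := by
  rw [kPair, map_add, mul_add, Matrix.trace_add, AddChar.map_add_eq_mul]; rfl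

theorem kPair_zero_left (n : TwAd M) : kPair ψ (0 : 𝕄) n = 1 := by simp [kPair]

theorem kPair_zero_right (X : 𝕄) : kPair ψ X (0 : TwAd M) = 1 := by simp [kPair]

theorem mat_toImg_smul' (σ : GQ) (n : TwAd M) :
    TwAd.mat (toImg M σ • n) = (M σ).det • (M σ * TwAd.mat n * M σ⁻¹) := by
  have h : (↑((toImg M σ : Img M) : 𝕄ˣ)⁻¹ : 𝕄) = M σ⁻¹ :=
    Units.inv_eq_of_mul_eq_one_right (by rw [coe_toImg, mul_inv_eq_one])
  rw [TwAd.mat_smul, twConj, h, coe_toImg]

theorem galU_kPair [Fact p.Prime] (hdet : DetCyclotomic M p) (hψ : ∀ a, ψ a ^ p = 1) (σ : GQ)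
    (X : 𝕄) (n : TwAd M) :
    galU σ (kPair ψ X n) = kPair ψ (adAct M σ X) (toImg M σ • n) := by
  rw [kPair, galU_muChar hdet hψ, kPair, mat_toImg_smul', adAct, Matrix.mul_smul,
    Matrix.trace_smul, smul_eq_mul]
  congr 2
  rw [show M σ * X * M σ⁻¹ * (M σ * TwAd.mat n * M σ⁻¹) = M σ * (X * TwAd.mat n) * M σ⁻¹ by
    simp only [mul_assoc]; rw [← mul_assoc (M σ⁻¹) (M σ), inv_mul_eq_one, one_mul]]
  rw [Matrix.trace_mul_comm (M σ * (X * TwAd.mat n)), ← mul_assoc, inv_mul_eq_one, one_mul]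

theorem kPair_pow (hψ : ∀ a, ψ a ^ p = 1) (X : 𝕄) (n : TwAd M) : kPair ψ X n ^ p = 1 := hψ _

theorem eq_zero_of_kPair (h2 : (2 : k) ≠ 0) (hne : ∃ a, ψ a ≠ 1) {X : 𝕄} (hX : X.trace = 0)
    (h : ∀ n : TwAd M, kPair ψ X n = 1) : X = 0 := by
  obtain ⟨a, ha⟩ := hne
  have hs : X = X 0 0 • 1 := scalar_of_trace_mul fun Y hY => by
    by_contra hne'
    refine ha ?_
    have := h (((a / (X * Y).trace)) • TwAd.mk Y hY)
    rwa [kPair, map_smul, TwAd.mat_mk, Matrix.mul_smul, Matrix.trace_smul, smul_eq_mul,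
      div_mul_cancel₀ _ hne'] at this
  rw [hs, Matrix.trace_smul, Matrix.trace_one, Fintype.card_fin, smul_eq_mul] at hX
  rw [hs, (mul_eq_zero.mp hX).resolve_right (by simpa using h2), zero_smul]

omit ψ in
/-- An element fixed on `fieldOf M` acts trivially. -/
theorem toImg_eq_one_of_mem (hM : FactorsFinite M) {σ : GQ}
    (hσ : σ ∈ (fieldOf M).fixingSubgroup) : toImg M σ = 1 := by
  obtain ⟨L, hL, h1⟩ := hM
  haveI := GalCommon.isGalois_Qbar
  have hle : L.fixingSubgroup ≤ M.toHomUnits.ker := fun τ hτ =>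
    MonoidHom.mem_ker.mpr (Units.ext (h1 τ ((IntermediateField.mem_fixingSubgroup_iff _ _).mp hτ)))
  have hfix : (IntermediateField.fixedField M.toHomUnits.ker).fixingSubgroup = M.toHomUnits.ker :=
    InfiniteGalois.fixingSubgroup_fixedField (⟨M.toHomUnits.ker, Subgroup.isClosed_of_isOpen _
      (Subgroup.isOpen_mono hle L.fixingSubgroup_isOpen)⟩ : ClosedSubgroup GQ)
  exact Subtype.ext (MonoidHom.mem_ker.mp (hfix ▸ hσ))

theorem adAct_of_toImg_eq_one {σ : GQ} (h : toImg M σ = 1) (X : 𝕄) : adAct M σ X = X := by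
  have h1 := (toImg_eq_one_iff M σ).mp h
  have h2 : M σ⁻¹ = 1 := by have := mul_inv_eq_one M σ; rwa [h1, one_mul] at this
  rw [adAct, h1, h2, one_mul, mul_one]

theorem tCocycle_one {c : GQ → 𝕄} (hc : IsTangentCocycle M c) : c 1 = 0 := by
  simpa [adAct] using hc.map_mul 1 1

/-- Hilbert 90 on the subgroup fixing `fieldOf M`. -/
theorem exists_kummer_root [Fact p.Prime] (hdet : DetCyclotomic M p) (hψ : ∀ a, ψ a ^ p = 1)
    {c : GQ → 𝕄} (hc : IsTangentCocycle M c) (n : TwAd M) :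
    ∃ y : ℚ̄ˣ, ∀ σ, toImg M σ = 1 → galU σ y = y * kPair ψ (c σ) n := by
  classical
  obtain ⟨L, hL, h1⟩ := hc.exists_level
  let H : Subgroup GQ := (toImg M).ker
  haveI := finite_fixing_quotient H L
  haveI := Fintype.ofFinite (H ⧸ L.fixingSubgroup.subgroupOf H)
  let e : H → ℚ̄ := fun h => (kPair ψ (c (h : GQ)) n : ℚ̄)
  have hefix : ∀ h g : H, (h : GQ) (e g) = e g := fun h g => by
    show ((galU (h : GQ) (kPair ψ (c (g : GQ)) n) : ℚ̄ˣ) : ℚ̄) = _
    rw [galU_kPair ψ hdet hψ, adAct_of_toImg_eq_one h.2, show toImg M (h : GQ) = 1 from h.2,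
      one_smul]
  have hemul : ∀ h g : H, e (h * g) = e h * e g := fun h g => by
    simp only [e, Subgroup.coe_mul, hc.map_mul, adAct_of_toImg_eq_one h.2, kPair_add_left,
      Units.val_mul]
  let emb : H ⧸ L.fixingSubgroup.subgroupOf H → (L →* ℚ̄) := fun q =>
    ((((Quotient.out q : H) : GQ) : ℚ̄ →* ℚ̄)).comp (L.val : L →* ℚ̄)
  have hinj : Function.Injective emb := fun q q' h => by
    rw [← QuotientGroup.out_eq' q, ← QuotientGroup.out_eq' q']
    refine QuotientGroup.eq.mpr (Subgroup.mem_subgroupOf.mpr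
      ((IntermediateField.mem_fixingSubgroup_iff _ _).mpr fun x hx => ?_))
    have h' : ((Quotient.out q : H) : GQ) x = ((Quotient.out q' : H) : GQ) x :=
      DFunLike.congr_fun h ⟨x, hx⟩
    rw [Subgroup.coe_mul, Subgroup.coe_inv, AlgEquiv.mul_apply, ← h', ← AlgEquiv.mul_apply,
      inv_mul_cancel, AlgEquiv.one_apply]
  obtain ⟨θ, hθ⟩ : ∃ θ : L, ∑ q : H ⧸ L.fixingSubgroup.subgroupOf H,
      e (Quotient.out q) * ((Quotient.out q : H) : GQ) θ ≠ 0 := by
    by_contra h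
    push Not at h
    have hli := (linearIndependent_monoidHom L ℚ̄).comp emb hinj
    have := Fintype.linearIndependent_iff.mp hli (fun q => e (Quotient.out q))
      (funext fun θ => by simp [emb, Finset.sum_apply]; exact h θ) (QuotientGroup.mk 1)
    exact Units.ne_zero _ this
  refine ⟨(Units.mk0 _ hθ)⁻¹, fun σ hσ => ?_⟩
  let h : H := ⟨σ, hσ⟩
  have hkey : σ (∑ q : H ⧸ L.fixingSubgroup.subgroupOf H,
        e (Quotient.out q) * ((Quotient.out q : H) : GQ) θ) =
      (e h)⁻¹ * ∑ q : H ⧸ L.fixingSubgroup.subgroupOf H,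
        e (Quotient.out q) * ((Quotient.out q : H) : GQ) θ := by
    rw [map_sum, Finset.mul_sum]
    refine Fintype.sum_equiv
      (MulAction.toPerm h : Equiv.Perm (H ⧸ L.fixingSubgroup.subgroupOf H)) _ _ fun q => ?_
    simp only [MulAction.toPerm_apply]
    obtain ⟨ν, hν⟩ := QuotientGroup.mk_out_eq_mul (L.fixingSubgroup.subgroupOf H)
      (h * Quotient.out q)
    have hq : h • q = QuotientGroup.mk (h * Quotient.out q) := by
      conv_lhs => rw [← QuotientGroup.out_eq' q]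
      rfl
    have hν1 : ∀ x ∈ L, ((ν.1 : H) : GQ) x = x :=
      (IntermediateField.mem_fixingSubgroup_iff _ _).mp (Subgroup.mem_subgroupOf.mp ν.2)
    have hν0 : e ν.1 = 1 := by simp only [e, h1 _ hν1, kPair_zero_left, Units.val_one]
    rw [hq, hν, map_mul, show σ (e (Quotient.out q)) = e (Quotient.out q) from hefix h _, hemul,
      hemul, hν0, mul_one, Subgroup.coe_mul, Subgroup.coe_mul, AlgEquiv.mul_apply,
      AlgEquiv.mul_apply, hν1 _ θ.2]
    field_simp [e, Units.ne_zero]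
    rfl
  refine Units.ext ?_
  rw [coe_galU, Units.val_mul, Units.val_inv_eq_inv_val, map_inv₀, Units.val_mk0, hkey, mul_inv,
    inv_inv, mul_comm]

/-- The lift of a cocycle. -/
structure KummerLift (ψ : AddChar k ℚ̄ˣ) (c : GQ → 𝕄) where
  toFun : (𝔽 M) → ℚ̄ˣ
  map_add : ∀ x y, toFun (x + y) = toFun x * toFun y
  galU_toFun : ∀ (σ : GQ) (x : 𝔽 M), galU σ (toFun x) =
    toFun (toImg M σ • x) * kPair ψ (c σ) (toImg M σ • Coh.proj (Img M) (TwAd M) x)

theorem nonempty_kummerLift [Fact p.Prime] (hdet : DetCyclotomic M p) (hψ : ∀ a, ψ a ^ p = 1)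
    {c : GQ → 𝕄} (hc : IsTangentCocycle M c) : Nonempty (KummerLift (M := M) ψ c) := by
  choose y hy using exists_kummer_root ψ hdet hψ hc
  let φ : Img M → TwAd M → ℚ̄ˣ := fun g n =>
    galU (imgLift g) (y n) / kPair ψ (c (imgLift g)) (g • n)
  have hkey : ∀ (σ : GQ) (n : TwAd M),
      galU σ (y n) = φ (toImg M σ) n * kPair ψ (c σ) (toImg M σ • n) := fun σ n => by
    set g := toImg M σ with hg
    have hh : toImg M ((imgLift g)⁻¹ * σ) = 1 := by
      rw [map_mul, map_inv, toImg_imgLift, inv_mul_cancel]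
    conv_lhs => rw [← mul_inv_cancel_left (imgLift g) σ, galU_mul, hy n _ hh, map_mul,
      galU_kPair ψ hdet hψ, toImg_imgLift]
    conv_rhs => arg 2; rw [← mul_inv_cancel_left (imgLift g) σ, hc.map_mul, kPair_add_left]
    simp only [φ]
    rw [← mul_assoc, div_mul_cancel]
  let Φ : (𝔽 M) →+ Additive ℚ̄ˣ := Coh.Free.lift fun g n => Additive.ofMul (φ g n)
  refine ⟨⟨fun x => Additive.toMul (Φ x), fun x x' => by rw [map_add, toMul_add], fun σ x => ?_⟩⟩
  let E₁ : (𝔽 M) →+ Additive ℚ̄ˣ := (galU σ).toAdditive.comp Φ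
  let E₂ : (𝔽 M) →+ Additive ℚ̄ˣ :=
    Φ.comp (DistribSMul.toAddMonoidHom _ (toImg M σ)) +
      { toFun := fun z => Additive.ofMul (kPair ψ (c σ) (toImg M σ • Coh.proj (Img M) (TwAd M) z))
        map_zero' := by simp [kPair_zero_right]
        map_add' := fun z z' => by rw [map_add, smul_add, kPair_add_right, ofMul_mul] }
  have hE : E₁ = E₂ := Coh.Free.hom_ext fun g n => by
    show Additive.ofMul (galU σ (Additive.toMul (Φ (Coh.Free.of g n)))) =
      Φ (toImg M σ • Coh.Free.of g n) + Additive.ofMul _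
    simp only [Φ, Coh.Free.lift_of, Coh.Free.smul_of, Coh.proj_of, toMul_ofMul]
    rw [← ofMul_mul]
    congr 1
    have e := hkey (σ * imgLift g) n
    rw [galU_mul, map_mul, toImg_imgLift, hc.map_mul, kPair_add_left, mul_smul] at e
    have e' : galU σ (φ g n) = galU σ (galU (imgLift g) (y n)) /
        kPair ψ (adAct M σ (c (imgLift g))) (toImg M σ • g • n) := by
      rw [← galU_kPair ψ hdet hψ]; exact map_div _ _ _
    rw [e', e, ← mul_assoc, mul_div_cancel_right]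
  exact congrArg Additive.toMul (DFunLike.congr_fun hE x)

end FLTAgent.TW
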