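import Fermat.Agent.TW.Global.Defs
import Fermat.Agent.TW.Global.KummerLift
import Fermat.Agent.TW.Idele.Infinite
import Fermat.Agent.TW.Idele.ClassField.AuxPlaces

/-!
# Cocycles and homomorphisms into idele classes

For a cocycle `c` choose, by Hilbert 90, `Φ : Free → ℚ̄ˣ` with
`σ (Φ x) = Φ (σ x) · ψ (c σ, σ (proj x))`.  An idele is good for `x` if at a place `A` above `T`
its component is `Φ x · ψ (X_A, proj x)` where `X_{σA} = c σ + σ X_A`, the same at infinity, and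
outside `T ∪ Q` it has the valuation of `Φ x` (unramified there).  Then `proj x ↦ [good idele]`
is an equivariant homomorphism; together with the trivialisation at infinity it determines the
pair: the principal idele in the kernel shows that all `X` differences are equal. The result is
`card_pairSet_le`, the bound of the cocycles with trivialisations by `Hom(TwAd, C_{T,Q})`.
-/

set_option autoImplicit false
set_option linter.style.haveILetI false

noncomputable section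

namespace FLTAgent.TW

open Matrix FLTAgent.Deform PreIdele
open scoped Pointwise

variable {k : Type} [Field k] {p : ℕ} {M : MatRep k}

local notation "𝕄" => Matrix (Fin 2) (Fin 2) k
local notation "ℚ̄" => AlgebraicClosure ℚ

/-- Trivialisations of a cocycle at the places above `T` and at infinity. -/
structure LocTriv (M : MatRep k) (c : GQ → 𝕄) (T : Finset ℕ) where
  atPlace : Place → 𝕄
  atEmb : Emb → 𝕄
  atPlace_smul : ∀ (σ : GQ) (A : Place), A.Over T →
    atPlace (σ • A) = c σ + adAct M σ (atPlace A)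
  atEmb_twist : ∀ (σ : GQ) (ι : Emb), atEmb ι = c σ + adAct M σ (atEmb (ι.twist σ))
  atEmb_conj : ∀ ι : Emb, atEmb ι.conj = atEmb ι
  trace_atPlace : ∀ A : Place, (atPlace A).trace = 0
  trace_atEmb : ∀ ι : Emb, (atEmb ι).trace = 0

theorem adAct_mul (M : MatRep k) (σ τ : GQ) (X : 𝕄) :
    adAct M (σ * τ) X = adAct M σ (adAct M τ X) := by
  simp only [adAct, map_mul, _root_.mul_inv_rev, mul_assoc]

theorem adAct_add (M : MatRep k) (σ : GQ) (X Y : 𝕄) :
    adAct M σ (X + Y) = adAct M σ X + adAct M σ Y := by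
  simp only [adAct, mul_add, add_mul]

theorem adAct_sub (M : MatRep k) (σ : GQ) (X Y : 𝕄) :
    adAct M σ (X - Y) = adAct M σ X - adAct M σ Y := by
  simp only [adAct, mul_sub, sub_mul]

theorem exists_twist_eq (ι₀ ι : Emb) : ∃ ρ : GQ, ι₀.twist ρ = ι := by
  obtain ⟨σ, -, hσ⟩ := exists_smul_of_res_eq (F := ⊥) (ι := ι₀) (ι' := ι) (RingHom.ext fun x => by
    obtain ⟨q, hq⟩ := IntermediateField.mem_bot.mp x.2
    rw [Emb.res_apply, Emb.res_apply, ← hq, eq_ratCast, map_ratCast, map_ratCast])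
  exact ⟨σ, hσ.symm⟩

/-- The trivialisations attached to an element of `pairSet`. -/
theorem exists_locTriv {T Q : Finset ℕ} {A : ℕ → ValuationSubring ℚ̄}
    (hT : ∀ l ∈ T, l.Prime) (hA : ∀ l ∈ T, (A l).LiesOverPrime l) (ι₀ : Emb) (τ₀ : GQ)
    (hτ₀ : ι₀.conj = ι₀.twist τ₀) {x : (GQ → 𝕄) × (T → 𝕄) × 𝕄}
    (hx : x ∈ pairSet M T Q A τ₀) :
    ∃ D : LocTriv M x.1 T, D.atEmb ι₀ = x.2.2 ∧
      ∀ l : T, D.atPlace ⟨A l, l, hT l l.2, hA l l.2⟩ = x.2.1 l := by
  classical
  obtain ⟨hc, -, hloc, hYtr, hY⟩ := hx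
  choose ρ hρ using exists_twist_eq ι₀
  let P : T → Place := fun l => ⟨A l, l, hT l l.2, hA l l.2⟩
  have hwell : ∀ (l l' : T) (σ σ' : GQ), σ • P l = σ' • P l' →
      x.1 σ + adAct M σ (x.2.1 l) = x.1 σ' + adAct M σ' (x.2.1 l') := by
    intro l l' σ σ' h
    have hl : l = l' := by
      refine Subtype.ext ?_
      have := congrArg Place.char h
      rwa [Place.char_smul, Place.char_smul, (P l).char_eq (hT l l.2) (hA l l.2),
        (P l').char_eq (hT l' l'.2) (hA l' l'.2)] at this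
    subst hl
    have hD : σ⁻¹ * σ' ∈ (A l).decompositionSubgroup ℚ := MulAction.mem_stabilizer_iff.mpr (by
      have h' := congrArg (fun B : Place => σ⁻¹ • B) h
      simp only [inv_smul_smul] at h'
      rw [← mul_smul] at h'
      exact (congrArg Subtype.val h').symm)
    rw [show σ' = σ * (σ⁻¹ * σ') from (mul_inv_cancel_left _ _).symm, hc.map_mul,
      adAct_mul M σ (σ⁻¹ * σ'), (hloc l).2 _ hD, adAct_sub]
    abel
  let ap : Place → 𝕄 := fun B =>
    if h : ∃ l : T, ∃ σ : GQ, σ • P l = B then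
      x.1 h.choose_spec.choose + adAct M h.choose_spec.choose (x.2.1 h.choose) else 0
  have hap : ∀ (l : T) (σ : GQ), ap (σ • P l) = x.1 σ + adAct M σ (x.2.1 l) := by
    intro l σ
    have h : ∃ l' : T, ∃ σ' : GQ, σ' • P l' = σ • P l := ⟨l, σ, rfl⟩
    simp only [ap, dif_pos h]
    exact hwell _ _ _ _ h.choose_spec.choose_spec
  let ae : Emb → 𝕄 := fun ι => x.1 (ρ ι)⁻¹ + adAct M (ρ ι)⁻¹ x.2.2
  have hae : ∀ (ι : Emb) (r : GQ), ι₀.twist r = ι → ae ι = x.1 r⁻¹ + adAct M r⁻¹ x.2.2 :=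
    fun ι r hr => by rw [Emb.twist_injective ι₀ ((hρ ι).trans hr.symm |>.trans rfl) |>.symm]
  have hG : ∀ r t : GQ, x.1 (r * t) + adAct M (r * t) x.2.2 =
      x.1 r + adAct M r (x.1 t + adAct M t x.2.2) := fun r t => by
    rw [hc.map_mul, adAct_mul, adAct_add, add_assoc]
  refine ⟨⟨ap, ae, fun σ B hB => ?_, fun σ ι => ?_, fun ι => ?_, fun B => ?_, fun ι => ?_⟩, ?_,
    fun l => ?_⟩
  · obtain ⟨q, hqT, hq, hBq⟩ := hB
    obtain ⟨τ, hτ⟩ := GalCommon.exists_smul_eq_of_liesOverPrime hq (hA q hqT) hBq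
    obtain rfl : τ • P ⟨q, hqT⟩ = B := Subtype.ext hτ
    rw [← mul_smul, hap, hap, hc.map_mul, adAct_mul, adAct_add, add_assoc]
  · rw [hae (ι.twist σ) (ρ ι * σ) (by rw [← Emb.twist_mul, hρ]), _root_.mul_inv_rev, ← hG,
      mul_inv_cancel_left]
  · rw [hae ι.conj (τ₀ * ρ ι) (by rw [← Emb.twist_mul, ← hτ₀, Emb.conj_twist, hρ]),
      _root_.mul_inv_rev, hG]
    have hGτ : x.1 τ₀ + adAct M τ₀ x.2.2 = x.2.2 := by rw [hY, sub_add_cancel]
    have hG1 : x.1 τ₀⁻¹ + adAct M τ₀⁻¹ x.2.2 = x.2.2 := by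
      have h := hG τ₀⁻¹ τ₀
      rw [hGτ, inv_mul_cancel, tCocycle_one hc] at h
      rw [← h]; simp [adAct]
    rw [hG1]
  · simp only [ap]
    split_ifs with h
    · rw [Matrix.trace_add, trace_adAct, hc.trace_eq_zero, (hloc h.choose).1, add_zero]
    · exact Matrix.trace_zero _ _
  · simp only [ae]
    rw [Matrix.trace_add, trace_adAct, hc.trace_eq_zero, hYtr, add_zero]
  · show ae ι₀ = x.2.2
    rw [hae ι₀ 1 (Emb.twist_one ι₀), inv_one, tCocycle_one hc]
    simp [adAct]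
  · show ap (P l) = x.2.1 l
    rw [← one_smul GQ (P l), hap, tCocycle_one hc]
    simp [adAct]

variable {c : GQ → Matrix (Fin 2) (Fin 2) k} {T Q : Finset ℕ}
  {ψ : AddChar k (AlgebraicClosure ℚ)ˣ}

/-- An idele attached to an element of the free module. -/
def IsGoodIdele (Q : Finset ℕ) (L : KummerLift (M := M) ψ c) (D : LocTriv M c T)
    (x : Coh.Free (Img M) (TwAd M)) (φ : ideles (fieldOf M)) : Prop :=
  (∀ A : Place, A.Over T →
    φ.1.fin A = L.toFun x * kPair ψ (D.atPlace A) (Coh.proj (Img M) (TwAd M) x)) ∧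
  (∀ ι : Emb, φ.1.inf ι = Units.map (ι : ℚ̄ →* ℂ)
    (L.toFun x * kPair ψ (D.atEmb ι) (Coh.proj (Img M) (TwAd M) x))) ∧
  ∀ A : Place, ¬ A.Over (T ∪ Q) →
    A.1.valuation (φ.1.fin A : ℚ̄) = A.1.valuation (L.toFun x : ℚ̄)

theorem valuation_of_pow_eq_one (hp : p ≠ 0) (A : Place) {z : ℚ̄ˣ} (hz : z ^ p = 1) :
    A.1.valuation (z : ℚ̄) = 1 :=
  (pow_eq_one_iff_of_nonneg zero_le hp).mp
    (by rw [← map_pow, ← Units.val_pow_eq_pow_val, hz, Units.val_one, map_one])

theorem valuation_mul_root (hp : p ≠ 0) (A : Place) (y : ℚ̄ˣ) {z : ℚ̄ˣ} (hz : z ^ p = 1) :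
    A.1.valuation ((y * z : ℚ̄ˣ) : ℚ̄) = A.1.valuation (y : ℚ̄) := by
  rw [Units.val_mul, map_mul, valuation_of_pow_eq_one hp A hz, mul_one]

section Good

variable [Fact p.Prime] (hdet : DetCyclotomic M p) (hψ : ∀ a, ψ a ^ p = 1)
  (L : KummerLift (M := M) ψ c) (D : LocTriv M c T)

omit [Fact p.Prime] in
theorem IsGoodIdele.mul {x y : Coh.Free (Img M) (TwAd M)} {φ φ' : ideles (fieldOf M)}
    (h : IsGoodIdele Q L D x φ) (h' : IsGoodIdele Q L D y φ') :
    IsGoodIdele Q L D (x + y) (φ * φ') := by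
  refine ⟨fun A hA => ?_, fun ι => ?_, fun A hA => ?_⟩
  · rw [Subgroup.coe_mul, fin_mul, h.1 A hA, h'.1 A hA, L.map_add, map_add, kPair_add_right,
      mul_mul_mul_comm]
  · rw [Subgroup.coe_mul, inf_mul, h.2.1 ι, h'.2.1 ι, L.map_add, map_add, kPair_add_right,
      ← map_mul, mul_mul_mul_comm]
  · rw [Subgroup.coe_mul, fin_mul, Units.val_mul, map_mul, h.2.2 A hA, h'.2.2 A hA, L.map_add,
      Units.val_mul, map_mul]

include hdet hψ in
theorem IsGoodIdele.smul (σ : GQ) {x : Coh.Free (Img M) (TwAd M)} {φ : ideles (fieldOf M)}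
    (h : IsGoodIdele Q L D x φ) :
    IsGoodIdele Q L D (toImg M σ • x) ⟨σ • φ.1, smul_mem_ideles σ φ.2⟩ := by
  refine ⟨fun A hA => ?_, fun ι => ?_, fun A hA => ?_⟩
  · show galU σ (φ.1.fin (σ⁻¹ • A)) = _
    rw [h.1 _ (hA.smul _), map_mul, galU_kPair ψ hdet hψ, L.galU_toFun, Coh.proj_smul, mul_assoc,
      ← kPair_add_left, ← D.atPlace_smul σ _ (hA.smul _), smul_inv_smul]
  · show φ.1.inf (ι.twist σ) = _
    rw [h.2.1, D.atEmb_twist σ ι, kPair_add_left, ← mul_assoc, Coh.proj_smul, ← L.galU_toFun,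
      ← galU_kPair ψ hdet hψ, ← map_mul (galU σ)]
    exact Units.ext rfl
  · show A.1.valuation ((galU σ (φ.1.fin (σ⁻¹ • A)) : ℚ̄ˣ) : ℚ̄) = _
    have h1 := h.2.2 (σ⁻¹ • A) (fun h' => hA (Place.over_smul_iff.mp h'))
    have h2 := (valuation_smul_eq_iff σ (σ⁻¹ • A)).mpr h1
    rw [smul_inv_smul] at h2
    rw [coe_galU, h2, ← coe_galU, L.galU_toFun,
      valuation_mul_root (Fact.out : p.Prime).ne_zero A _ (kPair_pow ψ hψ _ _)]

variable (hM : FactorsFinite M)
  (hunr : ∀ A : Place, ¬ A.Over (T ∪ Q) → ∀ σ ∈ A.1.inertiaSubgroupIn ℚ, M σ = 1 ∧ c σ = 0)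

include hdet hψ hM hunr in
theorem exists_goodIdele (x : Coh.Free (Img M) (TwAd M)) : ∃ φ, IsGoodIdele Q L D x φ := by
  classical
  have hp := (Fact.out : p.Prime).ne_zero
  set β := L.toFun x with hβ
  set n := Coh.proj (Img M) (TwAd M) x with hn
  have hmove : ∀ σ, toImg M σ = 1 → galU σ β = β * kPair ψ (c σ) n := fun σ hσ => by
    rw [hβ, L.galU_toFun, hσ, one_smul, one_smul]
  obtain ⟨φ₀, hφ₀, hval⟩ := exists_valuation_idele (T := T ∪ Q) (F := fieldOf M) β
    (fun σ hσ A => by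
      rw [← coe_galU, hmove σ (toImg_eq_one_of_mem hM hσ),
        valuation_mul_root hp A _ (kPair_pow ψ hψ _ _)])
    (fun A hA σ hσ => by
      obtain ⟨h1, h2⟩ := hunr A hA σ hσ
      rw [← coe_galU, hmove σ ((toImg_eq_one_iff M σ).mpr h1), h2, kPair_zero_left, mul_one])
  let φ : PreIdele :=
    { fin := fun A => if A.Over T then β * kPair ψ (D.atPlace A) n else φ₀.fin A
      inf := fun ι => Units.map (ι : ℚ̄ →* ℂ) (β * kPair ψ (D.atEmb ι) n) }
  obtain ⟨S, hS⟩ := hφ₀.2.2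
  refine ⟨⟨φ, fun σ hσ => PreIdele.ext (funext fun A => ?_) (funext fun ι => ?_), fun ι => ?_,
    T ∪ S, fun A hA => ?_⟩, fun A hA => if_pos hA, fun ι => rfl, fun A hA => ?_⟩
  · show galU σ (φ.fin (σ⁻¹ • A)) = φ.fin A
    have hσ1 := toImg_eq_one_of_mem hM hσ
    by_cases hA : A.Over T
    · simp only [φ, if_pos hA, if_pos (hA.smul σ⁻¹)]
      rw [map_mul, galU_kPair ψ hdet hψ, hmove σ hσ1, hσ1, one_smul, mul_assoc, ← kPair_add_left,
        ← D.atPlace_smul σ _ (hA.smul _), smul_inv_smul]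
    · simp only [φ, if_neg hA, if_neg (fun h => hA (Place.over_smul_iff.mp h : A.Over T))]
      exact congrFun (congrArg PreIdele.fin (hφ₀.1 σ hσ)) A
  · have hσ1 := toImg_eq_one_of_mem hM hσ
    show Units.map ((ι.twist σ : Emb) : ℚ̄ →* ℂ) _ = Units.map (ι : ℚ̄ →* ℂ) _
    conv_rhs => rw [D.atEmb_twist σ ι, kPair_add_left, ← mul_assoc, ← hmove σ hσ1,
      adAct_of_toImg_eq_one hσ1]
    rw [map_mul (Units.map ((ι.twist σ : Emb) : ℚ̄ →* ℂ)), map_mul (Units.map (ι : ℚ̄ →* ℂ))]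
    refine congrArg₂ (· * ·) (Units.ext rfl) ?_
    have : galU σ (kPair ψ (D.atEmb (ι.twist σ)) n) = kPair ψ (D.atEmb (ι.twist σ)) n := by
      rw [galU_kPair ψ hdet hψ, hσ1, one_smul, adAct_of_toImg_eq_one hσ1]
    conv_rhs => rw [← this]
    exact Units.ext rfl
  · simp only [φ, D.atEmb_conj]
    exact Units.ext rfl
  · have hAT : ¬ A.Over T := fun ⟨q, hq, h⟩ => hA ⟨q, Finset.mem_union_left _ hq, h⟩
    simp only [φ, if_neg hAT]
    exact hS A fun ⟨q, hq, h⟩ => hA ⟨q, Finset.mem_union_right _ hq, h⟩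
  · have hAT : ¬ A.Over T := fun ⟨q, hq, h⟩ => hA ⟨q, Finset.mem_union_left _ hq, h⟩
    simp only [φ, if_neg hAT]
    exact hval A hA

omit [Fact p.Prime] in
/-- Two good ideles for the same element have the same class. -/
theorem IsGoodIdele.classOf_eq {x : Coh.Free (Img M) (TwAd M)} {φ φ' : ideles (fieldOf M)}
    (h : IsGoodIdele Q L D x φ) (h' : IsGoodIdele Q L D x φ') :
    classOf (awayKer M T Q) φ = classOf (awayKer M T Q) φ' := by
  have h0 : classOf (awayKer M T Q) (φ⁻¹ * φ') = 0 := by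
    refine (classOf_eq_zero_iff _ _).mpr (Subgroup.mem_sup_right ?_)
    refine ⟨⟨(φ⁻¹ * φ').2, fun A hA => ?_, funext fun ι => ?_⟩, fun A hA => ?_⟩
    · rw [Subgroup.coe_mul, Subgroup.coe_inv, fin_mul, fin_inv, h.1 A hA, h'.1 A hA,
        inv_mul_cancel]
    · rw [Subgroup.coe_mul, Subgroup.coe_inv, inf_mul, inf_inv, h.2.1 ι, h'.2.1 ι, inv_mul_cancel]
      rfl
    · rw [Subgroup.coe_mul, Subgroup.coe_inv, fin_mul, fin_inv]
      by_cases hAT : A.Over T
      · rw [h.1 A hAT, h'.1 A hAT, inv_mul_cancel]; exact one_mem _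
      · have hAU : ¬ A.Over (T ∪ Q) := fun hh => by
          rw [Place.over_iff, Finset.mem_union, ← Place.over_iff, ← Place.over_iff] at hh
          exact hh.elim hAT hA
        rw [mem_unitGroup_iff, Units.val_mul, map_mul, Units.val_inv_eq_inv_val, map_inv₀,
          h.2.2 A hAU, h'.2.2 A hAU, inv_mul_cancel₀]
        simp
  rw [← add_zero (classOf (awayKer M T Q) φ), ← h0, ← classOf_mul, mul_inv_cancel_left]

include hdet hψ hM hunr in
/-- The homomorphism attached to a cocycle with trivialisations. -/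
theorem exists_classHom : ∃ f : HomCTQ M T Q, ∀ x φ, IsGoodIdele Q L D x φ →
    f.1 (Coh.proj (Img M) (TwAd M) x) = classOf (awayKer M T Q) φ := by
  choose g hg using exists_goodIdele hdet hψ L D hM hunr
  let cls : Coh.Free (Img M) (TwAd M) → CTQ M T Q := fun x => classOf (awayKer M T Q) (g x)
  have hadd : ∀ x y, cls (x + y) = cls x + cls y := fun x y =>
    ((hg (x + y)).classOf_eq L D ((hg x).mul L D (hg y))).trans (classOf_mul _ _ _)
  have hker : ∀ x, Coh.proj (Img M) (TwAd M) x = 0 → cls x = 0 := fun x hx => by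
    have hK : (L.toFun x : ℚ̄) ∈ fieldOf M := mem_of_forall_fixed fun σ hσ => by
      have hσ1 := toImg_eq_one_of_mem hM hσ
      rw [← coe_galU, L.galU_toFun, hσ1, one_smul, one_smul, hx, kPair_zero_right, mul_one]
    have hgood : IsGoodIdele Q L D x ⟨principalHom (L.toFun x), principalHom_mem_ideles hK⟩ :=
      ⟨fun A _ => by rw [hx, kPair_zero_right, mul_one]; rfl,
        fun ι => by rw [hx, kPair_zero_right, mul_one]; rfl, fun A _ => rfl⟩
    refine ((hg x).classOf_eq L D hgood).trans ((classOf_eq_zero_iff _ _).mpr ?_)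
    exact Subgroup.mem_sup_left ⟨_, hK, rfl⟩
  have hproj : ∀ x y, Coh.proj (Img M) (TwAd M) x = Coh.proj (Img M) (TwAd M) y →
      cls x = cls y := fun x y h => by
    have := hadd (x - y) y
    rwa [sub_add_cancel, hker (x - y) (by rw [map_sub, h, sub_self]), zero_add] at this
  let f : TwAd M →+ CTQ M T Q :=
    { toFun := fun n => cls (Coh.Free.of 1 n)
      map_zero' := hker _ (by simp)
      map_add' := fun n n' => by rw [← hadd]; exact hproj _ _ (by simp) }
  refine ⟨⟨f, fun s n => ?_⟩, fun x φ hφ => ?_⟩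
  · obtain ⟨σ, rfl⟩ := toImg_surjective M s
    show cls (Coh.Free.of 1 (toImg M σ • n)) = toImg M σ • cls (Coh.Free.of 1 n)
    rw [hproj (Coh.Free.of 1 (toImg M σ • n)) (toImg M σ • Coh.Free.of 1 n) (by simp)]
    show classOf (awayKer M T Q) _ = toImg M σ • classOf (awayKer M T Q) _
    rw [smul_classOf _ rfl]
    exact (hg _).classOf_eq L D ((hg _).smul hdet hψ L D σ)
  · show cls (Coh.Free.of 1 (Coh.proj (Img M) (TwAd M) x)) = _
    rw [hproj _ x (by simp)]
    exact (hg x).classOf_eq L D hφ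

end Good

/-- All trivialisations agree if the homomorphism and one trivialisation at infinity do. -/
theorem locTriv_eq_of_classHom_eq (h2 : (2 : k) ≠ 0) (hne : ∃ a, ψ a ≠ 1) {c' : GQ → 𝕄}
    {L : KummerLift (M := M) ψ c} {D : LocTriv M c T} {L' : KummerLift (M := M) ψ c'}
    {D' : LocTriv M c' T} (ι₀ : Emb) (h0 : D.atEmb ι₀ = D'.atEmb ι₀)
    (h : ∀ x, ∃ φ φ', IsGoodIdele Q L D x φ ∧ IsGoodIdele Q L' D' x φ' ∧
      classOf (awayKer M T Q) φ = classOf (awayKer M T Q) φ') :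
    (∀ ι, D.atEmb ι = D'.atEmb ι) ∧ ∀ A : Place, A.Over T → D.atPlace A = D'.atPlace A := by
  have hr : ∀ x, (∀ ι, kPair ψ (D.atEmb ι - D'.atEmb ι) (Coh.proj (Img M) (TwAd M) x) = 1) ∧
      ∀ A : Place, A.Over T →
        kPair ψ (D.atPlace A - D'.atPlace A) (Coh.proj (Img M) (TwAd M) x) = 1 := by
    intro x
    obtain ⟨φ, φ', hφ, hφ', he⟩ := h x
    have hmem : (φ⁻¹ * φ' : ideles (fieldOf M)).1 ∈ awayKer M T Q := by
      rw [← classOf_eq_zero_iff]
      have hm := classOf_mul (awayKer M T Q) φ (φ⁻¹ * φ')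
      rw [mul_inv_cancel_left, ← he] at hm
      exact add_eq_left.mp hm.symm
    obtain ⟨_, ⟨r, -, rfl⟩, u, hu, hru⟩ := Subgroup.mem_sup.mp hmem
    have hι : ∀ ι : Emb, L.toFun x * kPair ψ (D.atEmb ι) (Coh.proj (Img M) (TwAd M) x) * r =
        L'.toFun x * kPair ψ (D'.atEmb ι) (Coh.proj (Img M) (TwAd M) x) := fun ι => by
      refine Units.map_injective ι.injective ?_
      have := congrArg (fun φ : PreIdele => φ.inf ι) hru
      simp only [inf_mul, hu.1.2.2, Pi.one_apply, mul_one, Subgroup.coe_mul, Subgroup.coe_inv,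
        inf_inv, hφ.2.1, hφ'.2.1] at this
      rw [map_mul]
      exact (congrArg (_ * ·) this).trans (mul_inv_cancel_left _ _)
    have hT : ∀ A : Place, A.Over T →
        L.toFun x * kPair ψ (D.atPlace A) (Coh.proj (Img M) (TwAd M) x) * r =
        L'.toFun x * kPair ψ (D'.atPlace A) (Coh.proj (Img M) (TwAd M) x) := fun A hA => by
      have := congrArg (fun φ : PreIdele => φ.fin A) hru
      simp only [fin_mul, hu.1.2.1 A hA, mul_one, Subgroup.coe_mul, Subgroup.coe_inv, fin_inv,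
        hφ.1 A hA, hφ'.1 A hA] at this
      rw [show r = (principalHom r).fin A from rfl, this, mul_inv_cancel_left]
    have hr0 : L.toFun x * r = L'.toFun x := by
      have := hι ι₀
      rw [h0, mul_right_comm] at this
      exact mul_right_cancel this
    have key : ∀ X X' : 𝕄, L.toFun x * kPair ψ X (Coh.proj (Img M) (TwAd M) x) * r =
        L'.toFun x * kPair ψ X' (Coh.proj (Img M) (TwAd M) x) →
        kPair ψ (X - X') (Coh.proj (Img M) (TwAd M) x) = 1 := fun X X' he => by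
      rw [mul_right_comm, hr0] at he
      have h' := mul_left_cancel he
      rwa [← sub_add_cancel X X', kPair_add_left, mul_eq_right] at h'
    exact ⟨fun ι => key _ _ (hι ι), fun A hA => key _ _ (hT A hA)⟩
  refine ⟨fun ι => sub_eq_zero.mp (eq_zero_of_kPair (M := M) ψ h2 hne (by
      rw [Matrix.trace_sub, D.trace_atEmb, D'.trace_atEmb, sub_self]) fun n => ?_),
    fun A hA => sub_eq_zero.mp (eq_zero_of_kPair (M := M) ψ h2 hne (by
      rw [Matrix.trace_sub, D.trace_atPlace, D'.trace_atPlace, sub_self]) fun n => ?_)⟩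
  · obtain ⟨x, rfl⟩ := Coh.proj_surjective (G := Img M) n
    exact (hr x).1 ι
  · obtain ⟨x, rfl⟩ := Coh.proj_surjective (G := Img M) n
    exact (hr x).2 A hA

variable [Finite k] [Fact p.Prime] [CharP k p]

omit [Fact p.Prime] [CharP k p] in
theorem card_twAd (M : MatRep k) : Nat.card (TwAd M) = Nat.card k ^ 3 := by
  have hT : Module.finrank k (TwAd M) = 3 := by
    have h3 := LinearMap.finrank_range_add_finrank_ker (Matrix.traceLinearMap (Fin 2) k k)
    rw [LinearMap.range_eq_top.mpr fun c => ⟨!![c, 0; 0, 0], by simp [Matrix.trace_fin_two]⟩,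
      finrank_top, Module.finrank_self, Module.finrank_matrix, Fintype.card_fin,
      Module.finrank_self] at h3
    show Module.finrank k ↥(LinearMap.ker (Matrix.traceLinearMap (Fin 2) k k)) = 3
    omega
  haveI : Module.Finite k (TwAd M) := Module.finite_of_finrank_eq_succ hT
  rw [Module.natCard_eq_pow_finrank (K := k), hT]

theorem card_pairSet_le (hM : Adequate M p) (T Q : Finset ℕ) (hpT : p ∈ T)
    (hT : ∀ l ∈ T, l.Prime) (hTQ : Disjoint T Q)
    (hunr : ∀ q : ℕ, q.Prime → q ∉ T → ∀ P : ValuationSubring (AlgebraicClosure ℚ),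
      P.LiesOverPrime q → ∀ τ ∈ P.inertiaSubgroupIn ℚ, M τ = 1)
    (A : ℕ → ValuationSubring (AlgebraicClosure ℚ)) (hA : ∀ l ∈ T, (A l).LiesOverPrime l)
    (ι₀ : AlgebraicClosure ℚ →+* ℂ) (τ₀ : GQ)
    (hτ₀ : (starRingEnd ℂ).comp ι₀ = ι₀.comp (τ₀ : AlgebraicClosure ℚ →+* AlgebraicClosure ℚ))
    [Finite (HomCTQ M T Q)] :
    (pairSet M T Q A τ₀).Finite ∧
      (pairSet M T Q A τ₀).ncard ≤ Nat.card k ^ 3 * Nat.card (HomCTQ M T Q) := by
  have h2 : (2 : k) ≠ 0 := by
    have : ((2 : ℕ) : k) ≠ 0 := fun h => hM.ne_two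
      ((Nat.prime_dvd_prime_iff_eq Fact.out Nat.prime_two).mp ((CharP.cast_eq_zero_iff k p 2).mp h))
    simpa using this
  obtain ⟨ψ, hψ, hne⟩ := exists_muChar (k := k) (p := p)
  have L : ∀ x : pairSet M T Q A τ₀, KummerLift (M := M) ψ x.1.1 := fun x =>
    (nonempty_kummerLift ψ hM.det hψ x.2.1).some
  choose D hD0 hDl using fun x : pairSet M T Q A τ₀ =>
    exists_locTriv hT hA ι₀ τ₀ hτ₀ x.2
  have hunr' : ∀ x : pairSet M T Q A τ₀, ∀ B : Place, ¬ B.Over (T ∪ Q) →
      ∀ σ ∈ B.1.inertiaSubgroupIn ℚ, M σ = 1 ∧ x.1.1 σ = 0 := fun x B hB σ hσ => by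
    rw [Place.over_iff, Finset.mem_union, not_or] at hB
    exact ⟨hunr _ B.prime_char hB.1 _ B.liesOver_char σ hσ,
      x.2.2.1 _ B.prime_char hB.1 hB.2 _ B.liesOver_char σ hσ⟩
  choose f hf using fun x : pairSet M T Q A τ₀ =>
    exists_classHom hM.det hψ (L x) (D x) hM.finite (hunr' x)
  let Ψ : pairSet M T Q A τ₀ → HomCTQ M T Q × TwAd M := fun x =>
    (f x, TwAd.mk x.1.2.2 x.2.2.2.2.1)
  have hΨ : Function.Injective Ψ := fun x y hxy => by
    have hf' : f x = f y := congrArg Prod.fst hxy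
    have hY : x.1.2.2 = y.1.2.2 := congrArg (fun z : HomCTQ M T Q × TwAd M => TwAd.mat z.2) hxy
    obtain ⟨hE, hP⟩ := locTriv_eq_of_classHom_eq h2 hne ι₀
      (show (D x).atEmb ι₀ = (D y).atEmb ι₀ by rw [hD0, hD0, hY]) fun z => by
      obtain ⟨φ, hφ⟩ := exists_goodIdele hM.det hψ (L x) (D x) hM.finite (hunr' x) z
      obtain ⟨φ', hφ'⟩ := exists_goodIdele hM.det hψ (L y) (D y) hM.finite (hunr' y) z
      exact ⟨φ, φ', hφ, hφ', by rw [← hf x z φ hφ, ← hf y z φ' hφ', hf']⟩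
    refine Subtype.ext (Prod.ext (funext fun σ => ?_) (Prod.ext (funext fun l => ?_) hY))
    · have ex := (D x).atEmb_twist σ ι₀
      have ey := (D y).atEmb_twist σ ι₀
      rw [← hE, ← hE] at ey
      exact add_right_cancel (ex.symm.trans ey)
    · rw [← hDl x l, ← hDl y l]
      exact hP _ ⟨l, l.2, hT l l.2, hA l l.2⟩
  haveI : Finite (pairSet M T Q A τ₀) := Finite.of_injective Ψ hΨ
  refine ⟨Set.toFinite _, ?_⟩
  rw [← Nat.card_coe_set_eq]
  calc Nat.card (pairSet M T Q A τ₀) ≤ Nat.card (HomCTQ M T Q × TwAd M) :=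
        Nat.card_le_card_of_injective Ψ hΨ
    _ = Nat.card k ^ 3 * Nat.card (HomCTQ M T Q) := by
        rw [Nat.card_prod, card_twAd, mul_comm]

end FLTAgent.TW
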