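import Fermat.Agent.TW.Global.DetectEquiv

/-!
# Detection of extension classes by auxiliary places

A functional killing `W` gives an invariant pairing `β` of the dual of `TwAd` with `C_T`; Kummer
theory turns it into a map `ρ` on `ker (toImg M)` (`exists_rho`), equivariant by Frobenius density
(`rho_equivariant`), nonzero at the order of an element with distinct eigenvalues
(`exists_pow_ne_zero`); a Frobenius restricting to a power of that element gives the prime
(`isAuxPrime_of_frobenius`).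
-/

set_option autoImplicit false
set_option linter.style.haveILetI false
set_option maxHeartbeats 800000

noncomputable section

namespace FLTAgent.TW

open Matrix FLTAgent.Deform
open scoped Pointwise

variable {k : Type} [Field k] [Finite k] {p : ℕ} [Fact p.Prime] [CharP k p] {M : MatRep k}

/-- There are auxiliary primes outside every finite set. -/
theorem exists_isAuxPrime (hM : Adequate M p) (n : ℕ) (avoid : Finset ℕ) :
    ∃ q, IsAuxPrime M p n q ∧ q ∉ avoid := by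
  classical
  have hp : p.Prime := Fact.out
  obtain ⟨σ, hσ, α, β, hne, ht, hd⟩ := exists_distinct hM (n + 1)
  haveI : NeZero ((p ^ (n + 1) : ℕ) : AlgebraicClosure ℚ) :=
    ⟨Nat.cast_ne_zero.mpr (pow_ne_zero _ hp.ne_zero)⟩
  obtain ⟨ξ, hξ⟩ := HasEnoughRootsOfUnity.exists_primitiveRoot (AlgebraicClosure ℚ) (p ^ (n + 1))
  haveI : FiniteDimensional ℚ (IntermediateField.adjoin ℚ ({ξ} : Set (AlgebraicClosure ℚ))) :=
    IntermediateField.adjoin.finiteDimensional (Algebra.IsIntegral.isIntegral (R := ℚ) ξ)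
  obtain ⟨L, hfin, hgal, hLU⟩ := Density.exists_finite_galois_fixingSubgroup_le
    ((toImg M).ker ⊓ (IntermediateField.adjoin ℚ ({ξ} : Set (AlgebraicClosure ℚ))).fixingSubgroup)
    (by
      rw [Subgroup.coe_inf]
      exact (isOpen_ker hM.finite).inter (IntermediateField.fixingSubgroup_isOpen _))
  obtain ⟨q, hq, hqA, hur, A, hA, τ, hτ, j, hj, hres⟩ :=
    Density.exists_isFrobeniusAt_restrict_eq_pow L (AlgEquiv.restrictNormalHom L σ) (insert p avoid)
  rw [Finset.mem_insert, not_or] at hqA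
  refine ⟨q, isAuxPrime_of_frobenius n L (fun s hs => (Subgroup.mem_inf.mp (hLU hs)).1) ?_ hσ hne
    ht hd hq hqA.1 hur hA hτ hj hres, hqA.2⟩
  intro s hs z hz
  haveI : NeZero (p ^ (n + 1)) := ⟨pow_ne_zero _ hp.ne_zero⟩
  obtain ⟨i, -, rfl⟩ := hξ.eq_pow_of_pow_eq_one hz
  rw [map_pow, (IntermediateField.mem_fixingSubgroup_iff _ _).mp (Subgroup.mem_inf.mp (hLU hs)).2 ξ
    (IntermediateField.mem_adjoin_simple_self ℚ ξ)]

/-- A proper subgroup of `Ext¹(TwAd, C_T)` misses a class from the place of an auxiliary prime. -/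
theorem exists_placeExt_not_le (hM : Adequate M p) (T : Finset ℕ)
    (hL : IdeleSetting T p (fieldOf M)) (hT : ∀ E ≤ fieldOf M, TPrincipal T E)
    [Finite (Coh.Ext1 (Img M) (TwAd M) (CT M T))]
    (hgen : ∀ c : Coh.Ext1 (Img M) (TwAd M) (CT M T),
      ∃ g : Coh.Rel (Img M) (TwAd M) →+ CT M T,
        c = Coh.Ext1.mk ⟨Coh.htrace (Img M) g, Coh.htrace_mem g⟩)
    (W : AddSubgroup (Coh.Ext1 (Img M) (TwAd M) (CT M T))) (hW : W ≠ ⊤)
    (n : ℕ) (avoid : Finset ℕ) :
    ∃ q, IsAuxPrime M p n q ∧ q ∉ T ∧ q ∉ avoid ∧ ¬ placeExt M T {q} ≤ W := by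
  classical
  obtain ⟨β, hβ0, hinv, hdet⟩ :=
    Coh.exists_pairing (TwAd.nsmul_eq_zero (p := p) (M := M)) hgen W hW
  obtain ⟨L, hfin, hgal, ρ, hfix, hadd, hfrob, hzero⟩ := exists_rho hM T hL hT β n
  have hequiv : ∀ h, toImg M h = 1 → ∀ τ, ρ (τ * h * τ⁻¹) = toImg M τ • ρ h := fun h hh τ =>
    rho_equivariant hfix hadd hM.finite hfrob hinv hh τ
  obtain ⟨σ, hσ, ⟨α, γ, hne, ht, hd⟩, hpf, hρσ⟩ :=
    exists_pow_ne_zero hfix hadd hM hequiv fun h => hβ0 (hzero h)
  obtain ⟨f, hf⟩ : ∃ f, f = orderOf (toImg M σ) := ⟨_, rfl⟩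
  obtain ⟨r, hr⟩ : ∃ r, r = AlgEquiv.restrictNormalHom L σ := ⟨_, rfl⟩
  have hσf : toImg M (σ ^ f) = 1 := by rw [map_pow, hf, pow_orderOf_eq_one]
  -- the order of the restriction is divisible by `p`
  have hpr : p ∣ orderOf r := by
    by_contra hpr
    obtain ⟨m, hm⟩ := orderOf_toImg_dvd (fun s hs => (hfix s hs).1) σ (L := L)
    rw [← hr, ← hf] at hm
    rw [← hf] at hρσ
    refine hρσ (eq_zero_of_nsmul_twAd (j := m) (fun hd => hpr (hm ▸ hd.mul_left f)) ?_)
    rw [← rho_pow hfix hadd hσf, ← pow_mul, ← hm]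
    exact (hfix _ (Density.mem_fixingSubgroup_of_restrict_eq_one
      (by rw [map_pow, ← hr, pow_orderOf_eq_one]))).2.1
  obtain ⟨q, hq, hqA, hur, A₀, hA, τ, hτ, j, hj, hres⟩ :=
    Density.exists_isFrobeniusAt_restrict_eq_pow L r (T ∪ avoid)
  rw [Finset.mem_union, not_or] at hqA
  have hqp : q ≠ p := fun h => hqA.1 (h ▸ hL.mem)
  refine ⟨q, isAuxPrime_of_frobenius n L (fun s hs => (hfix s hs).1)
    (fun s hs => (hfix s hs).2.2) hσ hne ht hd hq hqp hur hA hτ (hr ▸ hj) (hr ▸ hres), hqA.1, hqA.2, ?_⟩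
  have hpj : ¬ p ∣ j := fun hd =>
    (Fact.out : p.Prime).one_lt.ne' (Nat.dvd_one.mp (hj ▸ Nat.dvd_gcd hd hpr))
  have e1 : AlgEquiv.restrictNormalHom L (σ ^ j) = AlgEquiv.restrictNormalHom L τ := by
    rw [map_pow, ← hr, hres]
  have hord : orderOf (toImg M τ) = f := by
    rw [← toImg_eq_of_restrict (fun s hs => (hfix s hs).1) e1, map_pow, hf]
    exact Nat.Coprime.orderOf_pow
      (Nat.Coprime.coprime_dvd_right (orderOf_toImg_dvd (fun s hs => (hfix s hs).1) σ) (hr ▸ hj)).symm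
  have e2 : AlgEquiv.restrictNormalHom L ((σ ^ f) ^ j) = AlgEquiv.restrictNormalHom L (τ ^ f) := by
    rw [← pow_mul, mul_comm, pow_mul, map_pow, e1, ← map_pow]
  have hρτ : ρ (τ ^ orderOf (toImg M τ)) ≠ 0 := by
    rw [hord, (rho_congr hfix hadd (by rw [map_pow, hσf, one_pow]) e2).2, rho_pow hfix hadd hσf]
    exact fun h => hρσ (hf ▸ eq_zero_of_nsmul_twAd hpj h)
  let A : Place := ⟨A₀, q, hq, hA⟩
  obtain ⟨u, hu⟩ : ∃ u : TwAd M →+ ZMod p, u (ρ (τ ^ orderOf (toImg M τ))) ≠ 0 := by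
    by_contra hcon
    push Not at hcon
    exact hρτ (eq_of_forall_functional (TwAd.nsmul_eq_zero (p := p)) fun u => by
      rw [hcon u, map_zero])
  rw [hfrob q hq A hA hqA.1 τ hτ u] at hu
  obtain ⟨g₀, hg₀⟩ := hdet u _ hu
  refine fun hle => hg₀ (hle (AddSubgroup.subset_closure ⟨_, ?_, g₀, rfl⟩))
  exact ⟨q, Finset.mem_singleton_self q, hq, A, hA,
    ⟨placeIdele (fieldOf M) q hq.ne_zero A, placeIdele_mem_ideles hq hA⟩, rfl, rfl⟩

end FLTAgent.TW
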