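import Fermat.Agent.TW.Global.PlaceExt
import Fermat.Agent.TW.Idele.ClassField.PlaceNorm
import Fermat.Agent.TW.Coh.Euler
import Fermat.Agent.TW.Coh.ModPSeq
import Fermat.Agent.EllP.Unramified

/-!
# The count of `Hom(TwAd, C_T modulo the places above Q)`

The kernel `J` of `C_T → C_{T,Q}` is a lattice whose coordinates are the valuations at the places
above `Q`. When the extension classes from these places fill `Ext¹(TwAd, C_T)` and
`#Hom ≤ #Ext¹`, the long exact sequence gives `card_homCTQ_le`: at most `#k ^ #Q` homomorphisms.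
-/

set_option autoImplicit false
set_option linter.style.haveILetI false
set_option linter.unusedSectionVars false

noncomputable section

namespace FLTAgent.TW

open Matrix FLTAgent.Deform
open scoped Pointwise

local notation "ℚ̄" => AlgebraicClosure ℚ

namespace Coh

variable {G : Type} [Group G] [Fintype G] {p : ℕ} [Fact p.Prime] {N C Q : Type} [AddCommGroup N]
  [DistribMulAction G N] [AddCommGroup C] [DistribMulAction G C] [AddCommGroup Q]
  [DistribMulAction G Q]

/-- For a module without `p`-torsion extension classes are seen modulo `p`. -/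
theorem card_ext1_le_of_torsionFree {J : Type} [AddCommGroup J] [DistribMulAction G J]
    (hJ : ∀ x : J, p • x = 0 → x = 0) (hN : ∀ n : N, p • n = 0)
    [Finite (eqHom G N (ModP p J))] :
    Finite (Ext1 G N J) ∧ Nat.card (Ext1 G N J) ≤ Nat.card (eqHom G N (ModP p J)) := by
  let Φ : eqHom G (Rel G N) J →+ eqHom G N (ModP p J) := AddMonoidHom.mk'
    (fun f => ⟨modPHom hN f.1, mem_eqHom_of_hconj fun g => by
      rw [← modPHom_hconj, hconj_eq_self f.2]⟩)
    fun f f' => Subtype.ext (map_add (modPHom hN) f.1 f'.1)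
  have hker : ∀ f, Φ f = 0 → Ext1.mk f = 0 := fun f hf => by
    obtain ⟨D, hD⟩ := exists_extend_of_modPHom hN f.1 (congrArg Subtype.val hf)
    refine Ext1.mk_eq_zero_iff.mpr ⟨⟨D, fun g x => ?_⟩, hD⟩
    refine sub_eq_zero.mp (hJ _ ?_)
    have h1 : g • pRel G p hN x = pRel G p hN (g • x) := Subtype.ext (smul_comm g p x)
    rw [nsmul_sub, ← map_nsmul, smul_comm p g (D x), ← map_nsmul]
    show D (pRel G p hN (g • x) : Rel G N) - g • D (pRel G p hN x : Rel G N) = 0
    rw [hD, hD, ← h1, f.2, sub_self]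
  haveI : Finite (eqHom G (Rel G N) J ⧸ Φ.ker) :=
    Finite.of_injective _ (QuotientAddGroup.kerLift_injective Φ)
  let π : eqHom G (Rel G N) J ⧸ Φ.ker →+ Ext1 G N J :=
    QuotientAddGroup.lift _ Ext1.mk fun f hf => hker f hf
  have hπ : Function.Surjective π := fun c => by
    obtain ⟨f, rfl⟩ := Ext1.mk_surjective c
    exact ⟨QuotientAddGroup.mk f, rfl⟩
  exact ⟨Finite.of_surjective _ hπ, (Nat.card_le_card_of_surjective _ hπ).trans
    (Nat.card_le_card_of_injective _ (QuotientAddGroup.kerLift_injective Φ))⟩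

theorem StableSub.subtype_mem (J : StableSub G C) : J.sub.subtype ∈ eqHom G J.sub C :=
  mem_eqHom.mpr fun _ _ => rfl

/-- The count along the long exact sequence. -/
theorem card_eqHom_le_of_exact (J : StableSub G C) (π : C →+ Q) (hπ : π ∈ eqHom G C Q)
    (hsurj : Function.Surjective π) (hker : π.ker = J.sub)
    [Finite (eqHom G N C)] [Finite (Ext1 G N C)] [Finite (Ext1 G N J.sub)]
    (hle : Nat.card (eqHom G N C) ≤ Nat.card (Ext1 G N C))
    (hJ : Function.Surjective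
      (Ext1.map (N := N) J.sub.subtype J.subtype_mem)) :
    Finite (eqHom G N Q) ∧ Nat.card (eqHom G N Q) ≤ Nat.card (Ext1 G N J.sub) := by
  choose s hs using hsurj
  let i : Ext1 G N J.sub →+ Ext1 G N C :=
    Ext1.map J.sub.subtype J.subtype_mem
  let L : eqHom G N Q → (Free G N →+ C) := fun f => Free.eqLift fun n => s (f.1 n)
  have hL : ∀ f x, π (L f x) = f.1 (proj G N x) := fun f x =>
    DFunLike.congr_fun (Free.hom_ext (f := π.comp (L f)) (f' := f.1.comp (proj G N)) fun g n => by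
      rw [AddMonoidHom.comp_apply, AddMonoidHom.comp_apply, Free.eqLift_of, proj_of, hπ, hs, f.2]) x
  have hmem : ∀ f (y : Rel G N), L f y ∈ J.sub := fun f y => by
    rw [← hker, AddMonoidHom.mem_ker, hL, mem_rel_iff.mp y.2, map_zero]
  let R : eqHom G N Q → eqHom G (Rel G N) J.sub := fun f =>
    ⟨AddMonoidHom.mk' (fun y => ⟨L f y, hmem f y⟩) fun y y' => Subtype.ext (map_add (L f) _ _),
      fun g y => Subtype.ext (Free.eqLift_mem _ g y.1)⟩
  let δ : eqHom G N Q →+ Ext1 G N J.sub := AddMonoidHom.mk' (fun f => Ext1.mk (R f)) fun f f' => by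
    rw [← sub_eq_zero, ← map_add, ← map_sub, Ext1.mk_eq_zero_iff]
    have hJmem : ∀ x, (L (f + f') - (L f + L f')) x ∈ J.sub := fun x => by
      rw [← hker, AddMonoidHom.mem_ker, AddMonoidHom.sub_apply, AddMonoidHom.add_apply, map_sub,
        map_add, hL, hL, hL]
      exact sub_self _
    refine ⟨⟨(L (f + f') - (L f + L f')).codRestrict J.sub hJmem, fun g x => Subtype.ext ?_⟩,
      fun y => Subtype.ext rfl⟩
    exact ((eqHom G (Free G N) C).sub_mem (Free.eqLift_mem _)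
      ((eqHom G (Free G N) C).add_mem (Free.eqLift_mem _) (Free.eqLift_mem _))) g x
  have hrange : δ.range ≤ i.ker := by
    rintro _ ⟨f, rfl⟩
    refine Ext1.mk_eq_zero_iff.mpr ⟨⟨L f, Free.eqLift_mem _⟩, fun y => rfl⟩
  have hkerδ : ∀ f ∈ δ.ker, ∃ h : eqHom G N C, ∀ n, π (h.1 n) = f.1 n := fun f hf => by
    obtain ⟨⟨E, hE⟩, hER⟩ := Ext1.mk_eq_zero_iff.mp hf
    let D : Free G N →+ C := L f - J.sub.subtype.comp E
    have hD : ∀ x, proj G N x = 0 → D x = 0 := fun x hx => by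
      have h1 := congrArg Subtype.val (hER ⟨x, mem_rel_iff.mpr hx⟩)
      change (E x : C) = L f x at h1
      show L f x - (E x : C) = 0
      rw [h1, sub_self]
    let h : N →+ C := AddMonoidHom.mk' (fun n => D (Free.of 1 n)) fun n m => by
      rw [← map_add, ← sub_eq_zero, ← map_sub]
      exact hD _ (by simp)
    refine ⟨⟨h, fun g n => ?_⟩, fun n => ?_⟩
    · show D (Free.of 1 (g • n)) = g • D (Free.of 1 n)
      have hg : g • D (Free.of 1 n) = D (g • Free.of 1 n) := by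
        show g • (L f _ - (E _ : C)) = L f _ - (E _ : C)
        rw [smul_sub, Free.eqLift_mem _ g, hE g]
        rfl
      rw [hg, ← sub_eq_zero, ← map_sub]
      exact hD _ (by simp)
    · show π (L f _ - (E _ : C)) = f.1 n
      have hE0 : π (E (Free.of 1 n) : C) = 0 := by
        rw [← AddMonoidHom.mem_ker, hker]; exact (E _).2
      rw [map_sub, hL, hE0, sub_zero, proj_of, one_smul]
  haveI : Finite i.ker := Finite.of_injective _ Subtype.val_injective
  haveI : Finite δ.range :=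
    Finite.of_injective (fun x : δ.range => (⟨x.1, hrange x.2⟩ : i.ker)) fun x y h => Subtype.ext
      (congrArg (fun z : i.ker => z.1) h)
  choose hh hhh using hkerδ
  have hinj : Function.Injective (fun f : δ.ker => hh f.1 f.2) := fun f f' h => by
    refine Subtype.ext (Subtype.ext (AddMonoidHom.ext fun n => ?_))
    rw [← hhh f.1 f.2, ← hhh f'.1 f'.2]
    exact congrArg (fun u : eqHom G N C => π (u.1 n)) h
  haveI : Finite δ.ker := Finite.of_injective _ hinj
  have hcard := card_eq_range_mul_ker δ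
  have hi := card_eq_range_mul_ker i
  have hi' : Nat.card i.range = Nat.card (Ext1 G N C) := by
    rw [AddMonoidHom.range_eq_top.mpr hJ]; exact Nat.card_congr AddSubgroup.topEquiv.toEquiv
  refine ⟨Nat.finite_of_card_ne_zero (hcard ▸ Nat.mul_ne_zero Nat.card_pos.ne' Nat.card_pos.ne'), ?_⟩
  rw [hcard, hi, hi', mul_comm (Nat.card (Ext1 G N C))]
  exact Nat.mul_le_mul (AddSubgroup.card_le_of_le hrange)
    ((Nat.card_le_card_of_injective _ hinj).trans hle)

end Coh

open PreIdele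

variable {k : Type} [Field k] [Finite k] {p : ℕ} [Fact p.Prime] [CharP k p] {M : MatRep k}
  {T Q : Finset ℕ}

theorem unitIdeles_le_qIdeles : unitIdeles T (fieldOf M) ≤ qIdeles M T Q :=
  fun _ h => ⟨h.1, fun A _ => h.2 A⟩

theorem classKer_le_awayKer : classKer T (fieldOf M) ≤ awayKer M T Q :=
  sup_le_sup le_rfl unitIdeles_le_qIdeles

variable (M T Q) in
/-- The projection to the classes away from `Q`. -/
def awayMap : CT M T →+ CTQ M T Q :=
  (QuotientGroup.map ((classKer T (fieldOf M)).subgroupOf (ideles (fieldOf M)))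
    ((awayKer M T Q).subgroupOf (ideles (fieldOf M))) (MonoidHom.id _) fun _ hφ =>
      Subgroup.mem_subgroupOf.mpr (classKer_le_awayKer (Subgroup.mem_subgroupOf.mp hφ))).toAdditive

theorem awayMap_classOf (φ : ideles (fieldOf M)) :
    awayMap M T Q (classOf _ φ) = classOf _ φ := rfl

theorem awayMap_mem : awayMap M T Q ∈ Coh.eqHom (Img M) (CT M T) (CTQ M T Q) := fun g c => by
  obtain ⟨φ, rfl⟩ := classOf_surjective _ c
  rw [smul_classOf _ (toImg_imgLift g), awayMap_classOf, awayMap_classOf,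
    smul_classOf _ (toImg_imgLift g)]

theorem awayMap_surjective : Function.Surjective (awayMap M T Q) := fun c => by
  obtain ⟨φ, rfl⟩ := classOf_surjective _ c
  exact ⟨classOf _ φ, rfl⟩

variable (M T Q) in
/-- The classes of the places above `Q`, as a submodule. -/
def placeSub : Coh.StableSub (Img M) (CT M T) where
  sub := (awayMap M T Q).ker
  smul_mem g c hc := by
    rw [AddMonoidHom.mem_ker] at hc ⊢
    rw [awayMap_mem g c, hc, smul_zero]

/-- `φ` represents the class `c` and is supported above `Q`. -/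
def Reps (c : (placeSub M T Q).sub) (φ : ideles (fieldOf M)) : Prop :=
  φ.1 ∈ qIdeles M T Q ∧ classOf _ φ = c.1

theorem exists_reps (c : (placeSub M T Q).sub) : ∃ φ, Reps c φ := by
  obtain ⟨φ, hφ⟩ := classOf_surjective _ c.1
  have h := AddMonoidHom.mem_ker.mp c.2
  rw [← hφ, awayMap_classOf, classOf_eq_zero_iff] at h
  obtain ⟨x, hx, u, hu, he⟩ := Subgroup.mem_sup.mp h
  refine ⟨⟨u, hu.1.1⟩, hu, hφ ▸ ?_⟩
  rw [← sub_eq_zero]
  refine (show _ = classOf (M := M) (classKer T (fieldOf M)) (⟨u, hu.1.1⟩ / φ) from rfl).trans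
    ((classOf_eq_zero_iff _ _).mpr ?_)
  show u / φ.1 ∈ _
  rw [← he, div_mul_cancel_right]
  exact Subgroup.mem_sup_left (inv_mem hx)

variable [FiniteDimensional ℚ (fieldOf M)]

theorem mem_unit_of_classOf {u : ideles (fieldOf M)} (hu : u.1 ∈ qIdeles M T Q)
    (h : classOf (classKer T (fieldOf M)) u = 0) : u.1 ∈ unitIdeles T (fieldOf M) := by
  rw [classOf_eq_zero_iff] at h
  obtain ⟨_, ⟨x, hx, rfl⟩, w, hw, he⟩ := Subgroup.mem_sup.mp h
  have h1 : x = 1 := eq_of_inf_eq (by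
    rw [map_one]
    funext ι
    have h2 := congrArg (fun ψ : PreIdele => ψ.inf ι) he
    rw [inf_mul, hw.1.2.2, hu.1.2.2, Pi.one_apply, mul_one] at h2
    rw [inf_one]
    exact h2)
  rw [← he, h1, map_one, one_mul]
  exact hw

theorem valuation_eq_of_reps {c : (placeSub M T Q).sub} {φ ψ : ideles (fieldOf M)}
    (hφ : Reps c φ) (hψ : Reps c ψ) (A : Place) :
    A.1.valuation (φ.1.fin A : ℚ̄) = A.1.valuation (ψ.1.fin A : ℚ̄) := by
  have h := (mem_unit_of_classOf (u := φ / ψ) (div_mem hφ.1 hψ.1) (by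
    rw [show classOf (classKer T (fieldOf M)) (φ / ψ) = classOf _ φ - classOf _ ψ from rfl, hφ.2,
      hψ.2, sub_self])).2 A
  rw [mem_unitGroup_iff] at h
  have h1 : φ.1.fin A = ((φ / ψ : ideles (fieldOf M)) : PreIdele).fin A * ψ.1.fin A := by
    rw [← fin_mul]
    exact congrFun (congrArg PreIdele.fin (div_mul_cancel φ.1 ψ.1).symm) A
  rw [h1, Units.val_mul, map_mul, h, one_mul]

variable (hL : IdeleSetting T p (fieldOf M)) (hQ : ∀ q ∈ Q, q.Prime ∧ q ∉ T)
include hL hQ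

omit [FiniteDimensional ℚ (fieldOf M)] in
theorem exists_ord (φ : ideles (fieldOf M)) {A : Place} (hA : A.Over Q) :
    ∃ j : ℤ, A.1.valuation (φ.1.fin A : ℚ̄) = A.1.valuation (A.char : ℚ̄) ^ j :=
  EllP.exists_valuation_eq_zpow A.prime_char A.liesOver_char (Units.ne_zero _) fun σ hσ =>
    fin_fixed φ.2 A (hL.unramified A (fun h => (hQ _ (A.over_iff.mp hA)).2 (A.over_iff.mp h)) σ hσ)
      (Subtype.ext (MulAction.mem_stabilizer_iff.mp (GalCommon.inertiaSubgroupIn_le_decomposition hσ)))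

omit [FiniteDimensional ℚ (fieldOf M)] hL hQ in
theorem valuation_char_zpow_injective (A : Place) {i j : ℤ}
    (h : A.1.valuation (A.char : ℚ̄) ^ i = A.1.valuation (A.char : ℚ̄) ^ j) : i = j := by
  have h0 : A.1.valuation (A.char : ℚ̄) ≠ 0 := by simpa using A.prime_char.ne_zero
  have h1 : A.1.valuation (A.char : ℚ̄) < 1 := by
    have h2 := (GalCommon.natCast_mem_nonunits_iff A.prime_char A.liesOver_char A.char).mpr dvd_rfl
    rwa [ValuationSubring.mem_nonunits_iff] at h2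
  exact (zpow_right_injective₀ (zero_lt_iff.mpr h0) h1.ne) h

theorem exists_coord (A : Place) (hA : A.Over Q) :
    ∃ e : (placeSub M T Q).sub →+ ℤ, ∀ c φ, Reps c φ →
      A.1.valuation (φ.1.fin A : ℚ̄) = A.1.valuation (A.char : ℚ̄) ^ e c := by
  choose r hr using exists_reps (M := M) (T := T) (Q := Q)
  choose o ho using fun c => exists_ord hL hQ (r c) hA
  have hoo : ∀ c φ, Reps c φ → A.1.valuation (φ.1.fin A : ℚ̄) = A.1.valuation (A.char : ℚ̄) ^ o c :=
    fun c φ hφ => (valuation_eq_of_reps hφ (hr c) A).trans (ho c)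
  refine ⟨AddMonoidHom.mk' o fun c d => valuation_char_zpow_injective A ?_, hoo⟩
  have hsum : Reps (c + d) (r c * r d) := ⟨mul_mem (hr c).1 (hr d).1, by
    rw [classOf_mul, (hr c).2, (hr d).2]; rfl⟩
  have h0 : A.1.valuation (A.char : ℚ̄) ≠ 0 := by simpa using A.prime_char.ne_zero
  rw [← hoo _ _ hsum, Subgroup.coe_mul, fin_mul, Units.val_mul, map_mul, ho, ho, zpow_add₀ h0]

/-- The valuation of a class at a place above `Q`. -/
def coord (A : Place) (hA : A.Over Q) : (placeSub M T Q).sub →+ ℤ :=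
  (exists_coord hL hQ A hA).choose

theorem coord_spec {A : Place} (hA : A.Over Q) {c : (placeSub M T Q).sub}
    {φ : ideles (fieldOf M)} (hφ : Reps c φ) :
    A.1.valuation (φ.1.fin A : ℚ̄) = A.1.valuation (A.char : ℚ̄) ^ coord hL hQ A hA c :=
  (exists_coord hL hQ A hA).choose_spec c φ hφ

theorem coord_smul (σ : GQ) {A : Place} (hA : A.Over Q) (c : (placeSub M T Q).sub) :
    coord hL hQ (σ • A) (hA.smul σ) (toImg M σ • c) = coord hL hQ A hA c := by
  obtain ⟨φ, hφ⟩ := exists_reps c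
  have hqs : σ • φ.1 ∈ qIdeles M T Q := ⟨smul_mem_awayIdeles σ hφ.1.1, fun B hB => by
    show Units.map _ _ ∈ _
    conv => arg 1; rw [← smul_inv_smul σ B, Place.coe_smul]
    exact unitGroup_smul.mpr (hφ.1.2 _ (by rwa [Place.over_smul_iff]))⟩
  have hrs : Reps (toImg M σ • c) ⟨σ • φ.1, smul_mem_ideles σ φ.2⟩ := ⟨hqs, by
    rw [← smul_classOf _ rfl, hφ.2]; rfl⟩
  refine valuation_char_zpow_injective (σ • A) ?_
  rw [← coord_spec hL hQ (hA.smul σ) hrs]
  show (σ • A).1.valuation ((σ • φ.1).fin (σ • A) : ℚ̄) = _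
  have hchar : (σ • A).char = A.char :=
    (Place.char_eq _ A.prime_char (GalCommon.liesOverPrime_smul A.liesOver_char))
  rw [coe_fin_smul, inv_smul_smul, hchar, ← map_zpow₀]
  rw [show ((A.char : ℚ̄) ^ coord hL hQ A hA c) = σ ((A.char : ℚ̄) ^ coord hL hQ A hA c) by
    rw [map_zpow₀, map_natCast]]
  rw [valuation_smul_eq_iff, map_zpow₀]
  exact coord_spec hL hQ hA hφ

theorem exists_nsmul_of_coord (c : (placeSub M T Q).sub)
    (h : ∀ (A : Place) (hA : A.Over Q), (p : ℤ) ∣ coord hL hQ A hA c) : ∃ d, p • d = c := by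
  classical
  obtain ⟨φ, hφ⟩ := exists_reps c
  let y : PreIdele :=
    { fin := fun A => if hA : A.Over Q then
        Units.mk0 (A.char : ℚ̄) (Nat.cast_ne_zero.mpr A.prime_char.ne_zero) ^ (coord hL hQ A hA c / p)
        else 1
      inf := fun _ => 1 }
  have hyfin : ∀ (A : Place) (hA : A.Over Q),
      (y.fin A : ℚ̄) = (A.char : ℚ̄) ^ (coord hL hQ A hA c / p) := fun A hA => by
    show ((dite _ _ _ : ℚ̄ˣ) : ℚ̄) = _
    rw [dif_pos hA, Units.val_zpow_eq_zpow_val]; rfl
  have hy1 : ∀ A : Place, ¬ A.Over Q → y.fin A = 1 := fun A hA => dif_neg hA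
  have hyi : y ∈ ideles (fieldOf M) := by
    refine ⟨fun σ hσ => PreIdele.ext (funext fun A => Units.ext ?_) rfl, fun ι => (map_one _).symm,
      Q, fun A hA => (hy1 A hA).symm ▸ one_mem _⟩
    rw [coe_fin_smul]
    obtain ⟨B, rfl⟩ : ∃ B, σ • B = A := ⟨σ⁻¹ • A, smul_inv_smul σ A⟩
    rw [inv_smul_smul]
    by_cases hB : B.Over Q
    · have hch : (σ • B).char = B.char :=
        Place.char_eq _ B.prime_char (GalCommon.liesOverPrime_smul B.liesOver_char)
      rw [hyfin _ hB, hyfin _ (hB.smul σ), map_zpow₀, map_natCast, hch]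
      congr 2
      refine valuation_char_zpow_injective (σ • B) ?_
      rw [← coord_spec hL hQ (hB.smul σ) hφ, coe_smul_fin φ.2 hσ, hch, ← map_zpow₀,
        show ((B.char : ℚ̄) ^ coord hL hQ B hB c) = σ ((B.char : ℚ̄) ^ coord hL hQ B hB c) by
          rw [map_zpow₀, map_natCast],
        valuation_smul_eq_iff, map_zpow₀]
      exact (coord_spec hL hQ hB hφ).symm
    · rw [hy1 _ hB, hy1 _ (by rwa [Place.over_smul_iff]), Units.val_one, map_one]
  have hyq : y ∈ qIdeles M T Q := ⟨⟨hyi, fun A hA => hy1 A fun hAQ =>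
    (hQ _ (A.over_iff.mp hAQ)).2 (A.over_iff.mp hA), rfl⟩, fun A hA => (hy1 A hA).symm ▸ one_mem _⟩
  have hJ : classOf (classKer T (fieldOf M)) ⟨y, hyi⟩ ∈ (placeSub M T Q).sub := by
    show awayMap M T Q (classOf _ _) = 0
    rw [awayMap_classOf, classOf_eq_zero_iff]
    exact Subgroup.mem_sup_right hyq
  refine ⟨⟨_, hJ⟩, Subtype.ext ?_⟩
  rw [AddSubgroup.coe_nsmul, ← hφ.2]
  rw [← sub_eq_zero]
  refine (show _ = classOf (M := M) (classKer T (fieldOf M)) (⟨y, hyi⟩ ^ p / φ) from rfl).trans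
    ((classOf_eq_zero_iff _ _).mpr (Subgroup.mem_sup_right ?_))
  refine ⟨div_mem (pow_mem hyq.1 p) hφ.1.1, fun A => ?_⟩
  rw [mem_unitGroup_iff]
  show A.1.valuation ((((y ^ p) / φ.1 : PreIdele).fin A : ℚ̄ˣ) : ℚ̄) = 1
  have hfin : ((y ^ p / φ.1 : PreIdele).fin A : ℚ̄) = (y.fin A : ℚ̄) ^ p * (φ.1.fin A : ℚ̄)⁻¹ := by
    rw [div_eq_mul_inv, fin_mul, fin_inv, Units.val_mul, Units.val_inv_eq_inv_val]
    congr 1
    show (finHom A (y ^ p) : ℚ̄) = _
    rw [map_pow, Units.val_pow_eq_pow_val]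
    rfl
  rw [hfin, map_mul, map_pow, map_inv₀]
  by_cases hA : A.Over Q
  · obtain ⟨d, hd⟩ := h A hA
    have h0 : A.1.valuation (φ.1.fin A : ℚ̄) ≠ 0 := by simp
    rw [hyfin A hA, map_zpow₀, coord_spec hL hQ hA hφ, hd,
      Int.mul_ediv_cancel_left _ (by exact_mod_cast (Fact.out : p.Prime).ne_zero),
      ← zpow_natCast, ← _root_.zpow_mul, mul_comm d, mul_inv_cancel₀]
    rw [← hd, ← coord_spec hL hQ hA hφ]; exact h0
  · rw [hy1 A hA, (mem_unitGroup_iff.mp (hφ.1.2 A hA)), Units.val_one, map_one, one_pow, inv_one,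
      one_mul]

theorem eq_zero_of_nsmul_placeSub (c : (placeSub M T Q).sub) (hc : p • c = 0) : c = 0 := by
  obtain ⟨φ, hφ⟩ := exists_reps c
  have h1 := mem_unit_of_classOf (u := φ ^ p) (pow_mem hφ.1 p) (by
    rw [show classOf (classKer T (fieldOf M)) (φ ^ p) = p • classOf _ φ from rfl, hφ.2,
      ← AddSubgroup.coe_nsmul, hc]; rfl)
  refine Subtype.ext (hφ.2.symm.trans ((classOf_eq_zero_iff _ φ).mpr (Subgroup.mem_sup_right
    ⟨hφ.1.1, fun A => ?_⟩)))
  have h2 := mem_unitGroup_iff.mp (h1.2 A)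
  have h3 : (((φ ^ p : ideles (fieldOf M)) : PreIdele).fin A : ℚ̄) = (φ.1.fin A : ℚ̄) ^ p := by
    show (finHom A (φ.1 ^ p) : ℚ̄) = _
    rw [map_pow, Units.val_pow_eq_pow_val]
    rfl
  rw [h3, map_pow] at h2
  exact mem_unitGroup_iff.mpr ((pow_eq_one_iff.mp h2).resolve_right (Fact.out : p.Prime).ne_zero)

set_option maxHeartbeats 1000000 in
omit [FiniteDimensional ℚ (fieldOf M)] in
theorem surjective_placeSub (hsurj : placeExt M T Q = ⊤) :
    Function.Surjective (Coh.Ext1.map (N := TwAd M) (placeSub M T Q).sub.subtype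
      (placeSub M T Q).subtype_mem) := by
  refine AddMonoidHom.range_eq_top.mp (top_le_iff.mp ?_)
  rw [← hsurj]
  refine (AddSubgroup.closure_le _).mpr fun x hx => ?_
  obtain ⟨c, ⟨q, hq, hqp, B, hB, φ, hφ, rfl⟩, g₀, rfl⟩ := hx
  have hJ : classOf (classKer T (fieldOf M)) φ ∈ (placeSub M T Q).sub := by
    show awayMap M T Q (classOf _ _) = 0
    rw [awayMap_classOf, classOf_eq_zero_iff]
    refine Subgroup.mem_sup_right ⟨hφ ▸ placeIdele_mem_awayIdeles hqp (hQ q hq).2 hB, fun C hC => ?_⟩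
    rw [hφ, placeIdele_fin_of_not _ _ fun ⟨τ, _, he⟩ =>
      hC ⟨q, hq, hqp, he ▸ GalCommon.liesOverPrime_smul hB⟩]
    exact one_mem _
  refine ⟨Coh.Ext1.mk ⟨Coh.htrace (Img M)
    (tensorHom (⟨_, hJ⟩ : (placeSub M T Q).sub) g₀), Coh.htrace_mem _⟩, ?_⟩
  rw [Coh.Ext1.map_mk]
  refine congrArg Coh.Ext1.mk (Subtype.ext ?_)
  refine (Coh.htrace_comp_left (placeSub M T Q).subtype_mem _).symm.trans ?_
  exact congrArg _ (AddMonoidHom.ext fun y => rfl)

/-- The bound on `Hom(TwAd, C_{T,Q})`. -/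
theorem card_homCTQ_le (hinv : ∀ q ∈ Q, ∀ A : ValuationSubring ℚ̄, A.LiesOverPrime q →
      ∀ σ : GQ, A.IsFrobeniusAt σ q →
        Nat.card {u : TwAd M →+ ZMod p // ∀ X, u (toImg M σ • X) = u X} ≤ Nat.card k)
    [Finite (Coh.eqHom (Img M) (TwAd M) (CT M T))]
    [Finite (Coh.Ext1 (Img M) (TwAd M) (CT M T))]
    (hle : Nat.card (Coh.eqHom (Img M) (TwAd M) (CT M T)) ≤
      Nat.card (Coh.Ext1 (Img M) (TwAd M) (CT M T)))
    (hsurj : placeExt M T Q = ⊤) :
    Finite (HomCTQ M T Q) ∧ Nat.card (HomCTQ M T Q) ≤ Nat.card k ^ Q.card := by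
  classical
  have hplace : ∀ q : Q, ∃ A : Place, A.Over Q ∧ A.1.LiesOverPrime q ∧
      ∃ σ : GQ, A.1.IsFrobeniusAt σ q ∧ σ • A = A := fun ⟨q, hq⟩ => by
    obtain ⟨A, hA⟩ := GalCommon.exists_liesOverPrime (hQ q hq).1
    obtain ⟨σ, hσ⟩ := GalCommon.exists_isFrobeniusAt (hQ q hq).1 hA
    exact ⟨⟨A, q, (hQ q hq).1, hA⟩, ⟨q, hq, (hQ q hq).1, hA⟩, hA, σ, hσ,
      Subtype.ext (MulAction.mem_stabilizer_iff.mp hσ.1)⟩
  choose A hAQ hAq σ hσ hσA using hplace
  let cP : Q → (Coh.ModP p (placeSub M T Q).sub →+ ZMod p) := fun q =>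
    QuotientAddGroup.lift _ ((Int.castAddHom (ZMod p)).comp (coord hL hQ (A q) (hAQ q))) (by
      rintro _ ⟨d, rfl⟩
      show ((coord hL hQ (A q) (hAQ q) (p • d) : ℤ) : ZMod p) = 0
      rw [map_nsmul, nsmul_eq_mul, Int.cast_mul, Int.cast_natCast, ZMod.natCast_self, zero_mul])
  let Inv : Q → Type := fun q =>
    {u : TwAd M →+ ZMod p // ∀ X, u (toImg M (σ q) • X) = u X}
  let Ψ : Coh.eqHom (Img M) (TwAd M) (Coh.ModP p (placeSub M T Q).sub) → ∀ q, Inv q := fun u q =>
    ⟨(cP q).comp u.1, fun X => by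
      show cP q (u.1 _) = cP q (u.1 X)
      rw [u.2]
      obtain ⟨d, hd⟩ := Coh.toModP_surjective (u.1 X)
      rw [← hd, Coh.smul_toModP]
      show ((coord hL hQ (A q) (hAQ q) _ : ℤ) : ZMod p) = ((coord hL hQ (A q) (hAQ q) d : ℤ) : ZMod p)
      have h1 := coord_smul hL hQ (σ q) (hAQ q) d
      simp only [hσA q] at h1
      rw [h1]⟩
  have hΨ : Function.Injective Ψ := fun u u' h => by
    refine Subtype.ext (AddMonoidHom.ext fun X => sub_eq_zero.mp ?_)
    obtain ⟨d, hd⟩ := Coh.toModP_surjective (u.1 X - u'.1 X)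
    rw [← hd, Coh.toModP_eq_zero_iff]
    refine exists_nsmul_of_coord hL hQ d fun B hB => ?_
    obtain ⟨q, hq, hqp, hB'⟩ := hB
    obtain ⟨τ, hτ⟩ := GalCommon.exists_smul_eq_of_liesOverPrime hqp (hAq ⟨q, hq⟩) hB'
    obtain rfl : τ • A ⟨q, hq⟩ = B := Subtype.ext hτ
    have h1 := coord_smul hL hQ τ (hAQ ⟨q, hq⟩) ((toImg M τ)⁻¹ • d)
    rw [smul_inv_smul] at h1
    rw [← ZMod.intCast_zmod_eq_zero_iff_dvd, h1]
    show cP ⟨q, hq⟩ (Coh.toModP ((toImg M τ)⁻¹ • d)) = 0
    rw [← Coh.smul_toModP, hd, smul_sub, ← u.2, ← u'.2, map_sub, sub_eq_zero]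
    exact DFunLike.congr_fun (congrArg Subtype.val (congrFun h ⟨q, hq⟩)) _
  have hN : ∀ X : TwAd M, p • X = 0 := fun X => TwAd.nsmul_eq_zero X
  haveI : ∀ q, Finite (Inv q) := fun q => Finite.of_injective
    (fun u : Inv q => (u.1 : TwAd M → ZMod p)) fun u v h => Subtype.ext (DFunLike.coe_injective h)
  haveI : Finite (Coh.eqHom (Img M) (TwAd M) (Coh.ModP p (placeSub M T Q).sub)) :=
    Finite.of_injective Ψ hΨ
  obtain ⟨hfin, hE1⟩ := Coh.card_ext1_le_of_torsionFree (G := Img M) (N := TwAd M)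
    (eq_zero_of_nsmul_placeSub hL hQ) hN
  have hJsurj := surjective_placeSub hL hQ hsurj
  obtain ⟨hf, hcard⟩ := Coh.card_eqHom_le_of_exact (G := Img M) (N := TwAd M) (placeSub M T Q)
    (awayMap M T Q) awayMap_mem awayMap_surjective rfl hle hJsurj
  refine ⟨hf, hcard.trans (hE1.trans ((Nat.card_le_card_of_injective Ψ hΨ).trans ?_))⟩
  rw [Nat.card_pi, ← Finset.card_attach, ← Finset.prod_const]
  exact Finset.prod_le_prod' fun q _ => hinv q.1 q.2 _ (hAq q) _ (hσ q)

end FLTAgent.TW
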