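import Fermat.Agent.TW.Global.Classes
import Fermat.Agent.TW.Global.ExtCount
import Fermat.Agent.TW.Global.Detect
import Fermat.Agent.GalCommon.Frobenius

/-!
# Selection of the auxiliary primes

`exists_selection`: with `r = #Ext¹(TwAd, C_T)`, for every depth there are `r` auxiliary primes
`Q` with `#Hom(TwAd, C_{T,Q}) ≤ #k ^ r`. The primes are added one at a time, each enlarging
`placeExt` until it is everything (`exists_placeExt_not_le`), and `card_homCTQ_le` concludes.
-/

set_option autoImplicit false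

noncomputable section

namespace FLTAgent.TW

open Matrix FLTAgent.Deform

variable {k : Type} [Field k] [Finite k] {p : ℕ} [Fact p.Prime] [CharP k p] {M : MatRep k}

set_option maxHeartbeats 2000000 in
/-- The auxiliary primes. -/
theorem exists_selection (hM : Adequate M p) (S : Finset ℕ) (hpS : p ∈ S)
    (hS : ∀ l ∈ S, l.Prime)
    (hunr : ∀ q : ℕ, q.Prime → q ∉ S → ∀ P : ValuationSubring (AlgebraicClosure ℚ),
      P.LiesOverPrime q → ∀ τ ∈ P.inertiaSubgroupIn ℚ, M τ = 1) :
    ∃ (T : Finset ℕ) (r : ℕ), S ⊆ T ∧ (∀ l ∈ T, l.Prime) ∧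
      ∀ (n : ℕ) (avoid : Finset ℕ), ∃ qv : Fin r → ℕ, Function.Injective qv ∧
        (∀ i, IsAuxPrime M p n (qv i) ∧ qv i ∉ T ∧ qv i ∉ avoid) ∧
        Finite (HomCTQ M T (Finset.univ.image qv)) ∧
        Nat.card (HomCTQ M T (Finset.univ.image qv)) ≤ Nat.card k ^ r := by
  classical
  obtain ⟨D, -⟩ := exists_auxLayer (p := p) hM.finite S hunr
  have := D.finite_field hM.finite
  obtain ⟨T, hT₀, hTp, hTprin⟩ := exists_tPrincipal D.field (insert D.ell S)
  have hST : S ⊆ T := (Finset.subset_insert _ _).trans hT₀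
  have hell : D.ell ∈ T := hT₀ (Finset.mem_insert_self _ _)
  have hTpr : ∀ l ∈ T, l.Prime := fun l hl => by
    rcases hTp l hl with h | h
    · rcases Finset.mem_insert.mp h with rfl | h
      exacts [D.prime, hS l h]
    · exact h
  have hL := D.setting hM.finite hpS hST hell hTpr hunr
  have hKL := D.fieldOf_le hM.finite
  have : FiniteDimensional ℚ (fieldOf M) := finite_of_le hKL
  have := GalCommon.normal_Qbar
  have hL₀ : IdeleSetting T p (fieldOf M) := ⟨inferInstance, ⟨⟩, hL.mem, hL.prime,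
    fun A hA σ hσ => IntermediateField.fixingSubgroup_le hKL (hL.unramified A hA σ hσ)⟩
  obtain ⟨hfin1, hfin0, hle, hgen⟩ := classes_package hM D hell hL hTprin hL₀
  refine ⟨T, Nat.card (Coh.Ext1 (Img M) (TwAd M) (CT M T)), hST, hTpr, fun n avoid => ?_⟩
  have hchain : ∀ j : ℕ, ∃ Q : Finset ℕ, Q.card = j ∧
      (∀ q ∈ Q, IsAuxPrime M p n q ∧ q ∉ T ∧ q ∉ avoid) ∧
      (placeExt M T Q = ⊤ ∨ j + 1 ≤ Nat.card (placeExt M T Q)) := by
    intro j
    induction j with
    | zero => exact ⟨∅, rfl, by simp, Or.inr Nat.card_pos⟩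
    | succ j ih =>
      obtain ⟨Q, hQc, hQ, hQe⟩ := ih
      by_cases htop : placeExt M T Q = ⊤
      · obtain ⟨q, hq, hqn⟩ := exists_isAuxPrime hM n (T ∪ avoid ∪ Q)
        simp only [Finset.mem_union, not_or] at hqn
        refine ⟨insert q Q, by rw [Finset.card_insert_of_notMem hqn.2, hQc], fun x hx => ?_,
          Or.inl (top_le_iff.mp (htop ▸ placeExt_mono M T (Finset.subset_insert q Q)))⟩
        rcases Finset.mem_insert.mp hx with rfl | hx
        exacts [⟨hq, hqn.1.1, hqn.1.2⟩, hQ x hx]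
      · obtain ⟨q, hq, hqT, hqa, hqW⟩ := exists_placeExt_not_le hM T hL₀
          (fun E hE => hTprin E (hE.trans hKL)) hgen _ htop n (avoid ∪ Q)
        simp only [Finset.mem_union, not_or] at hqa
        refine ⟨insert q Q, by rw [Finset.card_insert_of_notMem hqa.2, hQc], fun x hx => ?_, ?_⟩
        · rcases Finset.mem_insert.mp hx with rfl | hx
          exacts [⟨hq, hqT, hqa.1⟩, hQ x hx]
        · have hlt : placeExt M T Q < placeExt M T (insert q Q) :=
            lt_of_le_of_ne (placeExt_mono M T (Finset.subset_insert q Q)) fun h =>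
              hqW ((placeExt_mono M T (by simp)).trans h.ge)
          refine Or.inr ((Nat.succ_le_succ (hQe.resolve_left htop)).trans ?_)
          exact Set.ncard_lt_ncard (SetLike.coe_ssubset_coe.mpr hlt) (Set.toFinite _)
  obtain ⟨Q, hQc, hQ, hQe⟩ := hchain (Nat.card (Coh.Ext1 (Img M) (TwAd M) (CT M T)))
  have htop : placeExt M T Q = ⊤ := hQe.resolve_right fun h => by
    have := Nat.card_le_card_of_injective _ (Subtype.val_injective :
      Function.Injective (fun x : placeExt M T Q => (x : Coh.Ext1 (Img M) (TwAd M) (CT M T))))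
    omega
  let e := Q.equivFinOfCardEq hQc
  have himage : Finset.univ.image (fun i => (e.symm i : ℕ)) = Q := by
    ext x
    simp only [Finset.mem_image, Finset.mem_univ, true_and]
    exact ⟨fun ⟨i, hi⟩ => hi ▸ (e.symm i).2, fun hx => ⟨e ⟨x, hx⟩, by rw [e.symm_apply_apply]⟩⟩
  have hinv : ∀ q ∈ Q, ∀ A : ValuationSubring (AlgebraicClosure ℚ), A.LiesOverPrime q →
      ∀ σ : GQ, A.IsFrobeniusAt σ q →
        Nat.card {u : TwAd M →+ ZMod p // ∀ X, u (toImg M σ • X) = u X} ≤ Nat.card k := by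
    intro q hq A hA σ hσ
    obtain ⟨α, β, hne, ht, hd⟩ := (hQ q hq).1.distinct A hA σ hσ
    have hqp : ¬ q ∣ p := fun h => (hQ q hq).2.1
      (hST (((Nat.prime_dvd_prime_iff_eq (hQ q hq).1.prime Fact.out).mp h) ▸ hpS))
    have h1 : (M σ).det = 1 := by
      rw [hM.det σ q fun μ hμ => GalCommon.frobenius_apply_of_pow_eq_one (hQ q hq).1.prime hA hqp hσ hμ]
      have hdvd : p ∣ q - 1 := (dvd_pow_self p (Nat.succ_ne_zero n)).trans (hQ q hq).1.dvd
      rw [← Nat.sub_add_cancel (hQ q hq).1.prime.one_le, Nat.cast_add, Nat.cast_one,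
        (CharP.cast_eq_zero_iff k p _).mpr hdvd, zero_add]
    exact (card_invariants_of_distinct hM hne ht hd h1).le
  obtain ⟨hfQ, hcQ⟩ := card_homCTQ_le hL₀ (fun q hq => ⟨(hQ q hq).1.prime, (hQ q hq).2.1⟩) hinv hle htop
  refine ⟨fun i => (e.symm i : ℕ), fun i j h => e.symm.injective (Subtype.ext h),
    fun i => hQ _ (e.symm i).2, ?_⟩
  rw [himage]
  exact ⟨hfQ, hQc ▸ hcQ⟩

end FLTAgent.TW
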