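import Fermat.Agent.TW.Global.GroupFacts
import Fermat.Agent.TW.Global.Kummer
import Fermat.Agent.TW.Global.Selection
import Fermat.Agent.TW.Idele.ClassField.Signs
import Fermat.Agent.LocP.Place

/-!
# The count: Taylor–Wiles primes from the selection and the Kummer map

`exists_twPrimes`: for each depth there are `r` auxiliary primes with `TangentBound`. The Kummer
map sends cocycles with local trivialisations into `Hom(TwAd, C_T/Q)`, which the selection bounds
by `#k ^ r`; rank–nullity against the local conditions bounds the space of cocycles, and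
finitely many test elements separate their trace functions.
-/

set_option autoImplicit false
set_option linter.style.haveILetI false

noncomputable section

namespace FLTAgent.TW

open Matrix FLTAgent.Deform
open scoped Pointwise

variable {k : Type} [Field k]

local notation "𝕄" => Matrix (Fin 2) (Fin 2) k

/-- Finitely many evaluations separate a finite dimensional space of functions. -/
theorem exists_separating_points {α : Type} [Nonempty α] : ∀ (g : ℕ) (R : Submodule k (α → k)),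
    Module.Finite k R → Module.finrank k R ≤ g →
      ∃ σ : Fin g → α, ∀ f ∈ R, (∀ j, f (σ j) = 0) → f = 0 := by
  intro g
  induction g with
  | zero =>
    intro R _ hR
    refine ⟨Fin.elim0, fun f hf _ => ?_⟩
    rw [Submodule.finrank_eq_zero.mp (Nat.le_zero.mp hR)] at hf
    exact (Submodule.mem_bot k).mp hf
  | succ g ih =>
    intro R _ hR
    by_cases h0 : ∀ f ∈ R, f = 0
    · exact ⟨fun _ => Classical.arbitrary α, fun f hf _ => h0 f hf⟩
    push Not at h0
    obtain ⟨f₀, hf₀, hne⟩ := h0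
    obtain ⟨a, ha⟩ := Function.ne_iff.mp hne
    let R' : Submodule k (α → k) := R ⊓ LinearMap.ker (LinearMap.proj a)
    have hlt : R' < R := lt_of_le_of_ne inf_le_left fun h => ha
      (LinearMap.mem_ker.mp (show f₀ ∈ R' from h.symm ▸ hf₀).2)
    haveI : Module.Finite k R' := Submodule.finiteDimensional_of_le (inf_le_left : R' ≤ R)
    have := Submodule.finrank_lt_finrank_of_lt hlt
    obtain ⟨σ, hσ⟩ := ih R' inferInstance (by omega)
    exact ⟨Fin.cons a σ, fun f hf h => hσ f ⟨hf, LinearMap.mem_ker.mpr (by simpa using h 0)⟩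
      fun j => by simpa using h j.succ⟩

theorem cocycle_one {M : MatRep k} {c : GQ → 𝕄} (hc : IsTangentCocycle M c) : c 1 = 0 := by
  have := hc.map_mul 1 1
  simpa [adAct] using this

theorem isTangentCocycle_coboundary {M : MatRep k} (hM : FactorsFinite M) (X : 𝕄) :
    IsTangentCocycle M (coboundary M X) := by
  refine ⟨fun σ τ => ?_, fun σ => ?_, ?_⟩
  · show adAct M (σ * τ) X - X = (adAct M σ X - X) + adAct M σ (adAct M τ X - X)
    simp only [adAct, mul_sub, sub_mul, map_mul, _root_.mul_inv_rev, mul_assoc]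
    abel
  · show (adAct M σ X - X).trace = 0
    rw [Matrix.trace_sub, trace_adAct, sub_self]
  · obtain ⟨L, hL, h⟩ := hM
    refine ⟨L, hL, fun σ hσ => ?_⟩
    show M σ * X * M σ⁻¹ - X = 0
    have h1 : M σ⁻¹ = 1 := h σ⁻¹ fun x hx => by
      conv_lhs => rw [← hσ x hx]
      rw [← AlgEquiv.mul_apply, inv_mul_cancel, AlgEquiv.one_apply]
    rw [h σ hσ, h1, one_mul, mul_one, sub_self]

theorem coboundary_eq_zero_of_apply_eq_one {M : MatRep k} {τ : GQ} (h : M τ = 1) (X : 𝕄) :
    coboundary M X τ = 0 := by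
  have h1 : M τ⁻¹ = 1 := by have := mul_inv_eq_one M τ; rwa [h, one_mul] at this
  show M τ * X * M τ⁻¹ - X = 0
  rw [h, h1, one_mul, mul_one, sub_self]

variable (k) in
/-- Trace zero matrices. -/
abbrev ad0 : Submodule k 𝕄 := LinearMap.ker (Matrix.traceLinearMap (Fin 2) k k)

theorem finrank_ad0 : Module.finrank k (ad0 k) = 3 := by
  have h := LinearMap.finrank_range_add_finrank_ker (Matrix.traceLinearMap (Fin 2) k k)
  have hs : LinearMap.range (Matrix.traceLinearMap (Fin 2) k k) = ⊤ :=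
    LinearMap.range_eq_top.mpr fun x => ⟨Matrix.single 0 0 x, by simp⟩
  rw [hs, finrank_top, Module.finrank_self, Module.finrank_matrix] at h
  simp only [Fintype.card_fin, Module.finrank_self] at h
  show Module.finrank k ↥(Matrix.traceLinearMap (Fin 2) k k).ker = 3
  omega

variable [Finite k] {p : ℕ} [Fact p.Prime] [CharP k p]

/-- The unramified bound. -/
theorem localTangentBound_unramified (M : MatRep k) (hM : FactorsFinite M) {l : ℕ} (hl : l.Prime)
    (A : ValuationSubring (AlgebraicClosure ℚ)) (hA : A.LiesOverPrime l)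
    (hunr : ∀ τ ∈ A.inertiaSubgroupIn ℚ, M τ = 1) :
    LocalTangentBound M (A.decompositionSubgroup ℚ)
      (fun c => ∀ τ ∈ A.inertiaSubgroupIn ℚ, c τ = 0) 3 := by
  classical
  obtain ⟨φ, hφ⟩ := GalCommon.exists_isFrobeniusAt hl hA
  let Z : Submodule k (GQ → 𝕄) :=
    { carrier := {c | IsTangentCocycle M c ∧ ∀ τ ∈ A.inertiaSubgroupIn ℚ, c τ = 0}
      zero_mem' := ⟨(tangentCocycles M).zero_mem, fun τ _ => rfl⟩
      add_mem' := fun {c d} hc hd => ⟨(tangentCocycles M).add_mem hc.1 hd.1, fun τ hτ => by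
        simp [hc.2 τ hτ, hd.2 τ hτ]⟩
      smul_mem' := fun a c hc => ⟨(tangentCocycles M).smul_mem a hc.1, fun τ hτ => by
        simp [hc.2 τ hτ]⟩ }
  let ψ : Z →ₗ[k] ad0 k :=
    { toFun := fun c => ⟨c.1 φ, LinearMap.mem_ker.mpr (c.2.1.trace_eq_zero φ)⟩
      map_add' := fun _ _ => rfl
      map_smul' := fun _ _ => rfl }
  let ρ := (restrictTo (A.decompositionSubgroup ℚ)).comp Z.subtype
  have hker : LinearMap.ker ψ ≤ LinearMap.ker ρ := by
    rintro ⟨c, hc, hI⟩ hψ
    have hcφ : c φ = 0 := congrArg Subtype.val (LinearMap.mem_ker.mp hψ)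
    refine funext fun τ => ?_
    show c τ = 0
    obtain ⟨L, hL, h1⟩ := hc.exists_level
    haveI := hL
    obtain ⟨i, ι, hι, hag⟩ := @LocP.exists_eq_frob_pow_mul A l ⟨hl⟩ hA φ hφ (τ : GQ) τ.2 L _
    have hpow : ∀ j : ℕ, c (φ ^ j) = 0 := fun j => by
      induction j with
      | zero => rw [pow_zero, cocycle_one hc]
      | succ j ih => rw [pow_succ, hc.map_mul, ih, hcφ]; simp [adAct]
    have h2 : c (φ ^ i * ι) = 0 := by rw [hc.map_mul, hpow, hI ι hι]; simp [adAct]
    have h3 : c ((φ ^ i * ι)⁻¹ * τ) = 0 := h1 _ fun x hx => by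
      rw [AlgEquiv.mul_apply, hag x hx, ← AlgEquiv.mul_apply, inv_mul_cancel, AlgEquiv.one_apply]
    rw [← mul_inv_cancel_left (φ ^ i * ι) (τ : GQ), hc.map_mul, h2, h3]
    simp [adAct]
  haveI : Module.Finite k (Z ⧸ LinearMap.ker ψ) :=
    Module.Finite.equiv ψ.quotKerEquivRange.symm
  have hg : LinearMap.range ((LinearMap.ker ψ).liftQ ρ hker) = LinearMap.range ρ :=
    Submodule.range_liftQ _ _ _
  have hdim : Module.finrank k (LinearMap.range ρ) ≤ 3 := by
    rw [← hg]
    refine (LinearMap.finrank_range_le _).trans ?_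
    rw [ψ.quotKerEquivRange.finrank_eq]
    exact (Submodule.finrank_le _).trans finrank_ad0.le
  haveI : Module.Finite k (LinearMap.range ρ) := hg ▸ inferInstance
  refine ⟨LinearMap.range ρ, inferInstance, hdim, fun X _ => ?_,
    fun c hc hcond => ⟨⟨c, hc, hcond⟩, rfl⟩⟩
  exact ⟨⟨coboundary M X, isTangentCocycle_coboundary hM X,
    fun τ hτ => coboundary_eq_zero_of_apply_eq_one (hunr τ hτ) X⟩, rfl⟩

set_option synthInstance.maxHeartbeats 200000 in
set_option maxHeartbeats 1000000 in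
/-- Taylor–Wiles primes. -/
theorem exists_twPrimes (hp2 : p ≠ 2) (M : MatRep k) (hM : FactorsFinite M)
    (hdet : DetCyclotomic M p) (hsplit : CharpolySplits M)
    (habs : Submodule.span k (Set.range M) = ⊤) (hbig : BigImage M)
    (S : Finset ℕ) (hpS : p ∈ S) (hS : ∀ l ∈ S, l.Prime)
    (hunr : ∀ q : ℕ, q.Prime → q ∉ S → ∀ P : ValuationSubring (AlgebraicClosure ℚ),
      P.LiesOverPrime q → ∀ τ ∈ P.inertiaSubgroupIn ℚ, M τ = 1) :
    ∃ r : ℕ, ∀ (n : ℕ) (avoid : Finset ℕ), ∃ qv : Fin r → ℕ, Function.Injective qv ∧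
      (∀ i, IsAuxPrime M p n (qv i) ∧ qv i ∉ S ∧ qv i ∉ avoid) ∧
      TangentBound M S (Finset.univ.image qv) r := by
  classical
  have hA : Adequate M p := ⟨hp2, hM, hdet, hsplit, habs, hbig⟩
  obtain ⟨T, r, hST, hT, hsel⟩ := exists_selection hA S hpS hS hunr
  refine ⟨r, fun n avoid => ?_⟩
  obtain ⟨qv, hinj, hqv, hfin, hcard⟩ := hsel n avoid
  set Q := Finset.univ.image qv with hQ
  refine ⟨qv, hinj, fun i => ⟨(hqv i).1, fun h => (hqv i).2.1 (hST h), (hqv i).2.2⟩,
    fun A hAS W d hW => ?_⟩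
  have hTQ : Disjoint T Q := Finset.disjoint_right.mpr fun x hx => by
    obtain ⟨i, -, rfl⟩ := Finset.mem_image.mp hx
    exact (hqv i).2.1
  have hex : ∀ l, ∃ P : ValuationSubring (AlgebraicClosure ℚ), (l ∈ S → P = A l) ∧
      (l.Prime → P.LiesOverPrime l) := fun l => by
    by_cases hl : l ∈ S
    · exact ⟨A l, fun _ => rfl, fun _ => hAS l hl⟩
    by_cases hlp : l.Prime
    · obtain ⟨P, hP⟩ := GalCommon.exists_liesOverPrime hlp
      exact ⟨P, fun h => absurd h hl, fun _ => hP⟩
    · exact ⟨A l, fun _ => rfl, fun h => absurd h hlp⟩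
  choose A' hA'eq hA' using hex
  let d' : ℕ → ℕ := fun l => if l ∈ S then d l else 3
  have hex2 : ∀ l : ℕ, ∃ W' : Submodule k ((A' l).decompositionSubgroup ℚ → 𝕄), l ∈ T →
      (Module.Finite k W' ∧ Module.finrank k W' ≤ d' l ∧ ∀ X : 𝕄, X.trace = 0 →
        restrictTo ((A' l).decompositionSubgroup ℚ) (coboundary M X) ∈ W') ∧
      ∀ c : GQ → 𝕄, IsTangentCocycle M c →
        (l ∈ S → restrictTo ((A l).decompositionSubgroup ℚ) c ∈ W l) →
        (l ∉ S → ∀ τ ∈ (A' l).inertiaSubgroupIn ℚ, c τ = 0) →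
        restrictTo ((A' l).decompositionSubgroup ℚ) c ∈ W' := by
    intro l
    by_cases hl : l ∈ S
    · have key : ∀ (P : ValuationSubring (AlgebraicClosure ℚ)), P = A l →
          ∃ W' : Submodule k (P.decompositionSubgroup ℚ → 𝕄),
            (Module.Finite k W' ∧ Module.finrank k W' ≤ d l ∧ ∀ X : 𝕄, X.trace = 0 →
              restrictTo (P.decompositionSubgroup ℚ) (coboundary M X) ∈ W') ∧
            ∀ c : GQ → 𝕄, restrictTo ((A l).decompositionSubgroup ℚ) c ∈ W l →
              restrictTo (P.decompositionSubgroup ℚ) c ∈ W' := by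
        rintro _ rfl
        exact ⟨W l, hW l hl, fun c h => h⟩
      obtain ⟨W', h1, h2⟩ := key _ (hA'eq l hl)
      refine ⟨W', fun _ => ⟨?_, fun c _ hc _ => h2 c (hc hl)⟩⟩
      simpa [d', hl] using h1
    · by_cases hlT : l ∈ T
      · obtain ⟨W', h1, h2, h3, h4⟩ := localTangentBound_unramified M hM (hT l hlT) (A' l)
          (hA' l (hT l hlT)) (hunr l (hT l hlT) hl (A' l) (hA' l (hT l hlT)))
        refine ⟨W', fun _ => ⟨⟨h1, ?_, h3⟩, fun c hc _ hu => h4 c hc (hu hl)⟩⟩
        simpa [d', hl] using h2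
      · exact ⟨⊥, fun h => absurd h hlT⟩
  choose W' hW' using hex2
  obtain ⟨ι₀⟩ := exists_emb
  obtain ⟨τ₀, hτ₀'⟩ := exists_emb_comp_eq ι₀ ((starRingEnd ℂ).comp ι₀)
  have hτ₀ := hτ₀'.symm
  haveI := hfin
  obtain ⟨hPfin, hPcard⟩ := card_pairSet_le hA T Q (hST hpS) hT hTQ
    (fun q hq h => hunr q hq fun h' => h (hST h')) A' (fun l hl => hA' l (hT l hl)) ι₀ τ₀ hτ₀
  -- the involution
  have hconj : ∀ x, τ₀ (τ₀ x) = x := fun x => ι₀.injective (by
    have h1 : ∀ y, ι₀ (τ₀ y) = starRingEnd ℂ (ι₀ y) := fun y =>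
      (DFunLike.congr_fun hτ₀ y).symm
    rw [h1, h1, Complex.conj_conj])
  have hsq : τ₀ * τ₀ = 1 := AlgEquiv.ext fun x => hconj x
  have hMτ : M τ₀ * M τ₀ = 1 := by rw [← map_mul, hsq, map_one]
  have hdetτ : (M τ₀).det = -1 := by
    have hp1 : 1 ≤ p := (Fact.out : p.Prime).one_le
    rw [hdet τ₀ (p - 1) fun μ hμ => ι₀.injective (by
      have h0 : μ ≠ 0 := by
        intro h
        rw [h, zero_pow (Fact.out : p.Prime).ne_zero] at hμ
        exact zero_ne_one hμ
      have hnorm : ‖ι₀ μ‖ = 1 := Complex.norm_eq_one_of_pow_eq_one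
        (by rw [← map_pow, hμ, map_one]) (Fact.out : p.Prime).ne_zero
      rw [show ι₀ (τ₀ μ) = starRingEnd ℂ (ι₀ μ) from (DFunLike.congr_fun hτ₀ μ).symm,
        ← Complex.inv_eq_conj hnorm, map_pow]
      refine inv_eq_of_mul_eq_one_left ?_
      rw [← pow_succ, Nat.sub_add_cancel hp1, ← map_pow, hμ, map_one])]
    rw [Nat.cast_sub hp1, CharP.cast_eq_zero, Nat.cast_one, zero_sub]
  -- the minus space
  let Y : Submodule k 𝕄 := ad0 k ⊓ LinearMap.ker
    ({ toFun := fun X => X + adAct M τ₀ X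
       map_add' := fun X X' => by simp only [adAct, mul_add, add_mul]; abel
       map_smul' := fun a X => by simp [adAct, smul_add] } :
      𝕄 →ₗ[k] 𝕄)
  have htr0 : (M τ₀).trace = 0 := by
    have h00 := congrFun (congrFun hMτ 0) 0
    have h01 := congrFun (congrFun hMτ 0) 1
    have h10 := congrFun (congrFun hMτ 1) 0
    have h11 := congrFun (congrFun hMτ 1) 1
    simp [Matrix.mul_apply, Fin.sum_univ_two] at h00 h01 h10 h11
    rw [Matrix.det_fin_two] at hdetτ
    rw [Matrix.trace_fin_two]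
    have h2 : (M τ₀ 0 0 + M τ₀ 1 1) * (M τ₀ 0 0 + M τ₀ 1 1) = 0 := by
      linear_combination h00 + h11 + 2 * hdetτ
    exact mul_self_eq_zero.mp h2
  have hY : Module.finrank k Y ≤ 2 := by
    have hlt : Y < ad0 k := lt_of_le_of_ne inf_le_left fun h => by
      have h1 : M τ₀ ∈ Y := h.symm ▸ LinearMap.mem_ker.mpr htr0
      have h2 : M τ₀ + adAct M τ₀ (M τ₀) = 0 := LinearMap.mem_ker.mp h1.2
      rw [adAct, mul_assoc, mul_inv_eq_one, mul_one] at h2
      have h20 : (2 : k) ≠ 0 := fun h0 => hp2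
        ((Nat.prime_dvd_prime_iff_eq (Fact.out : p.Prime) Nat.prime_two).mp
          ((CharP.cast_eq_zero_iff k p 2).mp (by exact_mod_cast h0)))
      rw [← two_smul k] at h2
      have h3 := (smul_eq_zero.mp h2).resolve_left h20
      rw [h3, Matrix.det_zero] at hdetτ
      exact one_ne_zero (neg_eq_zero.mp hdetτ.symm)
    have := Submodule.finrank_lt_finrank_of_lt hlt
    rw [finrank_ad0] at this
    omega
  -- the admissible cocycles
  let Z : Submodule k (GQ → 𝕄) :=
    { carrier := {c | IsTangentCocycle M c ∧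
        (∀ q : ℕ, q.Prime → q ∉ S → q ∉ Q → ∀ P : ValuationSubring (AlgebraicClosure ℚ),
          P.LiesOverPrime q → ∀ τ ∈ P.inertiaSubgroupIn ℚ, c τ = 0) ∧
        ∀ l ∈ S, restrictTo ((A l).decompositionSubgroup ℚ) c ∈ W l}
      zero_mem' := ⟨(tangentCocycles M).zero_mem, fun _ _ _ _ _ _ _ _ => rfl,
        fun l _ => by rw [map_zero]; exact zero_mem _⟩
      add_mem' := fun {c d} hc hd => ⟨(tangentCocycles M).add_mem hc.1 hd.1,
        fun q hq h1 h2 P hP τ hτ => by
          simp [hc.2.1 q hq h1 h2 P hP τ hτ, hd.2.1 q hq h1 h2 P hP τ hτ],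
        fun l hl => by rw [map_add]; exact add_mem (hc.2.2 l hl) (hd.2.2 l hl)⟩
      smul_mem' := fun a c hc => ⟨(tangentCocycles M).smul_mem a hc.1,
        fun q hq h1 h2 P hP τ hτ => by simp [hc.2.1 q hq h1 h2 P hP τ hτ],
        fun l hl => by rw [map_smul]; exact Submodule.smul_mem _ _ (hc.2.2 l hl)⟩ }
  have hres : ∀ c ∈ Z, ∀ l ∈ T, restrictTo ((A' l).decompositionSubgroup ℚ) c ∈ W' l :=
    fun c hc l hl => (hW' l hl).2 c hc.1 (hc.2.2 l) fun hlS τ hτ =>
      hc.2.1 l (hT l hl) hlS (Finset.disjoint_left.mp hTQ hl) (A' l) (hA' l (hT l hl)) τ hτ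
  let Θ : (Z × (T → ad0 k) × ad0 k) →ₗ[k] ((l : T) → W' l) × Y :=
    { toFun := fun x => (fun l => ⟨restrictTo ((A' l).decompositionSubgroup ℚ) x.1.1 +
          restrictTo ((A' l).decompositionSubgroup ℚ) (coboundary M (x.2.1 l).1),
          add_mem (hres x.1.1 x.1.2 l l.2)
            ((hW' l l.2).1.2.2 _ (LinearMap.mem_ker.mp (x.2.1 l).2))⟩,
        ⟨x.1.1 τ₀ + coboundary M x.2.2.1 τ₀, by
          have hcc := (tangentCocycles M).add_mem x.1.2.1 (isTangentCocycle_coboundary hM x.2.2.1)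
          refine ⟨LinearMap.mem_ker.mpr (hcc.trace_eq_zero τ₀), LinearMap.mem_ker.mpr ?_⟩
          have h := hcc.map_mul τ₀ τ₀
          rw [hsq, cocycle_one hcc] at h
          exact h.symm⟩)
      map_add' := fun x y => by
        refine Prod.ext (funext fun l => Subtype.ext ?_) (Subtype.ext ?_)
        · simp only [Prod.fst_add, Prod.snd_add, Submodule.coe_add, Pi.add_apply, map_add]; abel
        · simp only [Prod.fst_add, Prod.snd_add, Submodule.coe_add, Pi.add_apply, map_add]; abel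
      map_smul' := fun a x => by
        refine Prod.ext (funext fun l => Subtype.ext ?_) (Subtype.ext ?_)
        · simp [smul_add]
        · simp [smul_add] }
  have hmemP : ∀ x ∈ LinearMap.ker Θ,
      ((x.1.1, fun l : T => (x.2.1 l).1, x.2.2.1) : (GQ → 𝕄) × (T → 𝕄) × 𝕄) ∈
        pairSet M T Q A' τ₀ := by
    intro x hx
    have hx' := LinearMap.mem_ker.mp hx
    refine ⟨x.1.2.1, fun q hq h1 h2 => x.1.2.2.1 q hq (fun h => h1 (hST h)) h2, fun l => ?_,
      LinearMap.mem_ker.mp x.2.2.2, ?_⟩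
    · refine ⟨LinearMap.mem_ker.mp (x.2.1 l).2, fun τ hτ => ?_⟩
      have h : x.1.1 τ + (adAct M τ (x.2.1 l).1 - (x.2.1 l).1) = 0 :=
        congrFun (congrArg Subtype.val (congrFun (congrArg Prod.fst hx') l)) ⟨τ, hτ⟩
      rw [add_eq_zero_iff_eq_neg, neg_sub] at h
      exact h
    · have h : x.1.1 τ₀ + (adAct M τ₀ x.2.2.1 - x.2.2.1) = 0 :=
        congrArg Subtype.val (congrArg Prod.snd hx')
      rw [add_eq_zero_iff_eq_neg, neg_sub] at h
      exact h
  haveI : Finite (pairSet M T Q A' τ₀) := hPfin.to_subtype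
  let emb : LinearMap.ker Θ → pairSet M T Q A' τ₀ := fun x => ⟨_, hmemP x.1 x.2⟩
  have hemb : Function.Injective emb := fun x y h => by
    have h' := congrArg Subtype.val h
    refine Subtype.ext (Prod.ext (Subtype.ext (congrArg Prod.fst h')) (Prod.ext (funext fun l => ?_)
      (Subtype.ext (congrArg (fun z => z.2.2) h'))))
    exact Subtype.ext (congrFun (congrArg (fun z => z.2.1) h') l)
  haveI : Finite (LinearMap.ker Θ) := Finite.of_injective emb hemb
  haveI : Module.Finite k (LinearMap.ker Θ) := Module.Finite.of_finite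
  haveI : ∀ l : T, Module.Finite k (W' l) := fun l => (hW' l l.2).1.1
  haveI : Module.Finite k ((Z × (T → ad0 k) × ad0 k) ⧸ LinearMap.ker Θ) :=
    Module.Finite.equiv Θ.quotKerEquivRange.symm
  haveI : Module.Finite k (Z × (T → ad0 k) × ad0 k) :=
    Module.Finite.of_submodule_quotient (LinearMap.ker Θ)
  haveI : Module.Finite k Z := Module.Finite.of_surjective
    (LinearMap.fst k Z ((T → ad0 k) × ad0 k)) fun c => ⟨(c, 0), rfl⟩
  have hk1 : 1 < Nat.card k := Finite.one_lt_card
  have hkerle : Module.finrank k (LinearMap.ker Θ) ≤ 3 + r := by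
    refine (Nat.pow_le_pow_iff_right hk1).mp ?_
    rw [← Module.natCard_eq_pow_finrank (K := k) (V := LinearMap.ker Θ), pow_add]
    refine (Nat.card_le_card_of_injective emb hemb).trans ?_
    rw [Nat.card_coe_set_eq]
    exact hPcard.trans (Nat.mul_le_mul_left _ hcard)
  have hrange : Module.finrank k (LinearMap.range Θ) ≤ (∑ l ∈ T, d' l) + 2 := by
    refine (Submodule.finrank_le _).trans ?_
    rw [Module.finrank_prod, Module.finrank_pi_fintype]
    refine Nat.add_le_add ?_ hY
    rw [← Finset.sum_coe_sort T]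
    exact Finset.sum_le_sum fun l _ => (hW' l l.2).1.2.1
  have hdom : Module.finrank k (Z × (T → ad0 k) × ad0 k) =
      Module.finrank k Z + (3 * T.card + 3) := by
    rw [Module.finrank_prod, Module.finrank_prod, Module.finrank_pi_fintype, finrank_ad0]
    simp [mul_comm]
  have hsum : ∑ l ∈ T, d' l + 3 * S.card = ∑ l ∈ S, d l + 3 * T.card := by
    have h1 : ∑ l ∈ T \ S, d' l = ∑ l ∈ T \ S, 3 :=
      Finset.sum_congr rfl fun l hl => if_neg (Finset.mem_sdiff.mp hl).2
    have h2 : ∑ l ∈ S, d' l = ∑ l ∈ S, d l := Finset.sum_congr rfl fun l hl => if_pos hl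
    rw [← Finset.sum_sdiff hST, h1, h2, Finset.sum_const, smul_eq_mul,
      Finset.card_sdiff_of_subset hST]
    have := Finset.card_le_card hST
    omega
  have hZ : Module.finrank k Z + 3 * S.card ≤ r + ∑ l ∈ S, d l + 2 := by
    have h := LinearMap.finrank_range_add_finrank_ker Θ
    linarith
  -- the trace map
  let Λ : Z →ₗ[k] (GQ → k) :=
    { toFun := fun c τ => (c.1 τ * M τ).trace
      map_add' := fun c d => funext fun τ => by simp [add_mul]
      map_smul' := fun a c => funext fun τ => by simp }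
  have hcobZ : ∀ X : ad0 k, coboundary M X.1 ∈ Z := fun X =>
    ⟨isTangentCocycle_coboundary hM X.1, fun q hq h1 _ P hP τ hτ =>
      coboundary_eq_zero_of_apply_eq_one (hunr q hq h1 P hP τ hτ) X.1,
      fun l hl => (hW l hl).2.2 _ (LinearMap.mem_ker.mp X.2)⟩
  let B : ad0 k →ₗ[k] LinearMap.ker Λ :=
    LinearMap.codRestrict _ (LinearMap.codRestrict Z ((coboundary M).comp (ad0 k).subtype) hcobZ)
      fun X => LinearMap.mem_ker.mpr (funext fun τ => by
        show ((M τ * X.1 * M τ⁻¹ - X.1) * M τ).trace = 0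
        rw [sub_mul, mul_assoc, inv_mul_eq_one, mul_one, Matrix.trace_sub, Matrix.trace_mul_comm,
          sub_self])
  have hB : Function.Injective B := by
    refine (injective_iff_map_eq_zero _).mpr fun X hX => Subtype.ext ?_
    refine ad_invariants hA X.1 (LinearMap.mem_ker.mp X.2) fun σ => ?_
    have : adAct M σ X.1 - X.1 = 0 := congrFun (congrArg (fun z => (z.1.1 : GQ → 𝕄)) hX) σ
    exact sub_eq_zero.mp this
  have hker3 : 3 ≤ Module.finrank k (LinearMap.ker Λ) := by
    rw [← finrank_ad0 (k := k)]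
    exact LinearMap.finrank_le_finrank_of_injective hB
  have hΛ := LinearMap.finrank_range_add_finrank_ker Λ
  refine ⟨by omega, fun g hg => ?_⟩
  obtain ⟨σ, hσ⟩ := exists_separating_points g (LinearMap.range Λ) inferInstance (by omega)
  exact ⟨σ, fun c hc hu hloc htest τ =>
    congrFun (hσ _ ⟨⟨c, hc, hu, hloc⟩, rfl⟩ htest) τ⟩

end FLTAgent.TW
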