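import Fermat.Agent.TW.Global.Defs
import Fermat.Agent.TW.Idele.ClassField
import Fermat.Agent.Lower.TameFacts

/-!
# The auxiliary cyclotomic layer

`ψ` is the power of the mod `ℓ` cyclotomic character with image of order `n = #(Img M)_p`; the
fields are the fixed fields of the open subgroups containing `ker M ⊓ ker ψ` (`Layer`,
`exists_auxLayer`): the cyclotomic field is linearly disjoint from them (`inf_cycField`).
-/

set_option autoImplicit false
set_option linter.style.haveILetI false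
set_option linter.unusedSectionVars false

noncomputable section

namespace FLTAgent.TW

open Matrix FLTAgent.Deform
open scoped Pointwise

local notation "ℚ̄" => AlgebraicClosure ℚ

/-! ### Fixed fields of open subgroups -/

theorem fixingSubgroup_fixed {U : Subgroup GQ} (hU : IsOpen (U : Set GQ)) :
    (IntermediateField.fixedField U).fixingSubgroup = U :=
  haveI := GalCommon.isGalois_Qbar
  InfiniteGalois.fixingSubgroup_fixedField ⟨U, U.isClosed_of_isOpen hU⟩

theorem finite_fixed {U : Subgroup GQ} (hU : IsOpen (U : Set GQ)) :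
    FiniteDimensional ℚ (IntermediateField.fixedField U) :=
  haveI := GalCommon.isGalois_Qbar
  (InfiniteGalois.isOpen_iff_finite _).1 (by rwa [fixingSubgroup_fixed hU])

theorem normal_fixed {U : Subgroup GQ} (hn : U.Normal) :
    Normal ℚ (IntermediateField.fixedField U) := by
  haveI := GalCommon.normal_Qbar
  refine IntermediateField.normal_iff_forall_map_le'.mpr fun σ x hx => ?_
  obtain ⟨y, hy, rfl⟩ := hx
  intro τ
  have h := hy ⟨σ⁻¹ * τ.1 * σ, by simpa using hn.conj_mem τ.1 τ.2 σ⁻¹⟩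
  change (σ⁻¹ * τ.1 * σ : GQ) y = y at h
  rw [AlgEquiv.mul_apply, AlgEquiv.mul_apply] at h
  show τ.1 (σ y) = σ y
  conv_rhs => rw [← h]
  rw [← AlgEquiv.mul_apply σ, mul_inv_cancel, AlgEquiv.one_apply]

variable {k : Type} [Field k] {p : ℕ} {M : MatRep k}

theorem isOpen_ker (hM : FactorsFinite M) : IsOpen ((toImg M).ker : Set GQ) := by
  obtain ⟨L, hL, h⟩ := hM
  exact Subgroup.isOpen_mono (H₁ := L.fixingSubgroup) (fun σ hσ =>
    MonoidHom.mem_ker.mpr ((toImg_eq_one_iff M σ).mpr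
      (h σ ((IntermediateField.mem_fixingSubgroup_iff L σ).mp hσ)))) L.fixingSubgroup_isOpen

theorem fixingSubgroup_fieldOf (hM : FactorsFinite M) :
    (fieldOf M).fixingSubgroup = (toImg M).ker := by
  have h : fieldOf M = IntermediateField.fixedField (toImg M).ker := by
    rw [toImg, MonoidHom.ker_rangeRestrict]; rfl
  rw [h, fixingSubgroup_fixed (isOpen_ker hM)]

/-- The depth of the layer. -/
def layerDeg (M : MatRep k) (p : ℕ) : ℕ := p ^ (Nat.card (Img M)).factorization p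

/-- An auxiliary prime with a generator of its layer inside `ker M`. -/
structure Layer (M : MatRep k) (p : ℕ) where
  /-- The auxiliary prime. -/
  ell : ℕ
  prime : ell.Prime
  modEq : layerDeg M p ∣ ell - 1
  /-- The generator. -/
  t : GQ
  toImg_t : toImg M t = 1
  /-- Lifts which fix the layer. -/
  lift : Img M → GQ
  toImg_lift : ∀ g, toImg M (lift g) = g
  /-- The layer character. -/
  ψ : GQ →* (ZMod ell)ˣ
  psi_lift : ∀ g, ψ (lift g) = 1
  gen : ∀ σ, ∃ i < layerDeg M p, ψ σ = ψ t ^ i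
  ord : orderOf (ψ t) = layerDeg M p
  psi_eq : ∀ σ : GQ, (∀ ζ : ℚ̄, ζ ^ ell = 1 → σ ζ = ζ) → ψ σ = 1

theorem exists_auxLayer [Fact p.Prime] (hM : FactorsFinite M) (S : Finset ℕ)
    (hunr : ∀ q : ℕ, q.Prime → q ∉ S → ∀ P : ValuationSubring ℚ̄,
      P.LiesOverPrime q → ∀ τ ∈ P.inertiaSubgroupIn ℚ, M τ = 1) :
    ∃ D : Layer M p, D.ell ∉ S := by
  classical
  set n := layerDeg M p with hn
  have hn0 : n ≠ 0 := pow_ne_zero _ (Fact.out : p.Prime).ne_zero
  obtain ⟨l, hl, hlgt, hlmod⟩ := Nat.exists_prime_gt_modEq_one (k := n) (S.sup id) hn0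
  have hlS : l ∉ S := fun h => absurd (Finset.le_sup (f := id) h) (not_le.mpr hlgt)
  have hdvd : n ∣ l - 1 := (Nat.modEq_iff_dvd' hl.one_le).mp hlmod.symm
  haveI : Fact l.Prime := ⟨hl⟩
  haveI : NeZero l := ⟨hl.ne_zero⟩
  haveI : NeZero (l : ℚ̄) := ⟨Nat.cast_ne_zero.mpr hl.ne_zero⟩
  let ψ := Lower.cycPow n l
  obtain ⟨ζ, hζ⟩ := HasEnoughRootsOfUnity.exists_primitiveRoot ℚ̄ l
  have hψ1 : ∀ σ : GQ, (∀ ζ : ℚ̄, ζ ^ l = 1 → σ ζ = ζ) → ψ σ = 1 := fun σ h => Units.ext (by
    rw [Lower.cycPow_apply_eq hζ (a := 1) (by rw [pow_one]; exact h ζ hζ.pow_eq_one), Nat.cast_one,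
      one_pow, Units.val_one])
  -- `ker M` and `ker ψ` generate
  have hker : (toImg M).ker ⊔ ψ.ker = ⊤ := by
    obtain ⟨F, hF, hFM⟩ := id hM
    refine EllP.eq_top_of_inertia_le _ F (fun σ hσ => Subgroup.mem_sup_left
      (MonoidHom.mem_ker.mpr ((toImg_eq_one_iff M σ).mpr
        (hFM σ ((IntermediateField.mem_fixingSubgroup_iff F σ).mp hσ))))) fun q hq A hA τ hτ => ?_
    by_cases hql : q = l
    · subst hql
      exact Subgroup.mem_sup_left (MonoidHom.mem_ker.mpr
        ((toImg_eq_one_iff M τ).mpr (hunr q hq hlS A hA τ hτ)))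
    · exact Subgroup.mem_sup_right (MonoidHom.mem_ker.mpr (hψ1 τ fun μ hμ =>
        GalCommon.inertia_apply_of_pow_eq_one hq hA
          (fun h => hql ((Nat.prime_dvd_prime_iff_eq hq hl).mp h)) hτ hμ))
  haveI : (toImg M).ker.Normal := MonoidHom.normal_ker _
  have hsplit : ∀ σ, ∃ u, toImg M u = 1 ∧ ψ u = ψ σ := fun σ => by
    obtain ⟨u, hu, v, hv, rfl⟩ := Subgroup.mem_sup_of_normal_left.mp (show σ ∈ (toImg M).ker ⊔ ψ.ker from
      hker ▸ Subgroup.mem_top σ)
    exact ⟨u, hu, by rw [map_mul, MonoidHom.mem_ker.mp hv, mul_one]⟩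
  -- the generator
  obtain ⟨g, hg⟩ := IsCyclic.exists_ofOrder_eq_natCard (α := (ZMod l)ˣ)
  have hcard : Nat.card (ZMod l)ˣ = l - 1 := by
    rw [Nat.card_eq_fintype_card, ZMod.card_units]
  obtain ⟨s, hs⟩ := minpoly.exists_algEquiv_of_root' (K := ℚ) (x := ζ ^ (g : ZMod l).val) (y := ζ)
    (Algebra.IsAlgebraic.isAlgebraic ζ) (by
      rw [← Polynomial.cyclotomic_eq_minpoly_rat hζ hl.pos, Polynomial.aeval_def,
        ← Polynomial.eval_map, Polynomial.map_cyclotomic]
      exact (Polynomial.isRoot_cyclotomic_iff).mpr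
        (hζ.pow_of_coprime _ (ZMod.val_coe_unit_coprime g)))
  have hψs : ψ s = g ^ ((l - 1) / n) := Units.ext (by
    rw [Lower.cycPow_apply_eq hζ hs, ZMod.natCast_zmod_val, Units.val_pow_eq_pow_val])
  have hl1 : l - 1 ≠ 0 := by have := hl.two_le; omega
  have hord : orderOf (ψ s) = n := by
    rw [hψs, orderOf_pow_of_dvd
      (Nat.div_pos (Nat.le_of_dvd (Nat.pos_of_ne_zero hl1) hdvd) (Nat.pos_of_ne_zero hn0)).ne'
      (by rw [hg, hcard]; exact Nat.div_dvd_of_dvd hdvd), hg, hcard, Nat.div_div_self hdvd hl1]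
  obtain ⟨t, ht1, ht2⟩ := hsplit s
  have hgen : ∀ σ, ∃ i < n, ψ σ = ψ t ^ i := fun σ => by
    haveI : NeZero n := ⟨hn0⟩
    have hprim : IsPrimitiveRoot ((ψ t : (ZMod l)ˣ) : ZMod l) n := by
      rw [IsPrimitiveRoot.iff_orderOf, orderOf_units, ht2, hord]
    obtain ⟨i, hi, he⟩ := hprim.eq_pow_of_pow_eq_one (ξ := ((ψ σ : (ZMod l)ˣ) : ZMod l))
      (by rw [← Units.val_pow_eq_pow_val, Lower.cycPow_pow_eq_one hdvd σ, Units.val_one])
    exact ⟨i, hi, Units.ext (by rw [Units.val_pow_eq_pow_val]; exact he.symm)⟩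
  have hlift : ∀ x : Img M, ∃ σ, toImg M σ = x ∧ ψ σ = 1 := fun x => by
    obtain ⟨σ, rfl⟩ := toImg_surjective M x
    obtain ⟨u, hu, hu'⟩ := hsplit σ
    exact ⟨u⁻¹ * σ, by rw [map_mul, map_inv, hu, inv_one, one_mul],
      by rw [map_mul, map_inv, hu', inv_mul_cancel]⟩
  choose f hf hf' using hlift
  exact ⟨⟨l, hl, hdvd, t, ht1, f, hf, ψ, hf', hgen, by rw [ht2, hord], hψ1⟩, hlS⟩

namespace Layer

variable (D : Layer M p)

theorem psi_t_pow : D.ψ D.t ^ layerDeg M p = 1 := D.ord ▸ pow_orderOf_eq_one _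

theorem isOpen_psi : IsOpen (D.ψ.ker : Set GQ) := by
  haveI : NeZero D.ell := ⟨D.prime.ne_zero⟩
  haveI : NeZero (D.ell : ℚ̄) := ⟨Nat.cast_ne_zero.mpr D.prime.ne_zero⟩
  obtain ⟨ζ, hζ⟩ := HasEnoughRootsOfUnity.exists_primitiveRoot ℚ̄ D.ell
  haveI : FiniteDimensional ℚ (IntermediateField.adjoin ℚ {ζ}) :=
    IntermediateField.adjoin.finiteDimensional (Algebra.IsIntegral.isIntegral ζ)
  refine Subgroup.isOpen_mono (H₁ := (IntermediateField.adjoin ℚ {ζ}).fixingSubgroup)
    (fun σ hσ => MonoidHom.mem_ker.mpr (D.psi_eq σ fun μ hμ => ?_))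
    (IntermediateField.fixingSubgroup_isOpen _)
  obtain ⟨i, -, rfl⟩ := hζ.eq_pow_of_pow_eq_one hμ
  rw [map_pow, (IntermediateField.mem_fixingSubgroup_iff _ σ).mp hσ ζ
    (IntermediateField.mem_adjoin_simple_self ℚ ζ)]

/-- The elements over a subgroup of the image which fix the layer. -/
def above (Q : Subgroup (Img M)) : Subgroup GQ := Q.comap (toImg M) ⊓ D.ψ.ker

theorem mem_above {Q : Subgroup (Img M)} {σ : GQ} : σ ∈ D.above Q ↔ toImg M σ ∈ Q ∧ D.ψ σ = 1 :=
  Iff.rfl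

/-- The composite field. -/
def field : IntermediateField ℚ ℚ̄ := IntermediateField.fixedField (D.above ⊥)

/-- The layer. -/
def cycField : IntermediateField ℚ ℚ̄ := IntermediateField.fixedField D.ψ.ker

/-- The fixed field of a subgroup of the image. -/
def sub (_ : Layer M p) (Q : Subgroup (Img M)) : IntermediateField ℚ ℚ̄ :=
  IntermediateField.fixedField (Q.comap (toImg M))

/-- The fixed field of a subgroup of the image in the layer. -/
def subLayer (Q : Subgroup (Img M)) : IntermediateField ℚ ℚ̄ :=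
  IntermediateField.fixedField (D.above Q)

theorem isOpen_comap (hM : FactorsFinite M) (Q : Subgroup (Img M)) : IsOpen ((Q.comap (toImg M)) : Set GQ) :=
  Subgroup.isOpen_mono (H₁ := (toImg M).ker) (fun _ hσ => Subgroup.mem_comap.mpr
    ((MonoidHom.mem_ker.mp hσ).symm ▸ one_mem Q)) (isOpen_ker hM)

theorem isOpen_above (hM : FactorsFinite M) (Q : Subgroup (Img M)) : IsOpen (D.above Q : Set GQ) :=
  (isOpen_comap hM Q).inter D.isOpen_psi

theorem fix_sub (hM : FactorsFinite M) (Q : Subgroup (Img M)) : (D.sub Q).fixingSubgroup = Q.comap (toImg M) :=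
  fixingSubgroup_fixed (isOpen_comap hM Q)

theorem fix_subLayer (hM : FactorsFinite M) (Q : Subgroup (Img M)) : (D.subLayer Q).fixingSubgroup = D.above Q :=
  fixingSubgroup_fixed (D.isOpen_above hM Q)

theorem fix_field (hM : FactorsFinite M) : D.field.fixingSubgroup = D.above ⊥ := D.fix_subLayer hM ⊥

theorem fix_cycField : D.cycField.fixingSubgroup = D.ψ.ker := fixingSubgroup_fixed D.isOpen_psi

theorem mem_fix_field (hM : FactorsFinite M) {σ : GQ} :
    σ ∈ D.field.fixingSubgroup ↔ toImg M σ = 1 ∧ D.ψ σ = 1 := by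
  rw [D.fix_field hM, mem_above, Subgroup.mem_bot]

theorem le_of_fix {F F' : IntermediateField ℚ ℚ̄} (h : F'.fixingSubgroup ≤ F.fixingSubgroup) :
    F ≤ F' := by
  haveI := GalCommon.isGalois_Qbar
  rw [← InfiniteGalois.fixedField_fixingSubgroup F, ← InfiniteGalois.fixedField_fixingSubgroup F']
  exact fun x hx g => hx ⟨g, h g.2⟩

theorem fieldOf_le (hM : FactorsFinite M) : fieldOf M ≤ D.field := le_of_fix (by
  rw [D.fix_field hM, fixingSubgroup_fieldOf hM]
  exact fun σ hσ => MonoidHom.mem_ker.mpr (Subgroup.mem_bot.mp (D.mem_above.mp hσ).1))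

theorem cycField_le (hM : FactorsFinite M) : D.cycField ≤ D.field := le_of_fix (by
  rw [D.fix_field hM, D.fix_cycField]
  exact inf_le_right)

theorem subLayer_le (hM : FactorsFinite M) (Q : Subgroup (Img M)) : D.subLayer Q ≤ D.field := le_of_fix (by
  rw [D.fix_field hM, D.fix_subLayer hM]
  exact inf_le_inf_right _ (Subgroup.comap_mono bot_le))

theorem sub_le (hM : FactorsFinite M) (Q : Subgroup (Img M)) : D.sub Q ≤ fieldOf M := le_of_fix (by
  rw [D.fix_sub hM, fixingSubgroup_fieldOf hM]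
  exact fun σ hσ => Subgroup.mem_comap.mpr ((MonoidHom.mem_ker.mp hσ).symm ▸ one_mem Q))

theorem finite_field (hM : FactorsFinite M) : FiniteDimensional ℚ D.field := finite_fixed (D.isOpen_above hM ⊥)

include D in
theorem finite_fieldOf (hM : FactorsFinite M) : FiniteDimensional ℚ (fieldOf M) :=
  haveI := D.finite_field hM
  finite_of_le (D.fieldOf_le hM)

theorem normal_field : Normal ℚ D.field := normal_fixed (by
  haveI : (⊥ : Subgroup (Img M)).Normal := Subgroup.normal_bot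
  exact Subgroup.normal_inf_normal _ _)

theorem normal_cycField : Normal ℚ D.cycField := normal_fixed (MonoidHom.normal_ker _)

theorem setting (hM : FactorsFinite M) {S T : Finset ℕ} (hpS : p ∈ S)
    (hST : S ⊆ T) (hell : D.ell ∈ T) (hT : ∀ q ∈ T, q.Prime)
    (hunr : ∀ q : ℕ, q.Prime → q ∉ S → ∀ P : ValuationSubring ℚ̄,
      P.LiesOverPrime q → ∀ τ ∈ P.inertiaSubgroupIn ℚ, M τ = 1) :
    IdeleSetting T p D.field := by
  haveI := D.finite_field hM
  haveI := D.normal_field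
  refine ⟨inferInstance, ⟨⟩, hST hpS, hT, fun A hA σ hσ => ?_⟩
  obtain ⟨q, hq, hAq⟩ := A.2
  have hqT : q ∉ T := fun h => hA ⟨q, h, hq, hAq⟩
  rw [D.mem_fix_field hM]
  refine ⟨(toImg_eq_one_iff M σ).mpr (hunr q hq (fun h => hqT (hST h)) A.1 hAq σ hσ),
    D.psi_eq σ fun μ hμ => GalCommon.inertia_apply_of_pow_eq_one hq hAq (fun h => hqT ?_) hσ hμ⟩
  rw [(Nat.prime_dvd_prime_iff_eq hq D.prime).mp h]; exact hell

theorem card_img : Nat.card (Img M) = (toImg M).ker.index :=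
  (Subgroup.index_ker (toImg M)).trans (by
    rw [MonoidHom.range_eq_top.mpr (toImg_surjective M), Subgroup.card_top]) |>.symm

theorem index_comap (Q : Subgroup (Img M)) : (Q.comap (toImg M)).index = Q.index :=
  Q.index_comap_of_surjective (toImg_surjective M)

theorem mem_psiKer_mul {σ : GQ} {i : ℕ} (h : D.ψ σ = D.ψ D.t ^ i) :
    D.ψ ((D.t ^ i)⁻¹ * σ) = 1 := by
  rw [map_mul, map_inv, map_pow, h, inv_mul_cancel]

theorem t_pow_mem (hM' : FactorsFinite M) : D.t ^ layerDeg M p ∈ D.field.fixingSubgroup := by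
  rw [D.mem_fix_field hM']
  exact ⟨by rw [map_pow, D.toImg_t, one_pow], by rw [map_pow, D.psi_t_pow]⟩

theorem index_psi : D.ψ.ker.index = layerDeg M p := by
  rw [Subgroup.index_ker, ← D.ord, ← Nat.card_zpowers]
  refine congrArg (fun S : Subgroup (ZMod D.ell)ˣ => Nat.card S) (le_antisymm ?_
    (Subgroup.zpowers_le.mpr ⟨D.t, rfl⟩))
  rintro _ ⟨σ, rfl⟩
  obtain ⟨i, -, h⟩ := D.gen σ
  exact h ▸ Subgroup.npow_mem_zpowers _ i

theorem finrank_cycField : Module.finrank ℚ D.cycField = layerDeg M p := by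
  haveI := GalCommon.isGalois_Qbar
  haveI := finite_fixed D.isOpen_psi
  rw [IntermediateField.finrank_eq_fixingSubgroup_index, D.fix_cycField, D.index_psi]

theorem isCyclic_cycField : IsCyclic (D.cycField ≃ₐ[ℚ] D.cycField) := by
  haveI := GalCommon.normal_Qbar
  haveI := D.normal_cycField
  refine ⟨⟨AlgEquiv.restrictNormalHom D.cycField D.t, fun x => ?_⟩⟩
  obtain ⟨σ, rfl⟩ := AlgEquiv.restrictNormalHom_surjective (F := ℚ) (K₁ := D.cycField) ℚ̄ x
  obtain ⟨i, -, hi⟩ := D.gen σ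
  have h1 : (D.t ^ i)⁻¹ * σ ∈ D.cycField.fixingSubgroup := by
    rw [D.fix_cycField]; exact D.mem_psiKer_mul hi
  refine ⟨(i : ℤ), ?_⟩
  show AlgEquiv.restrictNormalHom D.cycField D.t ^ (i : ℤ) = _
  rw [zpow_natCast, ← map_pow]
  refine AlgEquiv.ext fun x => Subtype.ext ?_
  have e1 := AlgEquiv.restrictNormal_commutes (D.t ^ i) D.cycField x
  have e2 := AlgEquiv.restrictNormal_commutes σ D.cycField x
  refine e1.trans (Eq.trans ?_ e2.symm)
  conv_rhs => rw [← mul_inv_cancel_left (D.t ^ i) σ, AlgEquiv.mul_apply]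
  exact congrArg (D.t ^ i) ((IntermediateField.mem_fixingSubgroup_iff _ _).mp h1 _ x.2).symm

theorem cycField_le_adjoin :
    D.cycField ≤ IntermediateField.adjoin ℚ {ζ : ℚ̄ | ζ ^ D.ell = 1} := le_of_fix (by
  rw [D.fix_cycField]
  exact fun σ hσ => MonoidHom.mem_ker.mpr (D.psi_eq σ fun μ hμ =>
    (IntermediateField.mem_fixingSubgroup_iff _ σ).mp hσ μ
      (IntermediateField.subset_adjoin ℚ _ hμ)))

theorem sup_cycField (hM : FactorsFinite M) (Q : Subgroup (Img M)) : D.sub Q ⊔ D.cycField = D.subLayer Q := by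
  have h : (D.sub Q ⊔ D.cycField).fixingSubgroup = (D.subLayer Q).fixingSubgroup := by
    rw [IntermediateField.fixingSubgroup_sup, D.fix_sub hM, D.fix_cycField,
      D.fix_subLayer hM]
    rfl
  exact le_antisymm (le_of_fix h.ge) (le_of_fix h.le)

theorem inf_cycField (hM : FactorsFinite M) (Q : Subgroup (Img M)) : D.cycField ⊓ D.sub Q = ⊥ := by
  refine eq_bot_iff.mpr fun x hx => ?_
  haveI := GalCommon.isGalois_Qbar
  refine (InfiniteGalois.mem_bot_iff_fixed x).mpr fun σ => ?_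
  have h1 : D.lift (toImg M σ) ∈ D.cycField.fixingSubgroup := by
    rw [D.fix_cycField]; exact D.psi_lift _
  have h2 : (D.lift (toImg M σ))⁻¹ * σ ∈ (D.sub Q).fixingSubgroup := by
    rw [D.fix_sub hM, Subgroup.mem_comap, map_mul, map_inv, D.toImg_lift, inv_mul_cancel]
    exact one_mem Q
  have e1 := (IntermediateField.mem_fixingSubgroup_iff _ _).mp h1 x hx.1
  have e2 := (IntermediateField.mem_fixingSubgroup_iff _ _).mp h2 x hx.2
  calc σ x = (D.lift (toImg M σ) * ((D.lift (toImg M σ))⁻¹ * σ) : GQ) x := by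
        rw [mul_inv_cancel_left]
    _ = x := by rw [AlgEquiv.mul_apply, e2, e1]

end Layer

theorem containsMuP_of_det [CharP k p] [Fact p.Prime] (hdet : DetCyclotomic M p)
    {F : IntermediateField ℚ ℚ̄}
    (hF : ∀ σ ∈ F.fixingSubgroup, ∃ j : ℕ, (M σ).det ^ p ^ j = 1) : ContainsMuP p F := by
  intro ζ hζ
  haveI := GalCommon.isGalois_Qbar
  rw [← InfiniteGalois.fixedField_fixingSubgroup F]
  rintro ⟨σ, hσ⟩
  show σ ζ = ζ
  by_cases h1 : ζ = 1
  · rw [h1, map_one]
  haveI : NeZero p := ⟨(Fact.out : p.Prime).ne_zero⟩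
  have hprim : IsPrimitiveRoot ζ p := by
    rw [IsPrimitiveRoot.iff_orderOf]; exact orderOf_eq_prime hζ h1
  obtain ⟨a, -, ha⟩ := hprim.eq_pow_of_pow_eq_one
    (show (σ ζ) ^ p = 1 by rw [← map_pow, hζ, map_one])
  have hd : (M σ).det = (a : k) := hdet σ a fun μ hμ => by
    obtain ⟨i, -, rfl⟩ := hprim.eq_pow_of_pow_eq_one hμ
    rw [map_pow, ← ha, ← pow_mul, ← pow_mul, mul_comm]
  obtain ⟨j, hj⟩ := hF σ hσ
  haveI : ExpChar k p := .prime Fact.out
  have h2 : (M σ).det = 1 := by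
    have h3 : ((M σ).det - 1) ^ p ^ j = 0 := by
      rw [sub_pow_expChar_pow, hj, one_pow, sub_self]
    exact sub_eq_zero.mp (pow_eq_zero_iff (pow_ne_zero _ (Fact.out : p.Prime).ne_zero) |>.mp h3)
  rw [hd, ← Nat.cast_one, CharP.natCast_eq_natCast (R := k) (p := p)] at h2
  rw [← ha]
  conv_rhs => rw [← pow_one ζ]
  exact (hprim.isOfFinOrder (Fact.out : p.Prime).ne_zero).pow_eq_pow_iff_modEq.mpr
    (by rw [← hprim.eq_orderOf]; exact h2)

theorem Layer.containsMuP_sub [Fact p.Prime] [CharP k p] (D : Layer M p) (hM : FactorsFinite M)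
    (hdet : DetCyclotomic M p) {Q : Subgroup (Img M)} (hQ : IsPGroup p Q) :
    ContainsMuP p (D.sub Q) :=
  containsMuP_of_det hdet fun σ hσ => by
    rw [D.fix_sub hM] at hσ
    obtain ⟨j, hj⟩ := hQ ⟨toImg M σ, hσ⟩
    refine ⟨j, ?_⟩
    have := congrArg (fun x : Q => (((x : Img M) : (Matrix (Fin 2) (Fin 2) k)ˣ) :
      Matrix (Fin 2) (Fin 2) k).det) hj
    simpa [coe_toImg] using this

end FLTAgent.TW
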