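import Fermat.Agent.TW.Global.Defs
import Fermat.Agent.TW.Global.GroupMat
import Fermat.Agent.GalCommon.Basic

/-!
# Facts about the image

* Irreducibility: a stable line of `ad⁰` is nilpotent (a fixed line of `M`) or semisimple (an
  eigenline stable under an index `≤ 2` subgroup); a stable plane has a stable orthogonal line.
* `exists_distinct`: otherwise the elements of determinant one are scalar times unipotent; either
  all scalar (then `M` is projectively abelian, against `big`) or they share a fixed line.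
* `h1Zero_twAd`: with `F g = tr (a g · g)` on determinant one elements: `F` vanishes on elements of
  order prime to `p`; for unipotent `u` and a conjugate `v` the third differences of
  `i ↦ F (uⁱ vʲ)` give `F u = 0` (for `p = 5` with `F (g u g⁻¹) = det g · F u`).  So `a` is a
  coboundary on the determinant one elements, which span, hence everywhere.
-/

set_option autoImplicit false
set_option linter.style.haveILetI false
set_option maxHeartbeats 800000

noncomputable section

namespace FLTAgent.TW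

open Matrix FLTAgent.Deform

variable {k : Type} [Field k] [Finite k] {p : ℕ} [Fact p.Prime] [CharP k p] {M : MatRep k}

local notation "𝕄" => Matrix (Fin 2) (Fin 2) k

/-! ### The image -/

omit [Finite k] [Fact p.Prime] [CharP k p] in
theorem span_coe_img (hM : Adequate M p) :
    Submodule.span k (Set.range fun g : Img M => ((g : 𝕄ˣ) : 𝕄)) = ⊤ := by
  refine top_le_iff.mp (hM.span ▸ Submodule.span_mono ?_)
  rintro _ ⟨σ, rfl⟩
  exact ⟨toImg M σ, rfl⟩

omit [Finite k] in
theorem two_ne_zero_of (hM : Adequate M p) : (2 : k) ≠ 0 := by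
  have : ((2 : ℕ) : k) ≠ 0 := fun h => hM.ne_two
    ((Nat.prime_dvd_prime_iff_eq Fact.out Nat.prime_two).mp ((CharP.cast_eq_zero_iff k p 2).mp h))
  simpa using this

omit [Finite k] [Fact p.Prime] [CharP k p] in
theorem scalar_of_commute (hM : Adequate M p) {X : 𝕄} (h : ∀ σ, M σ * X = X * M σ) :
    X = X 0 0 • 1 := by
  refine scalar_of_commute_all fun Y => ?_
  have hY : Y ∈ Submodule.span k (Set.range M) := hM.span ▸ Submodule.mem_top
  induction hY using Submodule.span_induction with
  | mem Y hY => obtain ⟨σ, rfl⟩ := hY; exact (h σ).symm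
  | zero => simp
  | add Y Y' _ _ e e' => rw [mul_add, add_mul, e, e']
  | smul c Y _ e => rw [Matrix.mul_smul, Matrix.smul_mul, e]

omit [Finite k] [Fact p.Prime] [CharP k p] in
/-- No nonscalar matrix commutes or anticommutes with every element of the image. -/
theorem false_of_sign (hM : Adequate M p) {X : 𝕄} (hX : ¬ X = X 0 0 • 1)
    (h : ∀ σ, M σ * X = X * M σ ∨ M σ * X = -(X * M σ)) : False := by
  classical
  let H : Subgroup GQ :=
    { carrier := {σ | M σ * X = X * M σ}
      one_mem' := by simp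
      mul_mem' := fun {a b} (ha : M a * X = X * M a) (hb : M b * X = X * M b) => by
        show M (a * b) * X = X * M (a * b)
        rw [map_mul, mul_assoc, hb, ← mul_assoc, ha, mul_assoc]
      inv_mem' := fun {a} (ha : M a * X = X * M a) => by
        show M a⁻¹ * X = X * M a⁻¹
        have := congrArg (fun Z => M a⁻¹ * Z * M a⁻¹) ha
        simp only [← mul_assoc, inv_mul_eq_one, one_mul] at this
        rw [mul_assoc (M a⁻¹) X, mul_assoc (M a⁻¹) (X * M a), mul_assoc X, mul_inv_eq_one,
          mul_one] at this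
        exact this.symm }
  obtain ⟨a, ha⟩ : ∃ a, ¬ M a * X = X * M a := by
    by_contra hall
    push Not at hall
    exact hX (scalar_of_commute hM hall)
  have ha' := (h a).resolve_left ha
  have hindex : H.index = 2 := by
    refine Subgroup.index_eq_two_iff.mpr ⟨a, fun b => ?_⟩
    by_cases hb : b ∈ H
    · refine Or.inr ⟨hb, fun hba => ha ?_⟩
      show a ∈ H
      simpa using H.mul_mem (H.inv_mem hb) hba
    · refine Or.inl ⟨?_, hb⟩
      have hb' := (h b).resolve_left hb
      show M (b * a) * X = X * M (b * a)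
      rw [map_mul, mul_assoc, ha', mul_neg, ← mul_assoc, hb', neg_mul, neg_neg, mul_assoc]
  let K := AlgebraicClosure k
  set X' : Matrix (Fin 2) (Fin 2) K := X.map (algebraMap k K) with hX'
  obtain ⟨μ, hμ⟩ := Module.End.exists_eigenvalue (Matrix.toLin' X')
  rcases hM.big K H hindex (Module.End.eigenspace (Matrix.toLin' X') μ) (fun σ hσ x hx => by
    rw [Module.End.mem_eigenspace_iff, Matrix.toLin'_apply] at hx ⊢
    rw [Matrix.mulVec_mulVec, hX', ← Matrix.map_mul, ← (show M σ * X = X * M σ from hσ),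
      Matrix.map_mul, ← Matrix.mulVec_mulVec, hx, Matrix.mulVec_smul]) with hV | hV
  · exact hμ hV
  · apply hX
    have hall : ∀ x : Fin 2 → K, X' *ᵥ x = μ • x := fun x => by
      have hx : x ∈ Module.End.eigenspace (Matrix.toLin' X') μ := hV ▸ Submodule.mem_top
      rwa [Module.End.mem_eigenspace_iff, Matrix.toLin'_apply] at hx
    have hinj := (algebraMap k K).injective
    have e0 := hall ![1, 0]
    have e1 := hall ![0, 1]
    have a00 := congrFun e0 0
    have a10 := congrFun e0 1
    have a01 := congrFun e1 0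
    have a11 := congrFun e1 1
    simp [X', Matrix.mulVec, dotProduct, Fin.sum_univ_two] at a00 a10 a01 a11
    ext i j
    fin_cases i <;> fin_cases j <;> simp
    · exact a01
    · exact a10
    · exact hinj (a11.trans a00.symm)

omit [Finite k] in
/-- No line of `ad⁰` is stable. -/
theorem false_of_line (hM : Adequate M p) {X : 𝕄} (hX0 : X ≠ 0) (htr : X.trace = 0)
    (h : ∀ σ, ∃ c : k, M σ * X = c • (X * M σ)) : False := by
  have h2 := two_ne_zero_of hM
  by_cases hd : X.det = 0
  · have hsq : X * X = 0 := by rw [mul_self_eq, htr, hd, zero_smul, zero_smul, sub_zero]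
    have hall : ∀ Y : 𝕄, X * Y * X = 0 := fun Y => by
      have hY : Y ∈ Submodule.span k (Set.range M) := hM.span ▸ Submodule.mem_top
      induction hY using Submodule.span_induction with
      | mem Y hY =>
        obtain ⟨σ, rfl⟩ := hY
        obtain ⟨c, hc⟩ := h σ
        rw [mul_assoc, hc, Matrix.mul_smul, ← mul_assoc, hsq, zero_mul, smul_zero]
      | zero => simp
      | add Y Y' _ _ e e' => rw [mul_add, add_mul, e, e', add_zero]
      | smul c Y _ e => rw [Matrix.mul_smul, Matrix.smul_mul, e, smul_zero]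
    refine hX0 (eq_zero_of_trace_mul fun Y => ?_)
    have e := mul_mul_eq_smul hsq Y
    rw [hall, eq_comm, smul_eq_zero] at e
    rw [Matrix.trace_mul_comm]
    exact e.resolve_right hX0
  · refine false_of_sign hM (X := X) (fun hs => hd ?_) fun σ => ?_
    · rw [hs, Matrix.trace_smul, Matrix.trace_one, Fintype.card_fin, smul_eq_mul] at htr
      have : X 0 0 = 0 := (mul_eq_zero.mp htr).resolve_right (by simpa using h2)
      rw [hs, this, zero_smul, Matrix.det_zero]
    · obtain ⟨c, hc⟩ := h σ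
      have hdet := congrArg Matrix.det hc
      rw [Matrix.det_smul, Fintype.card_fin, Matrix.det_mul, Matrix.det_mul] at hdet
      have hσ : (M σ).det ≠ 0 := by
        intro h0
        have := congrArg Matrix.det (mul_inv_eq_one M σ)
        rw [Matrix.det_mul, h0, zero_mul, Matrix.det_one] at this
        exact zero_ne_one this
      have hc2 : c ^ 2 = 1 := mul_right_cancel₀ (mul_ne_zero hd hσ)
        (by rw [one_mul, ← hdet, mul_comm])
      rcases sq_eq_one_iff.mp hc2 with rfl | rfl
      · exact Or.inl (by rw [hc, one_smul])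
      · exact Or.inr (by rw [hc, neg_smul, one_smul])

omit [Finite k] in
/-- A stable subspace of trace zero matrices. -/
theorem eq_bot_or_scalar (hM : Adequate M p) (P : Submodule k 𝕄) (htr : ∀ Z ∈ P, Z.trace = 0)
    (hP : ∀ σ, ∀ Z ∈ P, M σ * Z * M σ⁻¹ ∈ P) {X : 𝕄} (hX : X ∈ P) (hX0 : X ≠ 0) :
    ∀ Z : 𝕄, Z.trace = 0 → Z ∈ P := by
  intro Z hZ
  by_contra hZP
  set T : Submodule k 𝕄 := LinearMap.ker (Matrix.traceLinearMap (Fin 2) k k)
  have hPT : P ≤ T := fun Y hY => LinearMap.mem_ker.mpr (htr Y hY)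
  have hT : Module.finrank k T = 3 := by
    have h1 := LinearMap.finrank_range_add_finrank_ker (Matrix.traceLinearMap (Fin 2) k k)
    rw [LinearMap.range_eq_top.mpr fun c => ⟨!![c, 0; 0, 0], by simp [Matrix.trace_fin_two]⟩,
      finrank_top, Module.finrank_self, Module.finrank_matrix, Fintype.card_fin,
      Module.finrank_self] at h1
    change 1 + Module.finrank k T = _ at h1
    omega
  have hlt : Module.finrank k P < 3 :=
    hT ▸ Submodule.finrank_lt_finrank_of_lt
      (lt_of_le_of_ne hPT fun e => hZP (e ▸ LinearMap.mem_ker.mpr hZ))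
  have hpos : 0 < Module.finrank k P :=
    Module.finrank_pos_iff_exists_ne_zero.mpr ⟨⟨X, hX⟩, fun e => hX0 (congrArg Subtype.val e)⟩
  rcases (show Module.finrank k P = 1 ∨ Module.finrank k P = 2 by omega) with h1 | h1
  · refine false_of_line hM hX0 (htr X hX) fun σ => ?_
    obtain ⟨c, hc⟩ := exists_smul_eq_of_finrank_eq_one h1 (x := ⟨X, hX⟩)
      (fun e => hX0 (congrArg Subtype.val e)) ⟨_, hP σ X hX⟩
    have hc' := congrArg (fun Y : P => (Y : 𝕄) * M σ) hc
    simp only [SetLike.val_smul, Matrix.smul_mul] at hc'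
    refine ⟨c, ?_⟩
    rw [hc', mul_assoc _ (M σ⁻¹), inv_mul_eq_one, mul_one]
  · -- the orthogonal line
    let φ : T →ₗ[k] (P →ₗ[k] k) :=
      { toFun := fun Y =>
          (Matrix.traceLinearMap (Fin 2) k k).comp ((LinearMap.mulLeft k (Y : 𝕄)).comp P.subtype)
        map_add' := fun Y Y' => LinearMap.ext fun u => by simp [add_mul]
        map_smul' := fun c Y => LinearMap.ext fun u => by simp }
    obtain ⟨Y, hYker, hY0⟩ : ∃ Y, φ Y = 0 ∧ Y ≠ 0 := by
      have h3 := LinearMap.finrank_range_add_finrank_ker φ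
      have h4 := Submodule.finrank_le (LinearMap.range φ)
      rw [Module.finrank_linearMap, Module.finrank_self, h1, mul_one] at h4
      rw [hT] at h3
      have hne : LinearMap.ker φ ≠ ⊥ := fun e => by
        rw [e, finrank_bot] at h3
        omega
      obtain ⟨Y, hY, hY0⟩ := Submodule.exists_mem_ne_zero_of_ne_bot hne
      exact ⟨Y, hY, hY0⟩
    have hY1 : (Y : 𝕄) ≠ 0 := fun e => hY0 (Subtype.ext e)
    have horth : ∀ u ∈ P, ((Y : 𝕄) * u).trace = 0 := fun u hu => LinearMap.congr_fun hYker ⟨u, hu⟩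
    set O : Submodule k 𝕄 :=
      { carrier := {Z | Z.trace = 0 ∧ ∀ u ∈ P, (Z * u).trace = 0}
        zero_mem' := ⟨Matrix.trace_zero _ _, fun u _ => by simp⟩
        add_mem' := fun {a b} ha hb => ⟨by rw [Matrix.trace_add, ha.1, hb.1, add_zero],
          fun u hu => by rw [add_mul, Matrix.trace_add, ha.2 u hu, hb.2 u hu, add_zero]⟩
        smul_mem' := fun c {a} ha => ⟨by rw [Matrix.trace_smul, ha.1, smul_zero],
          fun u hu => by rw [Matrix.smul_mul, Matrix.trace_smul, ha.2 u hu, smul_zero]⟩ }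
    have hOP : Module.finrank k O ≤ 1 := by
      have hdis : O ≤ T := fun W hW => LinearMap.mem_ker.mpr hW.1
      by_contra hcon
      push Not at hcon
      -- two dimensions orthogonal to a plane: the pairing would be degenerate
      let ψ : T →ₗ[k] (O →ₗ[k] k) :=
        { toFun := fun W =>
            (Matrix.traceLinearMap (Fin 2) k k).comp ((LinearMap.mulRight k (W : 𝕄)).comp O.subtype)
          map_add' := fun W W' => LinearMap.ext fun u => by simp [mul_add]
          map_smul' := fun c W => LinearMap.ext fun u => by simp }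
      have hsurj : LinearMap.range ψ = ⊤ := by
        refine LinearMap.range_eq_top.mpr fun l => ?_
        obtain ⟨l', hl'⟩ := LinearMap.exists_extend l
        set A : 𝕄 := !![l' !![1, 0; 0, 0], l' !![0, 0; 1, 0]; l' !![0, 1; 0, 0], l' !![0, 0; 0, 1]]
        have hA : ∀ W : 𝕄, l' W = (W * A).trace := fun W => by
          have hW : W = W 0 0 • !![1, 0; 0, 0] + W 0 1 • !![0, 1; 0, 0] +
              W 1 0 • !![0, 0; 1, 0] + W 1 1 • !![0, 0; 0, 1] := by
            ext i j; fin_cases i <;> fin_cases j <;> simp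
          rw [congrArg l' hW, map_add, map_add, map_add, map_smul, map_smul, map_smul, map_smul]
          simp [A, Matrix.mul_apply, Fin.sum_univ_two, Matrix.trace_fin_two]
          ring
        refine ⟨⟨A - (A.trace / 2) • 1, LinearMap.mem_ker.mpr ?_⟩, LinearMap.ext fun W => ?_⟩
        · rw [Matrix.traceLinearMap_apply, Matrix.trace_sub, Matrix.trace_smul, Matrix.trace_one,
            Fintype.card_fin, smul_eq_mul, Nat.cast_ofNat,
            div_mul_cancel₀ _ (two_ne_zero_of hM), sub_self]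
        · show ((W : 𝕄) * (A - (A.trace / 2) • 1)).trace = l W
          rw [mul_sub, Matrix.trace_sub, Matrix.mul_smul, mul_one, Matrix.trace_smul, W.2.1,
            smul_zero, sub_zero, ← hA, ← hl']
          rfl
      have h3 := LinearMap.finrank_range_add_finrank_ker ψ
      rw [hsurj, finrank_top, Module.finrank_linearMap, Module.finrank_self, hT, mul_one] at h3
      have hPker : Module.finrank k (P.comap T.subtype) ≤ Module.finrank k (LinearMap.ker ψ) :=
        Submodule.finrank_mono fun W hW => LinearMap.mem_ker.mpr (LinearMap.ext fun u => u.2.2 _ hW)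
      rw [(Submodule.comapSubtypeEquivOfLe hPT).finrank_eq, h1] at hPker
      omega
    have hOinv : ∀ σ, M σ * (Y : 𝕄) * M σ⁻¹ ∈ O := fun σ => by
      refine ⟨by rw [Matrix.trace_mul_comm, ← mul_assoc, inv_mul_eq_one, one_mul]; exact Y.2,
        fun u hu => ?_⟩
      have := horth _ (hP σ⁻¹ u hu)
      rw [inv_inv] at this
      rw [show M σ * (Y : 𝕄) * M σ⁻¹ * u = M σ * ((Y : 𝕄) * M σ⁻¹ * u) by simp only [mul_assoc],
        Matrix.trace_mul_comm]
      simpa only [mul_assoc] using this
    refine false_of_line hM hY1 Y.2 fun σ => ?_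
    have hfr : Module.finrank k O = 1 := le_antisymm hOP
      (Module.finrank_pos_iff_exists_ne_zero.mpr
        ⟨⟨(Y : 𝕄), Y.2, horth⟩, fun e => hY1 (congrArg Subtype.val e)⟩)
    obtain ⟨c, hc⟩ := exists_smul_eq_of_finrank_eq_one hfr
      (x := ⟨(Y : 𝕄), Y.2, horth⟩) (fun e => hY1 (congrArg Subtype.val e)) ⟨_, hOinv σ⟩
    have hc' := congrArg (fun W : O => (W : 𝕄) * M σ) hc
    simp only [SetLike.val_smul, Matrix.smul_mul] at hc'
    refine ⟨c, ?_⟩
    rw [hc', mul_assoc _ (M σ⁻¹), inv_mul_eq_one, mul_one]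

omit [Finite k] in
/-- The commutators are not all scalar. -/
theorem false_of_commutators (hM : Adequate M p)
    (h : ∀ σ τ, ∃ c : k, M (σ * τ) = c • M (τ * σ)) : False := by
  obtain ⟨σ₀, hσ₀⟩ : ∃ σ₀, ¬ M σ₀ = M σ₀ 0 0 • 1 := by
    by_contra hall
    push Not at hall
    have h1 : ∀ Y : 𝕄, !![0, 1; 0, 0] * Y = Y * !![0, 1; 0, 0] := fun Y => by
      have hY : Y ∈ Submodule.span k (Set.range M) := hM.span ▸ Submodule.mem_top
      induction hY using Submodule.span_induction with
      | mem Y hY => obtain ⟨σ, rfl⟩ := hY; rw [hall σ]; simp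
      | zero => simp
      | add Y Y' _ _ e e' => rw [mul_add, add_mul, e, e']
      | smul c Y _ e => rw [Matrix.mul_smul, Matrix.smul_mul, e]
    have := congrFun (congrFun (h1 !![1, 0; 0, 0]) 0) 1
    simp at this
  refine false_of_sign hM hσ₀ fun σ => ?_
  obtain ⟨c, hc⟩ := h σ σ₀
  rw [map_mul, map_mul] at hc
  have hne : ∀ τ, (M τ).det ≠ 0 := fun τ h0 => by
    have := congrArg Matrix.det (mul_inv_eq_one M τ)
    rw [Matrix.det_mul, h0, zero_mul, Matrix.det_one] at this
    exact zero_ne_one this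
  have hdet := congrArg Matrix.det hc
  rw [Matrix.det_smul, Fintype.card_fin, Matrix.det_mul, Matrix.det_mul] at hdet
  have hc2 : c ^ 2 = 1 := mul_right_cancel₀ (mul_ne_zero (hne σ₀) (hne σ))
    (by rw [one_mul, ← hdet, mul_comm])
  rcases sq_eq_one_iff.mp hc2 with rfl | rfl
  · exact Or.inl (by rw [hc, one_smul])
  · exact Or.inr (by rw [hc, neg_smul, one_smul])

omit [Finite k] [Fact p.Prime] [CharP k p] in
theorem mat_toImg_smul (σ : GQ) (X : TwAd M) :
    TwAd.mat (toImg M σ • X) = (M σ).det • (M σ * TwAd.mat X * M σ⁻¹) := by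
  have h : (↑((toImg M σ : Img M) : 𝕄ˣ)⁻¹ : 𝕄) = M σ⁻¹ :=
    Units.inv_eq_of_mul_eq_one_right (by rw [coe_toImg, mul_inv_eq_one])
  rw [TwAd.mat_smul, twConj, h, coe_toImg]

omit [Finite k] [Fact p.Prime] [CharP k p] in
theorem det_M_ne_zero (M : MatRep k) (σ : GQ) : (M σ).det ≠ 0 := by
  intro h0
  have := congrArg Matrix.det (mul_inv_eq_one M σ)
  rw [Matrix.det_mul, h0, zero_mul, Matrix.det_one] at this
  exact zero_ne_one this

/-- `TwAd` is irreducible. -/
theorem twAd_irreducible (hM : Adequate M p) (V : Submodule k (TwAd M))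
    (hV : ∀ (g : Img M), ∀ X ∈ V, g • X ∈ V) : V = ⊥ ∨ V = ⊤ := by
  refine or_iff_not_imp_left.mpr fun hbot => ?_
  obtain ⟨X, hX, hX0⟩ := V.exists_mem_ne_zero_of_ne_bot hbot
  have key := eq_bot_or_scalar hM (V.map TwAd.mat)
    (by rintro _ ⟨W, -, rfl⟩; exact W.trace_mat)
    (by
      rintro σ _ ⟨W, hW, rfl⟩
      refine ⟨(M σ).det⁻¹ • (toImg M σ • W), V.smul_mem _ (hV _ W hW), ?_⟩
      rw [map_smul, mat_toImg_smul, smul_smul, inv_mul_cancel₀ (det_M_ne_zero M σ), one_smul])
    (Submodule.mem_map_of_mem hX) fun h => hX0 (TwAd.mat_injective (h.trans (map_zero _).symm))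
  refine Submodule.eq_top_iff'.mpr fun Z => ?_
  obtain ⟨W, hW, he⟩ := key _ Z.trace_mat
  exact TwAd.mat_injective he ▸ hW

theorem twAd_invariants (hM : Adequate M p) (X : TwAd M) (hX : ∀ g : Img M, g • X = X) :
    X = 0 := by
  by_contra h0
  refine false_of_line hM (fun h => h0 (TwAd.mat_injective (h.trans (map_zero _).symm))) X.trace_mat
    fun σ => ⟨(M σ).det⁻¹, ?_⟩
  have h := congrArg TwAd.mat (hX (toImg M σ))
  rw [mat_toImg_smul] at h
  have h' := congrArg (fun Z => (M σ).det⁻¹ • Z * M σ) h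
  simp only [smul_smul, inv_mul_cancel₀ (det_M_ne_zero M σ), one_smul] at h'
  rwa [mul_assoc _ (M σ⁻¹), inv_mul_eq_one, mul_one, Matrix.smul_mul] at h'

/-- Trace zero matrices commuting with the image vanish. -/
theorem ad_invariants (hM : Adequate M p) (X : Matrix (Fin 2) (Fin 2) k) (h0 : X.trace = 0)
    (hX : ∀ σ : GQ, adAct M σ X = X) : X = 0 := by
  have hs := scalar_of_commute hM (X := X) fun σ => by
    conv_rhs => rw [← hX σ]
    rw [adAct, mul_assoc _ (M σ⁻¹), inv_mul_eq_one, mul_one]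
  rw [hs, Matrix.trace_smul, Matrix.trace_one, Fintype.card_fin, smul_eq_mul] at h0
  rw [hs, (mul_eq_zero.mp h0).resolve_right (by simpa using two_ne_zero_of hM), zero_smul]

/-- Cocycles with vanishing trace pairing are coboundaries. -/
theorem exists_coboundary_of_trace (hM : Adequate M p) {c : GQ → Matrix (Fin 2) (Fin 2) k}
    (hc : IsTangentCocycle M c) (h : ∀ τ, (c τ * M τ).trace = 0) :
    ∃ X, X.trace = 0 ∧ c = coboundary M X := by
  obtain ⟨Y, hY, hD⟩ := exists_inner_of_span M hM.span (two_ne_zero_of hM) (fun σ => c σ * M σ)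
    (fun σ τ => by
      simp only [hc.map_mul, map_mul, add_mul, adAct, mul_assoc]
      rw [← mul_assoc (M σ⁻¹) (M σ), inv_mul_eq_one, one_mul])
    h
  refine ⟨Y, hY, funext fun σ => ?_⟩
  have := congrArg (· * M σ⁻¹) (hD σ)
  simp only [sub_mul, mul_assoc, mul_inv_eq_one, mul_one] at this
  rw [this]
  show _ = adAct M σ Y - Y
  rw [adAct, mul_assoc]

/-! ### Elements of determinant one -/

omit [Finite k] in
/-- Scalar-plus-nilpotent form of a matrix with a double eigenvalue. -/
theorem exists_nilp (h2 : (2 : k) ≠ 0) {A : 𝕄} (hd : A.det = 1) (ht : A.trace ^ 2 = 4) :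
    ∃ (e : k) (N : 𝕄), (e = 1 ∨ e = -1) ∧ N * N = 0 ∧ A = e • (1 + N) := by
  have h4 : A.trace * A.trace = 2 * 2 := by rw [← sq, ht]; norm_num
  have key : ∀ e : k, e * e = 1 → A.trace = e * 2 → (e • A - 1) * (e • A - 1) = 0 := by
    intro e he hte
    simp only [sub_mul, mul_sub, Matrix.smul_mul, Matrix.mul_smul, one_mul, mul_one, smul_smul, he,
      mul_self_eq A, hd, hte, smul_sub, one_smul]
    match_scalars <;> first | ring1 | linear_combination (2 * e) * he
  rcases mul_self_eq_mul_self_iff.mp h4 with h | h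
  · refine ⟨1, A - 1, Or.inl rfl, ?_, by simp⟩
    simpa using key 1 (mul_one 1) (by rw [h, one_mul])
  · refine ⟨-1, -A - 1, Or.inr rfl, ?_, by simp⟩
    simpa using key (-1) (by ring) (by rw [h]; ring)

theorem trace_sq_eq_four_or_pow (hM : Adequate M p) {σ : GQ} (hd : (M σ).det = 1) :
    (M σ).trace ^ 2 = 4 ∨ ∃ n : ℕ, (n : k) ≠ 0 ∧ M σ ^ n = 1 := by
  haveI := Fintype.ofFinite k
  obtain ⟨α, β, ht, hαβ⟩ := hM.split σ
  by_cases hne : α = β
  · left
    rw [hd] at hαβ
    rw [ht, hne]
    rw [hne] at hαβ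
    linear_combination -4 * hαβ
  · refine Or.inr ⟨Fintype.card k - 1, ?_, pow_card_sub_one_eq_one hne ht hαβ (det_M_ne_zero M σ)⟩
    rw [Nat.cast_sub Fintype.card_pos, FiniteField.cast_card_eq_zero, Nat.cast_one, zero_sub]
    exact neg_ne_zero.mpr one_ne_zero

omit [Finite k] in
/-- A normal set of nilpotents pairwise orthogonal is absent. -/
theorem false_of_orthogonal (hM : Adequate M p) {N : 𝕄} (hsq : N * N = 0) (hN : N ≠ 0)
    (h : ∀ g, (N * (M g * N * M g⁻¹)).trace = 0) : False := by
  refine false_of_line hM hN (trace_eq_zero_of_sq hsq).1 fun g => ?_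
  obtain ⟨s, hs⟩ := eq_smul_of_trace_mul hsq (N' := M g * N * M g⁻¹) (by
    simp only [mul_assoc]
    rw [← mul_assoc (M g⁻¹) (M g), inv_mul_eq_one, one_mul, ← mul_assoc N N, hsq, zero_mul,
      mul_zero]) hN (h g)
  refine ⟨s, ?_⟩
  have := congrArg (· * M g) hs
  simp only [Matrix.smul_mul, mul_assoc, inv_mul_eq_one, mul_one] at this
  exact this

/-- An element with distinct eigenvalues fixing the roots of unity of order `pⁿ`. -/
theorem exists_distinct (hM : Adequate M p) (n : ℕ) :
    ∃ σ : GQ, (∀ ζ : AlgebraicClosure ℚ, ζ ^ p ^ n = 1 → σ ζ = ζ) ∧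
      ∃ α β : k, α ≠ β ∧ (M σ).trace = α + β ∧ (M σ).det = α * β := by
  by_contra hcon
  push Not at hcon
  haveI : NeZero (p ^ n) := ⟨pow_ne_zero _ (Fact.out : p.Prime).ne_zero⟩
  let P : GQ → Prop := fun σ => ∀ ζ : AlgebraicClosure ℚ, ζ ^ p ^ n = 1 → σ ζ = ζ
  have hform : ∀ σ, P σ → ∃ (e : k) (N : 𝕄), e ≠ 0 ∧ N * N = 0 ∧ M σ = e • (1 + N) := by
    intro σ hσ
    obtain ⟨α, β, ht, hd⟩ := hM.split σ
    have hαβ : α = β := by
      by_contra hne
      exact hcon σ hσ α β hne ht hd
    subst hαβ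
    have hα : α ≠ 0 := fun h0 => det_M_ne_zero M σ (by rw [hd, h0, zero_mul])
    refine ⟨α, α⁻¹ • M σ - 1, hα, ?_, by
      rw [add_sub_cancel, smul_smul, mul_inv_cancel₀ hα, one_smul]⟩
    simp only [sub_mul, mul_sub, Matrix.smul_mul, Matrix.mul_smul, one_mul, mul_one, smul_smul,
      mul_self_eq (M σ), ht, hd, smul_sub]
    match_scalars <;> field_simp <;> ring
  have hcomm : ∀ (g : GQ) (ζ : AlgebraicClosure ℚ), ζ ^ p ^ n = 1 → ∀ h : GQ, g (h ζ) = h (g ζ) := by
    intro g ζ hζ h
    haveI : NeZero ((p ^ n : ℕ) : AlgebraicClosure ℚ) := ⟨Nat.cast_ne_zero.mpr (NeZero.ne _)⟩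
    obtain ⟨ξ, hξ⟩ := HasEnoughRootsOfUnity.exists_primitiveRoot (AlgebraicClosure ℚ) (p ^ n)
    obtain ⟨i, -, rfl⟩ := hξ.eq_pow_of_pow_eq_one hζ
    obtain ⟨a, -, ha⟩ := hξ.eq_pow_of_pow_eq_one (show (g ξ) ^ (p ^ n) = 1 by rw [← map_pow, hξ.pow_eq_one, map_one])
    obtain ⟨b, -, hb⟩ := hξ.eq_pow_of_pow_eq_one (show (h ξ) ^ (p ^ n) = 1 by rw [← map_pow, hξ.pow_eq_one, map_one])
    simp only [map_pow, ← ha, ← hb, ← pow_mul]
    ring_nf
  by_cases hsc : ∀ σ, P σ → ∃ c : k, M σ = c • 1
  · refine false_of_commutators hM fun σ τ => ?_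
    obtain ⟨c, hc⟩ := hsc (σ * τ * σ⁻¹ * τ⁻¹) fun ζ hζ => by
      simp only [AlgEquiv.mul_apply]
      have e1 : ∀ (x : GQ) (z : AlgebraicClosure ℚ), x (x⁻¹ z) = z := fun x z => by
        rw [← AlgEquiv.mul_apply, mul_inv_cancel, AlgEquiv.one_apply]
      have := hcomm σ⁻¹ (τ⁻¹ ζ) (by rw [← map_pow, hζ, map_one]) τ
      rw [← this, e1 τ, e1 σ]
    refine ⟨c, ?_⟩
    have := congrArg (· * M (τ * σ)) hc
    simp only [← map_mul, Matrix.smul_mul, one_mul] at this
    rwa [show σ * τ * σ⁻¹ * τ⁻¹ * (τ * σ) = σ * τ by group] at this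
  push Not at hsc
  obtain ⟨σ, hσ, hns⟩ := hsc
  obtain ⟨e, N, he, hN2, hσM⟩ := hform σ hσ
  have hN : N ≠ 0 := fun h => hns e (by rw [hσM, h, add_zero])
  have h2 := two_ne_zero_of hM
  refine false_of_orthogonal hM hN2 hN fun g => ?_
  set N' := M g * N * M g⁻¹ with hN'
  have hτ : P (g * σ * g⁻¹) := fun ζ hζ => by
    rw [AlgEquiv.mul_apply, AlgEquiv.mul_apply, hσ _ (by rw [← map_pow, hζ, map_one]),
      ← AlgEquiv.mul_apply, mul_inv_cancel, AlgEquiv.one_apply]
  have hτM : M (g * σ * g⁻¹) = e • (1 + N') := by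
    rw [map_mul, map_mul, hσM, Matrix.mul_smul, Matrix.smul_mul, mul_add, mul_one, add_mul,
      mul_inv_eq_one]
  have hN'2 : N' * N' = 0 := by
    simp only [hN', mul_assoc]
    rw [← mul_assoc (M g⁻¹) (M g), inv_mul_eq_one, one_mul, ← mul_assoc N N, hN2, zero_mul,
      mul_zero]
  have key : ∀ (ρ : GQ) (c r : k), P ρ → c ≠ 0 →
      M ρ = c • ((1 + r • N) * (1 + N')) → r = 0 ∨ (N * N').trace = 0 ∨ r * (N * N').trace = -4 := by
    intro ρ c r hρ hc0 hρM
    obtain ⟨f, Q, hf, hQ2, hρQ⟩ := hform ρ hρ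
    obtain ⟨hQt, hQd⟩ := trace_eq_zero_of_sq hQ2
    have hdet : ∀ (R : 𝕄), R * R = 0 → (1 + R).det = 1 := fun R hR => by
      obtain ⟨a, b⟩ := trace_eq_zero_of_sq hR
      rw [Matrix.trace_fin_two] at a
      rw [Matrix.det_fin_two] at b
      simp only [Matrix.det_fin_two, Matrix.add_apply, Matrix.one_apply_eq, ne_eq, zero_ne_one,
        not_false_eq_true, Matrix.one_apply_ne, one_ne_zero, zero_add]
      linear_combination a + b
    have t1 := congrArg Matrix.trace (hρM.symm.trans hρQ)
    have d1 := congrArg Matrix.det (hρM.symm.trans hρQ)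
    have hrN : (r • N) * (r • N) = 0 := by simp [Matrix.smul_mul, Matrix.mul_smul, hN2]
    rw [Matrix.det_smul, Matrix.det_smul, Fintype.card_fin, Matrix.det_mul, hdet _ hrN, hdet _ hN'2,
      hdet _ hQ2, mul_one, mul_one] at d1
    simp only [mul_add, add_mul, one_mul, mul_one, Matrix.trace_smul, Matrix.trace_add,
      Matrix.trace_one, Fintype.card_fin, Matrix.smul_mul, hQt, (trace_eq_zero_of_sq hN2).1,
      (trace_eq_zero_of_sq hN'2).1, smul_eq_mul, mul_zero, add_zero, Nat.cast_ofNat] at t1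
    have h0 : r * (N * N').trace * (r * (N * N').trace + 4) = 0 := by
      refine (mul_eq_zero.mp (?_ : c ^ 2 * _ = 0)).resolve_left (pow_ne_zero 2 hc0)
      linear_combination (c * (2 + r * (N * N').trace) + f * 2) * t1 - 4 * d1
    rcases mul_eq_zero.mp h0 with h | h
    · rcases mul_eq_zero.mp h with h | h
      · exact Or.inl h
      · exact Or.inr (Or.inl h)
    · exact Or.inr (Or.inr (eq_neg_of_add_eq_zero_left h))
  have hmulP : ∀ a b, P a → P b → P (a * b) := fun a b ha hb ζ hζ => by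
    rw [AlgEquiv.mul_apply, hb ζ hζ, ha ζ hζ]
  rcases key (σ * (g * σ * g⁻¹)) (e * e) 1 (hmulP _ _ hσ hτ) (mul_ne_zero he he) (by
    rw [map_mul M σ, hτM, hσM, one_smul, Matrix.smul_mul, Matrix.mul_smul, smul_smul]) with h | h | h
  · exact absurd h one_ne_zero
  · exact h
  · rcases key (σ * (σ * (g * σ * g⁻¹))) (e * (e * e)) 2 (hmulP _ _ hσ (hmulP _ _ hσ hτ))
        (mul_ne_zero he (mul_ne_zero he he)) (by
      rw [map_mul M σ, map_mul M σ, hτM, hσM]
      simp only [Matrix.smul_mul, Matrix.mul_smul, mul_add, add_mul, one_mul, mul_one,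
        ← mul_assoc, hN2, zero_mul, smul_zero, add_zero]
      match_scalars <;> ring) with h' | h' | h'
    · exact absurd h' h2
    · exact h'
    · rw [one_mul] at h
      exfalso
      refine h2 (mul_self_eq_zero.mp ?_)
      linear_combination 2 * h - h'

omit [Finite k] in
/-- Normalised invariants of an element with distinct eigenvalues. -/
theorem finrank_quotient_twist (hM : Adequate M p) {σ : GQ} {α β : k} (hne : α ≠ β)
    (ht : (M σ).trace = α + β) (hd : (M σ).det = α * β) (h1 : (M σ).det = 1) :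
    ∃ R : Submodule k (TwAd M), Module.finrank k (TwAd M ⧸ R) = 1 ∧
      ∀ Y, Y ∈ R ↔ ∃ X, toImg M σ • X - X = Y := by
  have h2 := two_ne_zero_of hM
  let L : TwAd M →ₗ[k] TwAd M :=
    { toFun := fun X => toImg M σ • X - X
      map_add' := fun X Y => by rw [smul_add]; abel
      map_smul' := fun c X => TwAd.mat_injective (by
        simp only [RingHom.id_apply, map_sub, map_smul, mat_toImg_smul, Matrix.mul_smul,
          Matrix.smul_mul, smul_sub, h1, one_smul]) }
  refine ⟨LinearMap.range L, ?_, fun Y => LinearMap.mem_range⟩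
  have hA : ¬ M σ = M σ 0 0 • 1 := fun hs => hne (sub_eq_zero.mp (mul_self_eq_zero.mp (by
    have et := ht
    have ed := hd
    rw [hs, Matrix.trace_smul, Matrix.trace_one, Fintype.card_fin, smul_eq_mul] at et
    rw [hs, Matrix.det_smul, Matrix.det_one, Fintype.card_fin, mul_one] at ed
    push_cast at et
    linear_combination -(α + β + M σ 0 0 * 2) * et + 4 * ed)))
  set A0 := M σ - ((M σ).trace / 2) • (1 : 𝕄) with hA0
  have htr0 : A0.trace = 0 := by
    rw [hA0, Matrix.trace_sub, Matrix.trace_smul, Matrix.trace_one, Fintype.card_fin, smul_eq_mul,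
      Nat.cast_ofNat, div_mul_cancel₀ _ h2, sub_self]
  have hker : LinearMap.ker L = Submodule.span k {TwAd.mk (M := M) A0 htr0} := by
    refine le_antisymm (fun X hX => ?_) ((Submodule.span_singleton_le_iff_mem _ _).mpr ?_)
    · have hX' : toImg M σ • X = X := sub_eq_zero.mp hX
      have h := congrArg TwAd.mat hX'
      rw [mat_toImg_smul, h1, one_smul] at h
      obtain ⟨s, hs⟩ := eq_smul_of_commute h2 hA X.trace_mat (by
        conv_rhs => rw [← h]
        rw [mul_assoc _ (M σ⁻¹), inv_mul_eq_one, mul_one])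
      exact Submodule.mem_span_singleton.mpr ⟨s, TwAd.mat_injective (by
        rw [map_smul, TwAd.mat_mk, ← hs])⟩
    · refine sub_eq_zero.mpr (TwAd.mat_injective ?_)
      rw [mat_toImg_smul, h1, one_smul, TwAd.mat_mk, hA0]
      simp only [mul_sub, sub_mul, Matrix.mul_smul, Matrix.smul_mul, mul_one, mul_assoc,
        mul_inv_eq_one]
  have hne0 : TwAd.mk (M := M) A0 htr0 ≠ 0 := fun h => hA (by
    have h' : A0 = 0 := congrArg TwAd.mat h
    rw [hA0, sub_eq_zero] at h'
    conv_lhs => rw [h']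
    congr 1
    have := congrFun (congrFun h' 0) 0
    rw [this]; simp)
  have hT : Module.finrank k (TwAd M) = 3 := by
    have h3 := LinearMap.finrank_range_add_finrank_ker (Matrix.traceLinearMap (Fin 2) k k)
    rw [LinearMap.range_eq_top.mpr fun c => ⟨!![c, 0; 0, 0], by simp [Matrix.trace_fin_two]⟩,
      finrank_top, Module.finrank_self, Module.finrank_matrix, Fintype.card_fin,
      Module.finrank_self] at h3
    show Module.finrank k ↥(LinearMap.ker (Matrix.traceLinearMap (Fin 2) k k)) = 3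
    omega
  haveI : Module.Finite k (TwAd M) := Module.finite_of_finrank_eq_succ hT
  have h3 := LinearMap.finrank_range_add_finrank_ker L
  rw [hker, finrank_span_singleton hne0, hT] at h3
  have h4 := Submodule.finrank_quotient_add_finrank (LinearMap.range L)
  omega

/-- The invariants of an element with distinct eigenvalues and determinant one. -/
theorem card_invariants_of_distinct (hM : Adequate M p) {σ : GQ} {α β : k} (hne : α ≠ β)
    (ht : (M σ).trace = α + β) (hd : (M σ).det = α * β) (h1 : (M σ).det = 1) :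
    Nat.card {u : TwAd M →+ ZMod p // ∀ X, u (toImg M σ • X) = u X} = Nat.card k := by
  obtain ⟨R, hR, hmem⟩ := finrank_quotient_twist hM hne ht hd h1
  letI : Algebra (ZMod p) k := ZMod.algebra k p
  haveI : FiniteDimensional k (TwAd M ⧸ R) := Module.finite_of_finrank_eq_succ hR
  let e : k ≃ₗ[k] (TwAd M ⧸ R) := (FiniteDimensional.nonempty_linearEquiv_of_finrank_eq
    ((Module.finrank_self k).trans hR.symm)).some
  let lft : {u : TwAd M →+ ZMod p // ∀ X, u (toImg M σ • X) = u X} →
      ((TwAd M ⧸ R) →+ ZMod p) := fun u =>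
    QuotientAddGroup.lift R.toAddSubgroup u.1 fun Y hY => by
      obtain ⟨X, rfl⟩ := (hmem Y).mp hY
      rw [AddMonoidHom.mem_ker, map_sub, u.2, sub_self]
  have hl : ∀ u (X : TwAd M), lft u (Submodule.Quotient.mk X) = u.1 X := fun _ _ => rfl
  let Φ : {u : TwAd M →+ ZMod p // ∀ X, u (toImg M σ • X) = u X} ≃ (k →+ ZMod p) :=
    { toFun := fun u => (lft u).comp e.toAddEquiv.toAddMonoidHom
      invFun := fun v => ⟨(v.comp e.symm.toAddEquiv.toAddMonoidHom).comp R.mkQ.toAddMonoidHom,
        fun X => congrArg v (congrArg e.symm ((Submodule.Quotient.eq R).mpr ((hmem _).mpr ⟨X, rfl⟩)))⟩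
      left_inv := fun u => Subtype.ext (AddMonoidHom.ext fun X => by
        show lft u (e (e.symm (Submodule.Quotient.mk X))) = u.1 X
        rw [LinearEquiv.apply_symm_apply, hl])
      right_inv := fun v => AddMonoidHom.ext fun x => by
        obtain ⟨X, hX⟩ := Submodule.Quotient.mk_surjective R (e x)
        show lft _ (e x) = v x
        rw [← hX, hl]
        show v (e.symm (Submodule.Quotient.mk X)) = v x
        rw [hX, LinearEquiv.symm_apply_apply] }
  let D : (k →+ ZMod p) ≃ (k →ₗ[ZMod p] ZMod p) :=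
    { toFun := fun v => AddMonoidHom.toZModLinearMap p v
      invFun := fun v => v.toAddMonoidHom
      left_inv := fun _ => rfl
      right_inv := fun _ => rfl }
  rw [Nat.card_congr Φ, Nat.card_congr D, Module.natCard_eq_pow_finrank (K := ZMod p),
    Module.natCard_eq_pow_finrank (K := ZMod p) (V := k), Module.finrank_linearMap,
    Module.finrank_self, mul_one]

/-! ### `H¹` -/

/-- Roots of unity of order `p` are moved by every exponent prime to `p`. -/
theorem exists_det_eq (hM : Adequate M p) {r : ℕ} (hr : ¬ p ∣ r) :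
    ∃ σ : GQ, (M σ).det = (r : k) := by
  have hp : p.Prime := Fact.out
  haveI : NeZero (p : AlgebraicClosure ℚ) := ⟨Nat.cast_ne_zero.mpr hp.ne_zero⟩
  obtain ⟨ζ, hζ⟩ := HasEnoughRootsOfUnity.exists_primitiveRoot (AlgebraicClosure ℚ) p
  have hζr : IsPrimitiveRoot (ζ ^ r) p := hζ.pow_of_coprime r
    ((Nat.Prime.coprime_iff_not_dvd hp).mpr hr).symm
  have hconj : IsConjRoot ℚ ζ (ζ ^ r) := by
    show minpoly ℚ ζ = minpoly ℚ (ζ ^ r)
    rw [← Polynomial.cyclotomic_eq_minpoly_rat hζ hp.pos,
      ← Polynomial.cyclotomic_eq_minpoly_rat hζr hp.pos]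
  haveI := GalCommon.normal_Qbar
  obtain ⟨τ, hτ⟩ := isConjRoot_iff_exists_algEquiv.mp hconj.symm
  refine ⟨τ, hM.det τ r fun μ hμ => ?_⟩
  haveI : NeZero p := ⟨hp.ne_zero⟩
  obtain ⟨i, -, rfl⟩ := hζ.eq_pow_of_pow_eq_one hμ
  rw [map_pow, hτ, ← pow_mul, ← pow_mul, mul_comm]

namespace H1

variable {a : Img M → TwAd M}

/-- The cocycle as a function of the Galois element. -/
def cz (a : Img M → TwAd M) (σ : GQ) : 𝕄 := TwAd.mat (a (toImg M σ))

/-- Its trace pairing. -/
def F (a : Img M → TwAd M) (σ : GQ) : k := (cz a σ * M σ).trace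

variable (ha : Coh.IsCrossed (Img M) a)

omit [Finite k] [Fact p.Prime] [CharP k p] in
include ha in
theorem cz_mul (σ τ : GQ) :
    cz a (σ * τ) = cz a σ + (M σ).det • (M σ * cz a τ * M σ⁻¹) := by
  rw [cz, map_mul, ha, map_add, mat_toImg_smul]; rfl

omit [Finite k] [Fact p.Prime] [CharP k p] in
include ha in
theorem cz_one : cz a 1 = 0 := by simpa [cz_mul ha] using cz_mul ha 1 1

omit [Finite k] [Fact p.Prime] [CharP k p] in
include ha in
theorem cz_inv (σ : GQ) : (M σ).det • (M σ * cz a σ⁻¹ * M σ⁻¹) = -cz a σ := by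
  rw [eq_neg_iff_add_eq_zero, add_comm, ← cz_mul ha, mul_inv_cancel, cz_one ha]

omit [Finite k] [Fact p.Prime] [CharP k p] in
include ha in
theorem F_conj (g u : GQ) (hu : (M u).det = 1) :
    F a (g * u * g⁻¹) = (M g).det * F a u := by
  rw [F, cz_mul ha, cz_mul ha, map_mul M g u, Matrix.det_mul, hu, mul_one]
  have e1 : (M g).det • (M g * M u * cz a g⁻¹ * M (g * u)⁻¹) =
      M g * M u * M g⁻¹ * (-cz a g) * (M g * M u⁻¹ * M g⁻¹) := by
    rw [← cz_inv ha g, _root_.mul_inv_rev, map_mul]
    simp only [Matrix.mul_smul, Matrix.smul_mul, mul_assoc]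
    rw [← mul_assoc (M g⁻¹) (M g), inv_mul_eq_one, one_mul, ← mul_assoc (M g⁻¹) (M g),
      inv_mul_eq_one, one_mul]
  rw [e1, map_mul M (g * u), map_mul M g u]
  simp only [add_mul, Matrix.trace_add, Matrix.smul_mul, Matrix.trace_smul, smul_eq_mul, mul_neg,
    neg_mul, Matrix.trace_neg]
  have e2 : (M g * cz a u * M g⁻¹ * (M g * M u * M g⁻¹)).trace = F a u := by
    rw [F]
    simp only [mul_assoc]
    rw [← mul_assoc (M g⁻¹) (M g), inv_mul_eq_one, one_mul, Matrix.trace_mul_comm, mul_assoc,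
      mul_assoc, inv_mul_eq_one, mul_one]
  have e3 : ((M g * M u * M g⁻¹ * cz a g * (M g * M u⁻¹ * M g⁻¹)) * (M g * M u * M g⁻¹)).trace =
      (cz a g * (M g * M u * M g⁻¹)).trace := by
    simp only [mul_assoc]
    rw [← mul_assoc (M g⁻¹) (M g), inv_mul_eq_one, one_mul, ← mul_assoc (M u⁻¹) (M u),
      inv_mul_eq_one, one_mul, mul_inv_eq_one, mul_one]
    rw [Matrix.trace_mul_comm (cz a g)]
    simp only [mul_assoc]
  rw [e2, e3]
  ring

omit [Finite k] [Fact p.Prime] [CharP k p] in
include ha in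
theorem F_of_pow {σ : GQ} (hd : (M σ).det = 1) {n : ℕ} (hn : M σ ^ n = 1) (hn0 : (n : k) ≠ 0) :
    F a σ = 0 := by
  set S := ∑ i ∈ Finset.range n, cz a (σ ^ i)
  have h1 : ∑ i ∈ Finset.range n, cz a (σ ^ (i + 1)) = S := by
    have e := Finset.sum_range_succ (fun i => cz a (σ ^ i)) n
    rw [Finset.sum_range_succ', pow_zero, cz_one ha, add_zero] at e
    have hσn : cz a (σ ^ n) = 0 := by
      rw [cz, (toImg_eq_one_iff M _).mpr (by rw [map_pow, hn])]
      simpa [cz] using cz_one ha
    rw [e, hσn, add_zero]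
  have h2 : (n : k) • cz a σ = S - M σ * S * M σ⁻¹ := by
    rw [eq_sub_iff_add_eq, Finset.mul_sum, Finset.sum_mul, Nat.cast_smul_eq_nsmul]
    conv_rhs => rw [← h1]
    simp only [pow_succ', cz_mul ha, hd, one_smul, Finset.sum_add_distrib, Finset.sum_const,
      Finset.card_range]
  have h3 : (n : k) * F a σ = 0 := by
    rw [F, ← smul_eq_mul, ← Matrix.trace_smul, ← Matrix.smul_mul, h2, sub_mul, Matrix.trace_sub,
      mul_assoc _ (M σ⁻¹), inv_mul_eq_one, mul_one, Matrix.trace_mul_comm, sub_self]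
  exact (mul_eq_zero.mp h3).resolve_left hn0

omit [Finite k] [Fact p.Prime] [CharP k p] in
theorem det_unip {u : GQ} {N : 𝕄} (hN2 : N * N = 0) (hu : M u = 1 + N) : (M u).det = 1 := by
  obtain ⟨a, b⟩ := trace_eq_zero_of_sq hN2
  rw [Matrix.trace_fin_two] at a
  rw [Matrix.det_fin_two] at b
  rw [hu]
  simp only [Matrix.det_fin_two, Matrix.add_apply, Matrix.one_apply_eq, ne_eq, zero_ne_one,
    not_false_eq_true, Matrix.one_apply_ne, one_ne_zero, zero_add]
  linear_combination a + b

omit [Finite k] [Fact p.Prime] [CharP k p] in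
include ha in
theorem F_second {u : GQ} {N : 𝕄} (hN2 : N * N = 0) (hu : M u = 1 + N) (w : GQ) :
    F a (u * (u * w)) - 2 * F a (u * w) + F a w =
      ((N * cz a u + cz a u * N + N * cz a u * N) * M w).trace := by
  have hd := det_unip hN2 hu
  have hF : ∀ w, F a (u * w) = (cz a u * M u * M w).trace + (cz a w * M w * M u).trace := by
    intro w
    rw [F, cz_mul ha, hd, one_smul, map_mul, add_mul, Matrix.trace_add, mul_assoc (cz a u)]
    congr 1
    rw [← mul_assoc, mul_assoc _ (M u⁻¹), inv_mul_eq_one, mul_one, mul_assoc,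
      Matrix.trace_mul_comm]
  rw [hF (u * w), hF w, show cz a (u * w) * M (u * w) = cz a u * M u * M w + M u * (cz a w * M w) by
    rw [cz_mul ha, hd, one_smul, map_mul]
    simp only [add_mul, mul_assoc]
    rw [← mul_assoc (M u⁻¹) (M u), inv_mul_eq_one, one_mul]]
  rw [F, map_mul, hu]
  simp only [mul_add, add_mul, mul_one, one_mul, Matrix.trace_add, ← mul_assoc]
  have c2 : ∀ B : 𝕄, (B * M w * N).trace = (N * B * M w).trace := fun B => by
    rw [Matrix.trace_mul_comm, ← mul_assoc]
  have c3 : (N * cz a w * M w * N).trace = 0 := by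
    rw [Matrix.trace_mul_comm]
    simp only [← mul_assoc, hN2, zero_mul, Matrix.trace_zero]
  have c4 : ∀ B : 𝕄, B * N * N = 0 := fun B => by rw [mul_assoc, hN2, mul_zero]
  simp only [c2, c3]
  simp only [← mul_assoc, c4, hN2, zero_mul, Matrix.trace_zero]
  ring

omit [Finite k] [Fact p.Prime] [CharP k p] in
include ha in
theorem F_unip {u : GQ} {N : 𝕄} (hN2 : N * N = 0) (hu : M u = 1 + N) : F a u = (cz a u * N).trace := by
  rw [F, hu, mul_add, mul_one, Matrix.trace_add, show (cz a u).trace = 0 from TwAd.trace_mat _,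
    zero_add]

omit [Finite k] [Fact p.Prime] [CharP k p] in
include ha in
theorem F_third {u : GQ} {N : 𝕄} (hN2 : N * N = 0) (hu : M u = 1 + N) (w : GQ) :
    F a (u * (u * (u * w))) - 3 * F a (u * (u * w)) + 3 * F a (u * w) - F a w =
      F a u * (N * M w).trace := by
  have h1 := F_second ha hN2 hu (u * w)
  have h0 := F_second ha hN2 hu w
  have e : ((N * cz a u + cz a u * N + N * cz a u * N) * M (u * w)).trace =
      ((N * cz a u + cz a u * N + N * cz a u * N) * M w).trace + F a u * (N * M w).trace := by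
    rw [F_unip ha hN2 hu, map_mul, hu, add_mul (1 : 𝕄), one_mul, mul_add, Matrix.trace_add]
    congr 1
    have hX : (N * cz a u + cz a u * N + N * cz a u * N) * N = (cz a u * N).trace • N := by
      rw [add_mul, add_mul, mul_assoc (cz a u) N N, hN2, mul_zero, add_zero,
        mul_assoc (N * cz a u) N N, hN2, mul_zero, add_zero, mul_mul_eq_smul hN2]
    rw [← mul_assoc, hX, Matrix.smul_mul, Matrix.trace_smul, smul_eq_mul]
  linear_combination h1 - h0 + e

omit [Finite k] [Fact p.Prime] [CharP k p] in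
include ha in
theorem F_pow {u : GQ} {N : 𝕄} (hN2 : N * N = 0) (hu : M u = 1 + N) (i : ℕ) : F a (u ^ i) = (i : k) ^ 2 * F a u := by
  have hpow : ∀ i : ℕ, M (u ^ i) = 1 + (i : k) • N := by
    intro i
    induction i with
    | zero => simp
    | succ i ih =>
      rw [pow_succ, map_mul, ih, hu]
      simp only [mul_add, add_mul, one_mul, mul_one, Matrix.smul_mul, hN2, smul_zero, add_zero]
      rw [Nat.cast_succ, add_smul, one_smul]
      abel
  induction i using Nat.twoStepInduction with
  | zero => simp [F, cz_one ha]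
  | one => simp
  | more i h0 h1 =>
    have h := F_second ha hN2 hu (u ^ i)
    have e : ((N * cz a u + cz a u * N + N * cz a u * N) * M (u ^ i)).trace = 2 * F a u := by
      rw [F_unip ha hN2 hu, hpow]
      have z1 : (N * cz a u * N).trace = 0 := by
        rw [Matrix.trace_mul_comm, ← mul_assoc, hN2, zero_mul, Matrix.trace_zero]
      have z2 : (cz a u * N * N).trace = 0 := by rw [mul_assoc, hN2, mul_zero, Matrix.trace_zero]
      have z3 : (N * cz a u * N * N).trace = 0 := by
        rw [mul_assoc _ N N, hN2, mul_zero, Matrix.trace_zero]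
      simp only [mul_add, add_mul, mul_one, Matrix.mul_smul, Matrix.trace_add, Matrix.trace_smul,
        z1, z2, z3, smul_zero, add_zero, Matrix.trace_mul_comm N (cz a u)]
      ring
    rw [← pow_succ', ← pow_succ', e] at h
    rw [h0, h1] at h
    push_cast at h ⊢
    linear_combination h

include ha in
theorem F_unip_eq_zero (hM : Adequate M p) {u : GQ} {N : 𝕄} (hN2 : N * N = 0) (hu : M u = 1 + N) : F a u = 0 := by
  have hp : p.Prime := Fact.out
  have h2 := two_ne_zero_of hM
  rcases eq_or_ne N 0 with rfl | hN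
  · rw [F, cz, (toImg_eq_one_iff M u).mpr (by rw [hu, add_zero]), ← map_one (toImg M)]
    show (cz a 1 * _).trace = 0
    rw [cz_one ha, zero_mul, Matrix.trace_zero]
  by_cases hp3 : p = 3
  · obtain ⟨g, hg⟩ : ∃ g, (N * (M g * N * M g⁻¹)).trace ≠ 0 := by
      by_contra h
      push Not at h
      exact false_of_orthogonal hM hN2 hN h
    have h3 : M u ^ 3 = 1 := by
      have h30 : (3 : k) = 0 := by
        have := CharP.cast_eq_zero k p
        subst hp3
        exact_mod_cast this
      rw [hu, show (1 + N) ^ 3 = 1 + (3 : k) • N + (3 : k) • (N * N) + N * (N * N) by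
        simp only [pow_succ, pow_zero, one_mul, mul_add, add_mul, mul_one, ← mul_assoc]
        module, hN2, h30]
      simp
    set w := g * u * g⁻¹ with hw
    have hz : F a (u * (u * (u * w))) = F a w := by
      have hu3 : toImg M (u * u * u) = 1 :=
        (toImg_eq_one_iff M (u * u * u)).mpr (by rw [map_mul, map_mul, ← h3, pow_three, mul_assoc])
      have : toImg M (u * (u * (u * w))) = toImg M w := by
        rw [← mul_assoc, ← mul_assoc, map_mul, hu3, one_mul]
      have hMw : M (u * (u * (u * w))) = M w := by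
        simpa [coe_toImg] using congrArg (fun x : Img M => ((x : 𝕄ˣ) : 𝕄)) this
      rw [F, F, cz, cz, this, hMw]
    have h := F_third ha hN2 hu w
    rw [hz] at h
    have h30 : (3 : k) = 0 := by
      have := CharP.cast_eq_zero k p
      subst hp3
      exact_mod_cast this
    rw [h30] at h
    have hNw : (N * M w).trace = (N * (M g * N * M g⁻¹)).trace := by
      rw [hw, map_mul, map_mul, hu, mul_add (M g), mul_one, add_mul, mul_inv_eq_one, mul_add N,
        mul_one, Matrix.trace_add, (trace_eq_zero_of_sq hN2).1, zero_add]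
    rw [hNw] at h
    exact (mul_eq_zero.mp (by linear_combination -h)).resolve_right hg
  -- `p ≥ 5`
  obtain ⟨g, hg, hgd⟩ : ∃ g, (N * (M g * N * M g⁻¹)).trace ≠ 0 ∧ (p = 5 → (M g).det = 2) := by
    obtain ⟨g, hg⟩ : ∃ g, (N * (M g * N * M g⁻¹)).trace ≠ 0 := by
      by_contra h
      push Not at h
      exact false_of_orthogonal hM hN2 hN h
    by_cases h5 : p = 5
    swap
    · exact ⟨g, hg, fun h => absurd h h5⟩
    obtain ⟨g₀, hg₀⟩ := exists_det_eq hM (r := 2) (by rw [h5]; norm_num)
    rw [Nat.cast_ofNat] at hg₀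
    by_cases hm : (N * (M g₀ * N * M g₀⁻¹)).trace = 0
    swap
    · exact ⟨g₀, hm, fun _ => hg₀⟩
    have hN0 : (M g₀ * N * M g₀⁻¹) * (M g₀ * N * M g₀⁻¹) = 0 := by
      simp only [mul_assoc]
      rw [← mul_assoc (M g₀⁻¹) (M g₀), inv_mul_eq_one, one_mul, ← mul_assoc N N, hN2, zero_mul,
        mul_zero]
    obtain ⟨s, hs⟩ := eq_smul_of_trace_mul hN2 hN0 hN hm
    have hs0 : s ≠ 0 := by
      rintro rfl
      rw [zero_smul] at hs
      have := congrArg (fun Z => M g₀⁻¹ * Z * M g₀) hs
      simp only [mul_assoc, inv_mul_eq_one, mul_one, mul_zero, zero_mul] at this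
      rw [← mul_assoc, inv_mul_eq_one, one_mul] at this
      exact hN this
    set v := g * u * g⁻¹ with hv
    set N' := M g * N * M g⁻¹ with hN'def
    have hN'2 : N' * N' = 0 := by
      simp only [hN'def, mul_assoc]
      rw [← mul_assoc (M g⁻¹) (M g), inv_mul_eq_one, one_mul, ← mul_assoc N N, hN2, zero_mul,
        mul_zero]
    have hvM : M v = 1 + N' := by
      rw [hv, map_mul, map_mul, hu, mul_add, mul_one, add_mul, mul_inv_eq_one]
    have hvinv : M v⁻¹ = 1 - N' := by
      have e : (1 - N') * M v = 1 := by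
        rw [hvM]; simp [sub_mul, mul_add, hN'2]
      calc M v⁻¹ = (1 - N') * M v * M v⁻¹ := by rw [e, one_mul]
        _ = 1 - N' := by rw [mul_assoc, mul_inv_eq_one, mul_one]
    refine ⟨v * g₀, ?_, fun _ => by rw [map_mul, Matrix.det_mul, hg₀, det_unip hN'2 hvM, one_mul]⟩
    rw [map_mul M v g₀, _root_.mul_inv_rev, map_mul M g₀⁻¹ v⁻¹]
    have : M v * M g₀ * N * (M g₀⁻¹ * M v⁻¹) = s • (M v * N * M v⁻¹) := by
      rw [← Matrix.smul_mul, ← Matrix.mul_smul, ← hs]
      simp only [mul_assoc]
    rw [this, Matrix.mul_smul, Matrix.trace_smul, smul_eq_mul, hvM, hvinv]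
    refine mul_ne_zero hs0 ?_
    have : (N * ((1 + N') * N * (1 - N'))).trace = -((N * N').trace * (N * N').trace) := by
      simp only [mul_add, add_mul, mul_sub, one_mul, mul_one, ← mul_assoc, hN2, zero_mul,
        Matrix.trace_add, Matrix.trace_sub]
      rw [mul_mul_eq_smul hN2, Matrix.smul_mul]
      simp only [Matrix.trace_smul, (trace_eq_zero_of_sq hN2).1, smul_eq_mul, Matrix.trace_zero,
        Matrix.trace_mul_comm N' N]
      ring
    rw [this]
    exact neg_ne_zero.mpr (mul_ne_zero hg hg)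
  set N' := M g * N * M g⁻¹ with hN'def
  set m := (N * N').trace with hm
  set v := g * u * g⁻¹ with hv
  have hN'2 : N' * N' = 0 := by
    simp only [hN'def, mul_assoc]
    rw [← mul_assoc (M g⁻¹) (M g), inv_mul_eq_one, one_mul, ← mul_assoc N N, hN2, zero_mul,
      mul_zero]
  have hvM : M v = 1 + N' := by
    rw [hv, map_mul, map_mul, hu, mul_add, mul_one, add_mul, mul_inv_eq_one]
  have hp5 : 5 ≤ p := by
    by_contra h
    interval_cases p <;> first | omega | exact absurd rfl hM.ne_two | norm_num at hp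
  have hnat : ∀ n : ℕ, ¬ p ∣ n → (n : k) ≠ 0 := fun n hn h =>
    hn ((CharP.cast_eq_zero_iff k p n).mp h)
  obtain ⟨j, hj, hjgood⟩ : ∃ j : ℕ, (j : k) ≠ 0 ∧
      ∀ i : ℕ, 0 < i → i < p - 1 → (i : k) * ((j : k) * m) ≠ -4 := by
    have hinj : ∀ i : ℕ, 0 < i → i < p - 1 → (i : k) ≠ -1 := fun i h0 h1 h => by
      have : ((i + 1 : ℕ) : k) = 0 := by push_cast; rw [h, neg_add_cancel]
      exact absurd (Nat.le_of_dvd (Nat.succ_pos _) ((CharP.cast_eq_zero_iff k p _).mp this))
        (by omega)
    by_cases hF : ∃ r : ℕ, (r : k) * m = 4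
    · obtain ⟨r, hr⟩ := hF
      refine ⟨r, fun h0 => ?_, fun i h0 h1 h => hinj i h0 h1 ?_⟩
      · rw [h0, zero_mul] at hr
        exact mul_ne_zero h2 h2 (by linear_combination -hr)
      · rw [hr] at h
        refine mul_right_cancel₀ (mul_ne_zero h2 h2) ?_
        linear_combination h
    · refine ⟨1, by simp, fun i h0 h1 h => ?_⟩
      push Not at hF
      rw [Nat.cast_one, one_mul] at h
      refine hF ((p - 1) * i) ?_
      rw [Nat.cast_mul, Nat.cast_sub hp.one_le, CharP.cast_eq_zero, Nat.cast_one]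
      linear_combination -h
  set w := v ^ j with hwdef
  have hwM : M w = 1 + (j : k) • N' := by
    have : ∀ i : ℕ, M (v ^ i) = 1 + (i : k) • N' := by
      intro i
      induction i with
      | zero => simp
      | succ i ih =>
        rw [pow_succ, map_mul M (v ^ i) v, ih, hvM]
        simp only [mul_add, add_mul, one_mul, mul_one, Matrix.smul_mul, hN'2, smul_zero, add_zero]
        rw [Nat.cast_succ, add_smul, one_smul]
        abel
    exact this j
  have hpowM : ∀ i : ℕ, M (u ^ i) = 1 + (i : k) • N := by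
    intro i
    induction i with
    | zero => simp
    | succ i ih =>
      rw [pow_succ, map_mul, ih, hu]
      simp only [mul_add, add_mul, one_mul, mul_one, Matrix.smul_mul, hN2, smul_zero, add_zero]
      rw [Nat.cast_succ, add_smul, one_smul]
      abel
  have htrace : ∀ i : ℕ, (M (u ^ i * w)).trace = 2 + (i : k) * ((j : k) * m) := by
    intro i
    rw [map_mul, hpowM, hwM]
    simp only [mul_add, add_mul, one_mul, mul_one, Matrix.smul_mul, Matrix.mul_smul,
      Matrix.trace_add, Matrix.trace_smul, Matrix.trace_one, Fintype.card_fin,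
      (trace_eq_zero_of_sq hN2).1, (trace_eq_zero_of_sq hN'2).1, smul_eq_mul, mul_zero, ← hm]
    push_cast
    ring
  have hdet : ∀ i : ℕ, (M (u ^ i * w)).det = 1 := fun i => by
    rw [map_mul, Matrix.det_mul, map_pow M u, Matrix.det_pow, det_unip hN2 hu, one_pow, one_mul,
      hwdef, map_pow, Matrix.det_pow, det_unip hN'2 hvM, one_pow]
  have hzero : ∀ i : ℕ, 0 < i → i < p - 1 → F a (u ^ i * w) = 0 := by
    intro i h0 h1
    rcases trace_sq_eq_four_or_pow hM (hdet i) with h | ⟨n, hn0, hn⟩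
    · exfalso
      rw [htrace] at h
      have h' : ((i : k) * ((j : k) * m)) * ((i : k) * ((j : k) * m) + 4) = 0 := by
        linear_combination h
      rcases mul_eq_zero.mp h' with h'' | h''
      · rcases mul_eq_zero.mp h'' with h3 | h3
        · exact hnat i (fun hd => absurd (Nat.le_of_dvd h0 hd) (by omega)) h3
        · exact mul_ne_zero hj hg h3
      · exact hjgood i h0 h1 (eq_neg_of_add_eq_zero_left h'')
    · exact F_of_pow ha (hdet i) hn hn0
  have hNw : (N * M w).trace = (j : k) * m := by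
    rw [hwM, mul_add, mul_one, Matrix.mul_smul, Matrix.trace_add, Matrix.trace_smul,
      (trace_eq_zero_of_sq hN2).1, zero_add, smul_eq_mul, ← hm]
  have hrec : ∀ i : ℕ, F a (u ^ (i + 3) * w) - 3 * F a (u ^ (i + 2) * w) +
      3 * F a (u ^ (i + 1) * w) - F a (u ^ i * w) = F a u * ((j : k) * m) := by
    intro i
    have h := F_third ha hN2 hu (u ^ i * w)
    have e : (N * M (u ^ i * w)).trace = (j : k) * m := by
      rw [map_mul, hpowM, add_mul, one_mul, Matrix.smul_mul, mul_add, Matrix.mul_smul,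
        ← mul_assoc N N, hN2, zero_mul, smul_zero, add_zero, hNw]
    rw [e] at h
    simpa only [pow_succ', mul_assoc] using h
  by_cases h7 : 7 ≤ p
  · have h := hrec 1
    rw [hzero 4 (by omega) (by omega), hzero 3 (by omega) (by omega), hzero 2 (by omega) (by omega),
      hzero 1 (by omega) (by omega)] at h
    exact (mul_eq_zero.mp (by linear_combination -h)).resolve_right (mul_ne_zero hj hg)
  have hp5' : p = 5 := by
    by_contra h
    interval_cases p <;> norm_num at hp
    exact h rfl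
  have h50 : (5 : k) = 0 := by
    have := CharP.cast_eq_zero k p
    subst hp5'
    exact_mod_cast this
  by_cases hjm : (4 : k) * ((j : k) * m) = -4
  · have h := hrec 0
    rw [hzero 3 (by omega) (by omega), hzero 2 (by omega) (by omega), hzero 1 (by omega) (by omega),
      pow_zero, one_mul] at h
    have hw' : F a w = (j : k) ^ 2 * (2 * F a u) := by
      rw [hwdef, F_pow ha hN'2 hvM, hv, F_conj ha g u (det_unip hN2 hu), hgd hp5']
    have hjm4 : (j : k) * m = 4 := by linear_combination -hjm + (j * m) * h50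
    rw [hw', hjm4] at h
    have hkey : F a u * ((j : k) ^ 2 * 2 - 1) = 0 := by linear_combination -h - F a u * h50
    refine (mul_eq_zero.mp hkey).resolve_right fun hj2 => ?_
    have hcast : (((2 * j ^ 2 : ℕ)) : k) = ((1 : ℕ) : k) := by push_cast; linear_combination hj2
    rw [CharP.natCast_eq_natCast k p, hp5', ← ZMod.natCast_eq_natCast_iff] at hcast
    push_cast at hcast
    exact (by decide : ∀ r : ZMod 5, 2 * r ^ 2 ≠ 1) _ hcast
  · have h4 : F a (u ^ 4 * w) = 0 := by
      rcases trace_sq_eq_four_or_pow hM (hdet 4) with h | ⟨n, hn0, hn⟩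
      · exfalso
        rw [htrace] at h
        have h' : ((4 : k) * ((j : k) * m)) * ((4 : k) * ((j : k) * m) + 4) = 0 := by
          push_cast at h
          linear_combination h
        rcases mul_eq_zero.mp h' with h'' | h''
        · rcases mul_eq_zero.mp h'' with h3 | h3
          · exact hnat 4 (by rw [hp5']; norm_num) (by exact_mod_cast h3)
          · exact mul_ne_zero hj hg h3
        · exact hjm (eq_neg_of_add_eq_zero_left h'')
      · exact F_of_pow ha (hdet 4) hn hn0
    have h := hrec 1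
    rw [h4, hzero 3 (by omega) (by omega), hzero 2 (by omega) (by omega),
      hzero 1 (by omega) (by omega)] at h
    exact (mul_eq_zero.mp (by linear_combination -h)).resolve_right (mul_ne_zero hj hg)

include ha in
theorem F_eq_zero (hM : Adequate M p) {σ : GQ} (hd : (M σ).det = 1) : F a σ = 0 := by
  have h2 := two_ne_zero_of hM
  rcases trace_sq_eq_four_or_pow hM hd with h | ⟨n, hn0, hn⟩
  swap
  · exact F_of_pow ha hd hn hn0
  obtain ⟨e, N, rfl | rfl, hN2, hσ⟩ := exists_nilp h2 hd h
  · exact F_unip_eq_zero ha hM hN2 (by rw [hσ, one_smul])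
  rw [neg_one_smul] at hσ
  have hpow : ∀ i : ℕ, ((1 : 𝕄) + N) ^ i = 1 + (i : k) • N := by
    intro i
    induction i with
    | zero => simp
    | succ i ih =>
      rw [pow_succ, ih]
      simp only [mul_add, add_mul, one_mul, mul_one, Matrix.smul_mul, hN2, smul_zero, add_zero]
      rw [Nat.cast_succ, add_smul, one_smul]
      abel
  have hodd : Odd p := (Fact.out : p.Prime).odd_of_ne_two hM.ne_two
  set z := σ ^ p
  set u := σ ^ (p + 1)
  have hz : M z = -1 := by
    rw [map_pow, hσ, Odd.neg_pow hodd, hpow, CharP.cast_eq_zero, zero_smul, add_zero]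
  have hu : M u = 1 + N := by
    rw [map_pow, hσ, Even.neg_pow hodd.add_one, hpow, Nat.cast_add, Nat.cast_one, CharP.cast_eq_zero, zero_add,
      one_smul]
  have hzu : toImg M σ = toImg M (z * u) := by
    refine Subtype.ext (Units.ext ?_)
    rw [coe_toImg, coe_toImg, map_mul, hz, hu, hσ, neg_one_mul]
  have hcz : cz a z = 0 := by
    have h1 : toImg M (z * z) = toImg M 1 := by
      rw [map_one, (toImg_eq_one_iff M _).mpr (by rw [map_mul, hz, neg_mul_neg, one_mul])]
    have h2' := cz_mul ha z z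
    have hz' : M z⁻¹ = -1 := by
      calc M z⁻¹ = (-1) * M z * M z⁻¹ := by rw [hz, neg_mul_neg, one_mul, one_mul]
        _ = -1 := by rw [mul_assoc, mul_inv_eq_one, mul_one]
    rw [cz, h1, ← cz, cz_one ha, hz, Matrix.det_neg, Matrix.det_one, Fintype.card_fin, mul_one,
      show ((-1 : k)) ^ 2 = 1 by ring, one_smul, hz', neg_one_mul, neg_mul_neg, mul_one,
      ← two_smul k] at h2'
    exact (smul_eq_zero.mp h2'.symm).resolve_left h2
  have h := F_unip_eq_zero ha hM hN2 hu
  rw [F, cz, hzu, ← cz, cz_mul ha, hcz, zero_add, hz, Matrix.det_neg, Matrix.det_one,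
    Fintype.card_fin, mul_one, show ((-1 : k)) ^ 2 = 1 by ring, one_smul, neg_one_mul,
    show M z⁻¹ = -1 by
      calc M z⁻¹ = (-1) * M z * M z⁻¹ := by rw [hz, neg_mul_neg, one_mul, one_mul]
        _ = -1 := by rw [mul_assoc, mul_inv_eq_one, mul_one],
    neg_mul_neg, mul_one, hσ, mul_neg, Matrix.trace_neg, neg_eq_zero, ← hu]
  exact h

end H1

/-- The elements of determinant one span. -/
theorem span_det_one (hM : Adequate M p) :
    Submodule.span k (Set.range fun σ : {σ : GQ // (M σ).det = 1} => M σ) = ⊤ := by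
  set S := Submodule.span k (Set.range fun σ : {σ : GQ // (M σ).det = 1} => M σ)
  by_contra hS
  obtain ⟨φ, hφ0, hφS⟩ := Submodule.exists_le_ker_of_lt_top S (lt_top_iff_ne_top.mpr hS)
  set A : 𝕄 := !![φ !![1, 0; 0, 0], φ !![0, 0; 1, 0]; φ !![0, 1; 0, 0], φ !![0, 0; 0, 1]]
  have hA : ∀ X : 𝕄, φ X = (A * X).trace := fun X => by
    have hX : X = X 0 0 • !![1, 0; 0, 0] + X 0 1 • !![0, 1; 0, 0] +
        X 1 0 • !![0, 0; 1, 0] + X 1 1 • !![0, 0; 0, 1] := by
      ext i j; fin_cases i <;> fin_cases j <;> simp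
    rw [congrArg φ hX, map_add, map_add, map_add, map_smul, map_smul, map_smul, map_smul]
    simp [A, Matrix.mul_apply, Matrix.vecMul, dotProduct, Fin.sum_univ_two, Matrix.trace_fin_two]
    ring
  have hA0 : A ≠ 0 := fun h => hφ0 (LinearMap.ext fun X => by
    rw [hA, h, zero_mul, Matrix.trace_zero, LinearMap.zero_apply])
  let Z : Submodule k 𝕄 :=
    { carrier := {Y | Y.trace = 0 ∧ ∀ σ, (M σ).det = 1 → (Y * M σ).trace = 0}
      zero_mem' := ⟨Matrix.trace_zero _ _, fun _ _ => by simp⟩
      add_mem' := fun {a b} ha hb => ⟨by rw [Matrix.trace_add, ha.1, hb.1, add_zero],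
        fun σ hσ => by rw [add_mul, Matrix.trace_add, ha.2 σ hσ, hb.2 σ hσ, add_zero]⟩
      smul_mem' := fun c {a} ha => ⟨by rw [Matrix.trace_smul, ha.1, smul_zero],
        fun σ hσ => by rw [Matrix.smul_mul, Matrix.trace_smul, ha.2 σ hσ, smul_zero]⟩ }
  have hAker : ∀ σ, (M σ).det = 1 → (A * M σ).trace = 0 := fun σ hσ => by
    rw [← hA]
    exact hφS (Submodule.subset_span ⟨⟨σ, hσ⟩, rfl⟩)
  have hAZ : A ∈ Z := ⟨by simpa using hAker 1 (by simp), hAker⟩
  have hall := eq_bot_or_scalar hM Z (fun Y hY => hY.1) (fun τ Y hY =>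
    ⟨by rw [Matrix.trace_mul_comm, ← mul_assoc, inv_mul_eq_one, one_mul, hY.1], fun σ hσ => by
      have h := hY.2 (τ⁻¹ * σ * τ) (by
        rw [map_mul, map_mul, Matrix.det_mul, Matrix.det_mul, hσ, mul_one, ← Matrix.det_mul,
          inv_mul_eq_one, Matrix.det_one])
      rw [map_mul, map_mul, ← mul_assoc, ← mul_assoc, Matrix.trace_mul_comm, ← mul_assoc,
        ← mul_assoc] at h
      exact h⟩) hAZ hA0
  refine false_of_commutators hM fun σ τ => ⟨M (σ * τ * σ⁻¹ * τ⁻¹) 0 0, ?_⟩
  have hd : (M (σ * τ * σ⁻¹ * τ⁻¹)).det = 1 := by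
    simp only [map_mul, Matrix.det_mul]
    rw [mul_comm (M σ).det, mul_assoc, mul_assoc, ← mul_assoc (M σ).det, ← Matrix.det_mul (M σ),
      mul_inv_eq_one, Matrix.det_one, one_mul, ← Matrix.det_mul, mul_inv_eq_one, Matrix.det_one]
  have hs := scalar_of_trace_mul (X := M (σ * τ * σ⁻¹ * τ⁻¹)) fun Y hY => by
    rw [Matrix.trace_mul_comm]
    exact (hall Y hY).2 _ hd
  have := congrArg (· * M (τ * σ)) hs
  simp only [← map_mul, Matrix.smul_mul, one_mul] at this
  rwa [show σ * τ * σ⁻¹ * τ⁻¹ * (τ * σ) = σ * τ by group] at this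

/-- `H¹(Img M, ad⁰(1)) = 0`. -/
theorem h1Zero_twAd (hM : Adequate M p) : Coh.H1Zero (Img M) (TwAd M) := by
  intro a ha
  let G₁ : Submonoid GQ :=
    { carrier := {σ | (M σ).det = 1}
      one_mem' := by simp
      mul_mem' := fun {x y} (hx : (M x).det = 1) (hy : (M y).det = 1) => by
        show (M (x * y)).det = 1
        rw [map_mul, Matrix.det_mul, hx, hy, one_mul] }
  obtain ⟨Y, hY, hD⟩ := exists_inner_of_span (G := G₁) (M.comp G₁.subtype)
    (by
      refine top_le_iff.mp (span_det_one hM ▸ Submodule.span_mono ?_)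
      rintro _ ⟨⟨σ, hσ⟩, rfl⟩
      exact ⟨⟨σ, hσ⟩, rfl⟩)
    (two_ne_zero_of hM) (fun σ => H1.cz a σ * M σ)
    (fun σ τ => by
      show H1.cz a ((σ : GQ) * τ) * M ((σ : GQ) * τ) = _
      rw [H1.cz_mul ha, show (M (σ : GQ)).det = 1 from σ.2, one_smul, map_mul, add_mul]
      simp only [MonoidHom.coe_comp, Submonoid.coe_subtype, Function.comp_apply, mul_assoc]
      rw [← mul_assoc (M (σ : GQ)⁻¹) (M (σ : GQ)), inv_mul_eq_one, one_mul])
    (fun σ => H1.F_eq_zero ha hM σ.2)
  refine ⟨TwAd.mk Y hY, fun g => ?_⟩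
  obtain ⟨τ, rfl⟩ := toImg_surjective M g
  set b : GQ → 𝕄 := fun σ => H1.cz a σ - ((M σ).det • (M σ * Y * M σ⁻¹) - Y) with hb
  have hbmul : ∀ σ τ, b (σ * τ) = b σ + (M σ).det • (M σ * b τ * M σ⁻¹) := by
    intro σ τ
    simp only [hb, H1.cz_mul ha, map_mul, Matrix.det_mul, _root_.mul_inv_rev, mul_sub, sub_mul,
      smul_sub, Matrix.mul_smul, Matrix.smul_mul, smul_smul, mul_assoc]
    abel
  have hb1 : ∀ σ, (M σ).det = 1 → b σ = 0 := by
    intro σ hσ
    have h := congrArg (· * M σ⁻¹) (hD ⟨σ, hσ⟩)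
    simp only [MonoidHom.coe_comp, Submonoid.coe_subtype, Function.comp_apply, sub_mul, mul_assoc,
      mul_inv_eq_one, mul_one] at h
    simp only [hb, hσ, one_smul, mul_assoc, h, sub_self]
  have hbτ : b τ = 0 := by
    have htr : (b τ).trace = 0 := by
      simp only [hb, Matrix.trace_sub, Matrix.trace_smul, hY, smul_eq_mul]
      rw [show (H1.cz a τ).trace = 0 from TwAd.trace_mat _, Matrix.trace_mul_comm, ← mul_assoc,
        inv_mul_eq_one, one_mul, hY]
      ring
    have hinv : ∀ σ, (M σ).det = 1 → M σ * b τ = b τ * M σ := by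
      intro σ hσ
      have hσ' : (M (τ⁻¹ * σ * τ)).det = 1 := by
        rw [map_mul, map_mul, Matrix.det_mul, Matrix.det_mul, hσ, mul_one, ← Matrix.det_mul,
          inv_mul_eq_one, Matrix.det_one]
      have h1 := hbmul σ τ
      have h2 := hbmul τ (τ⁻¹ * σ * τ)
      rw [hb1 σ hσ, zero_add, hσ, one_smul] at h1
      rw [hb1 _ hσ', mul_zero, zero_mul, smul_zero, add_zero,
        show τ * (τ⁻¹ * σ * τ) = σ * τ by group, h1] at h2
      conv_rhs => rw [← h2]
      rw [mul_assoc _ (M σ⁻¹), inv_mul_eq_one, mul_one]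
    refine ad_invariants hM _ htr fun ρ => ?_
    have hall : ∀ X : 𝕄, X * b τ = b τ * X := fun X => by
      have hX : X ∈ Submodule.span k (Set.range fun σ : {σ : GQ // (M σ).det = 1} => M σ) :=
        span_det_one hM ▸ Submodule.mem_top
      induction hX using Submodule.span_induction with
      | mem X hX => obtain ⟨⟨σ, hσ⟩, rfl⟩ := hX; exact hinv σ hσ
      | zero => simp
      | add X X' _ _ e e' => rw [mul_add, add_mul, e, e']
      | smul c X _ e => rw [Matrix.mul_smul, Matrix.smul_mul, e]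
    rw [adAct, hall, mul_assoc, mul_inv_eq_one, mul_one]
  refine TwAd.mat_injective ?_
  rw [map_sub, mat_toImg_smul, TwAd.mat_mk]
  exact sub_eq_zero.mp hbτ

end FLTAgent.TW
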