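import Fermat.Agent.TW.Global.Defs

/-!
# Extension classes coming from places

`placeExt M T Q` is the subgroup of `Ext¹(TwAd, C_T)` of the classes coming from the places
above `Q`; it grows with `Q` (`placeExt_mono`).
-/

set_option autoImplicit false

noncomputable section

namespace FLTAgent.TW

open Matrix FLTAgent.Deform

variable {k : Type} [Field k] [Finite k]

instance instFintypeImg (M : MatRep k) : Fintype (Img M) := Fintype.ofFinite _

/-- An integral functional times a class. -/
def tensorHom {N A : Type} [AddCommGroup N] [AddCommGroup A] (c : A) (g₀ : N →+ ℤ) : N →+ A :=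
  (zmultiplesHom A c).comp g₀

@[simp] theorem tensorHom_apply {N A : Type} [AddCommGroup N] [AddCommGroup A] (c : A) (g₀ : N →+ ℤ)
    (y : N) : tensorHom c g₀ y = g₀ y • c := rfl

variable (M : MatRep k)

/-- The classes of the places above `Q`. -/
def placeClasses (T Q : Finset ℕ) : Set (CT M T) :=
  {c | ∃ q ∈ Q, ∃ (hq : q.Prime) (A : Place), A.1.LiesOverPrime q ∧
    ∃ φ : ideles (fieldOf M),
      (φ : PreIdele) = placeIdele (fieldOf M) q hq.ne_zero A ∧ c = classOf _ φ}

/-- The extension classes which come from the places above `Q`. -/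
def placeExt (T Q : Finset ℕ) : AddSubgroup (Coh.Ext1 (Img M) (TwAd M) (CT M T)) :=
  AddSubgroup.closure {x | ∃ c ∈ placeClasses M T Q, ∃ g₀ : Coh.Rel (Img M) (TwAd M) →+ ℤ,
    x = Coh.Ext1.mk ⟨Coh.htrace (Img M) (tensorHom c g₀), Coh.htrace_mem _⟩}

theorem placeExt_mono (T : Finset ℕ) {Q Q' : Finset ℕ} (h : Q ⊆ Q') :
    placeExt M T Q ≤ placeExt M T Q' := by
  refine AddSubgroup.closure_mono ?_
  rintro x ⟨c, ⟨q, hq, hc⟩, hx⟩
  exact ⟨c, ⟨q, h hq, hc⟩, hx⟩

end FLTAgent.TW
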