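import Fermat.Agent.TW.Global.Bridge
import Fermat.Agent.TW.Global.PlaceExt
import Fermat.Agent.TW.Coh.CoverExt
import Fermat.Agent.TW.Global.GroupFacts

/-!
# The classes of `fieldOf M`: finiteness, `#Hom ≤ #Ext¹`, generation by traces

`classes_package` transports `Coh.CoverExt` to `CT M T` through the cover of the auxiliary
layer: `Ext¹(TwAd, C_T)` and `Hom(TwAd, C_T)` are finite, the second is no larger than the first,
and every extension class is the class of a trace. The local Euler identity it needs is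
`card_eqHom_modP_classes`.
-/

set_option autoImplicit false
set_option linter.style.haveILetI false
set_option linter.unusedSectionVars false

noncomputable section

namespace FLTAgent.TW

namespace Coh

variable {G : Type} [Group G] {A B N : Type} [AddCommGroup A] [DistribMulAction G A]
  [AddCommGroup B] [DistribMulAction G B] [AddCommGroup N] [DistribMulAction G N]

theorem symm_mem_eqHom (e : A ≃+ B) (he : ∀ (g : G) a, e (g • a) = g • e a) :
    e.symm.toAddMonoidHom ∈ eqHom G B A := fun g b => e.injective (by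
  show e (e.symm (g • b)) = e (g • e.symm b)
  rw [he, e.apply_symm_apply, e.apply_symm_apply])

theorem card_eqHom_congr (e : A ≃+ B) (he : ∀ (g : G) a, e (g • a) = g • e a) :
    Nat.card (eqHom G N A) = Nat.card (eqHom G N B) :=
  Nat.card_congr
    { toFun := fun f => ⟨e.toAddMonoidHom.comp f.1, comp_mem_eqHom (mem_eqHom.mpr he) f.2⟩
      invFun := fun f => ⟨e.symm.toAddMonoidHom.comp f.1, comp_mem_eqHom (symm_mem_eqHom e he) f.2⟩
      left_inv := fun _ => Subtype.ext (AddMonoidHom.ext fun _ => e.symm_apply_apply _)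
      right_inv := fun _ => Subtype.ext (AddMonoidHom.ext fun _ => e.apply_symm_apply _) }

theorem bijective_ext1Map (e : A ≃+ B) (he : ∀ (g : G) a, e (g • a) = g • e a) :
    Function.Bijective (Ext1.map (N := N) e.toAddMonoidHom (mem_eqHom.mpr he)) := by
  refine Function.bijective_iff_has_inverse.mpr
    ⟨Ext1.map e.symm.toAddMonoidHom (symm_mem_eqHom e he), fun c => ?_, fun c => ?_⟩ <;>
  induction c using Ext1.induction with
  | _ f =>
    rw [Ext1.map_mk, Ext1.map_mk]
    exact congrArg Ext1.mk (Subtype.ext (AddMonoidHom.ext fun x => by simp))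

theorem bijective_modPMap {p : ℕ} (e : A ≃+ B) :
    Function.Bijective (ModP.map (p := p) e.toAddMonoidHom) := by
  refine Function.bijective_iff_has_inverse.mpr
    ⟨ModP.map e.symm.toAddMonoidHom, fun c => ?_, fun c => ?_⟩ <;>
  obtain ⟨a, rfl⟩ := toModP_surjective c <;>
  rw [ModP.map_toModP, ModP.map_toModP] <;> simp

theorem card_eqHom_modP_congr {p : ℕ} (e : A ≃+ B) (he : ∀ (g : G) a, e (g • a) = g • e a) :
    Nat.card (eqHom G N (ModP p A)) = Nat.card (eqHom G N (ModP p B)) :=
  card_eqHom_congr (AddEquiv.ofBijective _ (bijective_modPMap e)) fun g x =>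
    ModP.map_mem (j := e.toAddMonoidHom) (mem_eqHom.mpr he) g x

end Coh

open Matrix FLTAgent.Deform
open scoped Pointwise

variable {k : Type} [Field k] [Finite k] {p : ℕ} [Fact p.Prime] [CharP k p] {M : MatRep k}

local notation "ℚ̄" => AlgebraicClosure ℚ

theorem containsMuP_fieldOf (hdet : DetCyclotomic M p) (hM : FactorsFinite M) :
    ContainsMuP p (fieldOf M) :=
  containsMuP_of_det hdet fun σ hσ => by
    rw [fixingSubgroup_fieldOf hM, MonoidHom.mem_ker, toImg_eq_one_iff] at hσ
    exact ⟨0, by rw [hσ, Matrix.det_one, one_pow]⟩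

theorem card_comap_relIndex (hM : FactorsFinite M) (C : Subgroup (Img M)) :
    (fieldOf M).fixingSubgroup.relIndex (C.comap (toImg M)) = Nat.card C := by
  rw [fixingSubgroup_fieldOf hM, Subgroup.relIndex_ker,
    Subgroup.map_comap_eq_self_of_surjective (toImg_surjective M)]

/-- The classes as idele classes. -/
def toIdeleClass (T : Finset ℕ) : CT M T ≃+ Additive (IdeleClass T (fieldOf M)) := AddEquiv.refl _

theorem toIdeleClass_classOf (T : Finset ℕ) (φ : ideles (fieldOf M)) :
    toIdeleClass T (classOf _ φ) = Additive.ofMul (QuotientGroup.mk φ) := rfl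

section ModP

variable (M) (p) (T : Finset ℕ)

/-- The classes modulo `p`-th powers, additively. -/
def modPowHom : CT M T →+ Additive (IdeleClassModP T p (fieldOf M)) :=
  (QuotientGroup.map ((classKer T (fieldOf M)).subgroupOf (ideles (fieldOf M)))
    ((classKer T (fieldOf M) ⊔ powIdeles p (fieldOf M)).subgroupOf (ideles (fieldOf M)))
    (MonoidHom.id _) fun _ hφ => Subgroup.mem_subgroupOf.mpr
      (Subgroup.mem_sup_left (Subgroup.mem_subgroupOf.mp hφ))).toAdditive

theorem modPowHom_classOf (φ : ideles (fieldOf M)) :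
    modPowHom p M T (classOf _ φ) = Additive.ofMul (QuotientGroup.mk φ) := rfl

theorem modPowHom_surjective : Function.Surjective (modPowHom p M T) := fun c => by
  obtain ⟨φ, hφ⟩ := QuotientGroup.mk_surjective (Additive.toMul c)
  exact ⟨classOf _ φ, by rw [modPowHom_classOf, hφ]; rfl⟩

variable [FiniteDimensional ℚ (fieldOf M)]

theorem exists_nsmul_of_modPowHom {c : CT M T} (h : modPowHom p M T c = 0) :
    ∃ y, p • y = c := by
  obtain ⟨φ, rfl⟩ := classOf_surjective _ c
  have h1 := Subgroup.mem_subgroupOf.mp ((QuotientGroup.eq_one_iff φ).mp h)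
  obtain ⟨u, hu, v, ⟨w, hw, rfl⟩, he⟩ := Subgroup.mem_sup.mp h1
  refine ⟨classOf _ ⟨w, hw⟩, ?_⟩
  have e : p • classOf (M := M) (classKer T (fieldOf M)) ⟨w, hw⟩ = classOf _ (⟨w, hw⟩ ^ p) := rfl
  rw [e, ← sub_eq_zero]
  refine (show _ = classOf (M := M) (classKer T (fieldOf M)) (⟨w, hw⟩ ^ p / φ) from rfl).trans
    ((classOf_eq_zero_iff _ _).mpr ?_)
  show w ^ p / φ.1 ∈ _
  rw [← he, powMonoidHom_apply, div_mul_cancel_right]
  exact inv_mem hu

/-- `C_T/p` in the two descriptions. -/
def modPEquiv : Coh.ModP p (CT M T) ≃+ Additive (IdeleClassModP T p (fieldOf M)) :=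
  AddEquiv.ofBijective (QuotientAddGroup.lift _ (modPowHom p M T) (by
      rintro _ ⟨y, rfl⟩
      rw [AddMonoidHom.mem_ker]
      obtain ⟨φ, rfl⟩ := classOf_surjective _ y
      show modPowHom p M T (classOf _ (φ ^ p)) = 0
      rw [modPowHom_classOf]
      exact congrArg Additive.ofMul ((QuotientGroup.eq_one_iff _).mpr (Subgroup.mem_subgroupOf.mpr
        (Subgroup.mem_sup_right ⟨φ.1, φ.2, rfl⟩)))))
    ⟨(injective_iff_map_eq_zero _).mpr fun x hx => by
      obtain ⟨c, rfl⟩ := Coh.toModP_surjective x
      exact Coh.toModP_eq_zero_iff.mpr (exists_nsmul_of_modPowHom p M T hx),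
    fun c => by
      obtain ⟨d, rfl⟩ := modPowHom_surjective p M T c
      exact ⟨Coh.toModP d, rfl⟩⟩

theorem modPEquiv_classOf (φ : ideles (fieldOf M)) :
    modPEquiv p M T (Coh.toModP (classOf _ φ)) = Additive.ofMul (QuotientGroup.mk φ) := rfl

end ModP

variable {T : Finset ℕ}

theorem finite_torsion_modP (hM : FactorsFinite M) (hdet : DetCyclotomic M p)
    (hL : IdeleSetting T p (fieldOf M)) (hT : TPrincipal T (fieldOf M)) :
    Finite {c : CT M T // p • c = 0} ∧ Finite (Coh.ModP p (CT M T)) := by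
  haveI := hL.finite
  obtain ⟨h0, h1⟩ := card_classes hL le_rfl hT (containsMuP_fieldOf hdet hM)
  constructor
  · have h2 : 0 < Nat.card {c : IdeleClass T (fieldOf M) // c ^ p = 1} :=
      Nat.pos_of_ne_zero fun h => by rw [h1, h, mul_zero] at h0; exact lt_irrefl _ h0
    haveI := Nat.finite_of_card_ne_zero h2.ne'
    exact Finite.of_injective (fun c : {c : CT M T // p • c = 0} =>
      (⟨Additive.toMul (toIdeleClass T c.1), c.2⟩ : {c : IdeleClass T (fieldOf M) // c ^ p = 1})) fun c d h =>
        Subtype.ext (congrArg Subtype.val h)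
  · haveI : Finite (IdeleClassModP T p (fieldOf M)) := Nat.finite_of_card_ne_zero h0.ne'
    exact Finite.of_injective _ (modPEquiv p M T).injective

/-- The local Euler identity of the classes. -/
theorem card_eqHom_modP_classes (hp2 : p ≠ 2) (hM : FactorsFinite M) (hdet : DetCyclotomic M p)
    (hL : IdeleSetting T p (fieldOf M)) (hT : TPrincipal T (fieldOf M)) {N : Type} [AddCommGroup N]
    [DistribMulAction (Img M) N] [Finite N] (hN : ∀ x : N, p • x = 0)
    (C : Subgroup (Img M)) (hC : (Nat.card C).Coprime p) :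
    Nat.card (Coh.eqHom C N (Coh.ModP p (CT M T))) =
      Nat.card (Coh.eqHom C N (Coh.TrivFp p)) * Nat.card (Coh.eqHom C N (CT M T)) := by
  haveI := hL.finite
  set H := C.comap (toImg M)
  letI : DistribMulAction H N := DistribMulAction.compHom N ((toImg M).comp H.subtype)
  have hsmul : ∀ (h : H) (x : N), h • x = toImg M h.1 • x := fun _ _ => rfl
  have hKH : (fieldOf M).fixingSubgroup ≤ H := by
    rw [fixingSubgroup_fieldOf hM]
    exact fun σ hσ => Subgroup.mem_comap.mpr ((MonoidHom.mem_ker.mp hσ).symm ▸ one_mem C)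
  obtain ⟨-, hcard⟩ := card_homs hp2 hL hT (containsMuP_fieldOf hdet hM) H hKH
    (by rw [card_comap_relIndex hM]; exact hC) N hN fun h hh x => by
      rw [fixingSubgroup_fieldOf hM, MonoidHom.mem_ker] at hh
      rw [hsmul, hh, one_smul]
  have hlift : ∀ g : C, ∃ h : H, toImg M h.1 = g := fun g =>
    ⟨⟨imgLift g.1, by rw [Subgroup.mem_comap, toImg_imgLift]; exact g.2⟩, toImg_imgLift _⟩
  have hactP : ∀ (σ : GQ) (c : Coh.ModP p (CT M T)),
      Additive.toMul (modPEquiv p M T (toImg M σ • c)) =
        σ • Additive.toMul (modPEquiv p M T c) := fun σ c => by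
    obtain ⟨d, rfl⟩ := Coh.toModP_surjective c
    obtain ⟨φ, rfl⟩ := classOf_surjective _ d
    rw [Coh.smul_toModP, smul_classOf _ rfl, modPEquiv_classOf, modPEquiv_classOf]
    rfl
  have hact : ∀ (σ : GQ) (c : CT M T),
      Additive.toMul (toIdeleClass T (toImg M σ • c)) = σ • Additive.toMul (toIdeleClass T c) :=
    fun σ c => by
      obtain ⟨φ, rfl⟩ := classOf_surjective _ c
      rw [smul_classOf _ rfl]
      rfl
  have e1 : Nat.card (Coh.eqHom C N (Coh.ModP p (CT M T))) =
      Nat.card (equivariantHoms H N (IdeleClassModP T p (fieldOf M))) := Nat.card_congr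
    { toFun := fun f => ⟨fun x => Additive.toMul (modPEquiv p M T (f.1 x)),
        fun x y => by beta_reduce; rw [map_add, map_add]; rfl, fun h x => by
          beta_reduce; rw [hsmul, show f.1 (toImg M h.1 • x) = toImg M h.1 • f.1 x from f.2 ⟨_, h.2⟩ x, hactP]⟩
      invFun := fun f => ⟨AddMonoidHom.mk' (fun x => (modPEquiv p M T).symm (Additive.ofMul (f.1 x)))
          fun x y => by rw [f.2.1, ofMul_mul, map_add],
        fun g x => (modPEquiv p M T).injective (Additive.toMul.injective (by
          obtain ⟨h, hh⟩ := hlift g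
          show Additive.toMul (modPEquiv p M T ((modPEquiv p M T).symm (Additive.ofMul (f.1 (g.1 • x)))))
            = Additive.toMul (modPEquiv p M T (g.1 • _))
          rw [AddEquiv.apply_symm_apply, ← hh, hactP, toMul_ofMul, ← hsmul, f.2.2]
          exact congrArg (h.1 • ·)
            (congrArg Additive.toMul ((modPEquiv p M T).apply_symm_apply _)).symm))⟩
      left_inv := fun f => Subtype.ext (AddMonoidHom.ext fun x => (modPEquiv p M T).symm_apply_apply _)
      right_inv := fun f => Subtype.ext (funext fun x =>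
        congrArg Additive.toMul ((modPEquiv p M T).apply_symm_apply _)) }
  have e2 : Nat.card (Coh.eqHom C N (Coh.TrivFp p)) =
      Nat.card {f : N →+ ZMod p // ∀ (h : H) x, f (h • x) = f x} := Nat.card_congr
    { toFun := fun f => ⟨f.1, fun h x => f.2 ⟨_, h.2⟩ x⟩
      invFun := fun f => ⟨f.1, fun g x => by
        obtain ⟨h, hh⟩ := hlift g
        show f.1 (g.1 • x) = f.1 x
        rw [← hh]
        exact f.2 h x⟩
      left_inv := fun _ => rfl
      right_inv := fun _ => rfl }
  have e3 : Nat.card (Coh.eqHom C N (CT M T)) =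
      Nat.card (equivariantHoms H N (IdeleClass T (fieldOf M))) := Nat.card_congr
    { toFun := fun f => ⟨fun x => Additive.toMul (toIdeleClass T (f.1 x)),
        fun x y => by beta_reduce; rw [map_add, map_add]; rfl, fun h x => by
          beta_reduce; rw [hsmul, show f.1 (toImg M h.1 • x) = toImg M h.1 • f.1 x from f.2 ⟨_, h.2⟩ x, hact]⟩
      invFun := fun f => ⟨AddMonoidHom.mk' (fun x => (toIdeleClass T).symm (Additive.ofMul (f.1 x)))
          fun x y => by rw [f.2.1, ofMul_mul, map_add],
        fun g x => (toIdeleClass T).injective (Additive.toMul.injective (by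
          obtain ⟨h, hh⟩ := hlift g
          show Additive.toMul (toIdeleClass T ((toIdeleClass T).symm (Additive.ofMul (f.1 (g.1 • x)))))
            = Additive.toMul (toIdeleClass T (g.1 • _))
          rw [AddEquiv.apply_symm_apply, ← hh, hact, toMul_ofMul, ← hsmul, f.2.2]
          exact congrArg (h.1 • ·)
            (congrArg Additive.toMul ((toIdeleClass T).apply_symm_apply _)).symm))⟩
      left_inv := fun f => Subtype.ext (AddMonoidHom.ext fun x => (toIdeleClass T).symm_apply_apply _)
      right_inv := fun f => Subtype.ext (funext fun x =>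
        congrArg Additive.toMul ((toIdeleClass T).apply_symm_apply _)) }
  rw [e1, hcard, e2, e3]

namespace Layer

variable (D : Layer M p) (T)

/-- The classes of `fieldOf M` in those of the composite. -/
def incl (hM : FactorsFinite M) : CT M T →+ D.LayerClass T :=
  (QuotientGroup.map ((classKer T (fieldOf M)).subgroupOf (ideles (fieldOf M)))
    ((classKer T D.field).subgroupOf (ideles D.field))
    (Subgroup.inclusion (ideles_mono (D.fieldOf_le hM))) fun _ hφ => Subgroup.mem_subgroupOf.mpr
      ((haveI := D.finite_field hM; classKer_mono (D.fieldOf_le hM))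
        (Subgroup.mem_subgroupOf.mp hφ))).toAdditive

theorem incl_classOf (hM : FactorsFinite M) (φ : ideles (fieldOf M)) :
    D.incl T hM (classOf _ φ) = D.cls ⟨φ.1, ideles_mono (D.fieldOf_le hM) φ.2⟩ := rfl

theorem exists_classesEquiv (hM : FactorsFinite M) (hL : IdeleSetting T p D.field)
    {n : ℕ} (C : Coh.CoverData (Img M) p n (D.LayerClass T)) (hC : C.τ = D.tau) :
    ∃ e : CT M T ≃+ C.classes, ∀ (g : Img M) a, e (g • a) = g • e a := by
  haveI := hL.finite
  have hfix : ∀ c, D.incl T hM c ∈ C.classes := fun c => by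
    obtain ⟨φ, rfl⟩ := classOf_surjective _ c
    rw [C.mem_classes, hC, incl_classOf]
    show D.galSMul D.t _ = _
    rw [galSMul_cls]
    exact congrArg _ (Subtype.ext (φ.2.1 _ (mem_fixingSubgroup_fieldOf M D.toImg_t)))
  let f : CT M T →+ C.classes := (D.incl T hM).codRestrict C.classes hfix
  have hbij : Function.Bijective f := by
    refine ⟨(injective_iff_map_eq_zero f).mpr fun c hc => ?_, fun x => ?_⟩
    · obtain ⟨φ, rfl⟩ := classOf_surjective _ c
      exact (classOf_eq_zero_iff _ φ).mpr (classKer_inter (D.fieldOf_le hM) φ.2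
        ((D.cls_eq_zero_iff (φ := ⟨φ.1, ideles_mono (D.fieldOf_le hM) φ.2⟩)).mp
          (congrArg Subtype.val hc)))
    · obtain ⟨φ, hφ, he⟩ := D.exists_idele_sub hM hL ⊥ x.1
        (fun h hh => by rw [Subgroup.mem_bot.mp hh, one_smul]) (hC ▸ C.mem_classes.mp x.2)
      exact ⟨classOf _ ⟨φ.1, ideles_mono (D.sub_le hM ⊥) hφ⟩, Subtype.ext he⟩
  refine ⟨AddEquiv.ofBijective f hbij, fun g a => Subtype.ext ?_⟩
  show D.incl T hM (g • a) = g • D.incl T hM a
  obtain ⟨φ, rfl⟩ := classOf_surjective _ a
  rw [smul_classOf _ (D.toImg_lift g), incl_classOf, incl_classOf,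
    D.smul_eq_galSMul (D.toImg_lift g) (D.psi_lift g), galSMul_cls]

end Layer

set_option maxHeartbeats 2000000 in
/-- The facts about the classes used for the selection. -/
theorem classes_package (hM : Adequate M p) (D : Layer M p) (hell : D.ell ∈ T)
    (hL : IdeleSetting T p D.field) (hT : ∀ E ≤ D.field, TPrincipal T E)
    (hL₀ : IdeleSetting T p (fieldOf M)) :
    Finite (Coh.Ext1 (Img M) (TwAd M) (CT M T)) ∧ Finite (Coh.eqHom (Img M) (TwAd M) (CT M T)) ∧
      Nat.card (Coh.eqHom (Img M) (TwAd M) (CT M T)) ≤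
        Nat.card (Coh.Ext1 (Img M) (TwAd M) (CT M T)) ∧
      ∀ c : Coh.Ext1 (Img M) (TwAd M) (CT M T), ∃ g : Coh.Rel (Img M) (TwAd M) →+ CT M T,
        c = Coh.Ext1.mk ⟨Coh.htrace (Img M) g, Coh.htrace_mem g⟩ := by
  obtain ⟨C, hC⟩ := D.exists_coverData hM.finite hL hT hM.det hell
  have hex := D.exists_classesEquiv T hM.finite hL (n := layerDeg M p) C hC
  obtain ⟨e, he⟩ := hex
  have hTK := hT _ (D.fieldOf_le hM.finite)
  obtain ⟨htor, hmod⟩ := finite_torsion_modP hM.finite hM.det hL₀ hTK
  have htor' : Finite {c : C.classes // p • c = 0} := Finite.of_injective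
    (fun c => (⟨e.symm c.1, by rw [← map_nsmul, c.2, map_zero]⟩ : {c : CT M T // p • c = 0}))
    fun c d h => Subtype.ext (e.symm.injective (congrArg Subtype.val h))
  have hmod' : Finite (Coh.ModP p C.classes) :=
    Finite.of_surjective _ (Coh.bijective_modPMap (p := p) e).surjective
  obtain ⟨P⟩ := (inferInstance : Nonempty (Sylow p (Img M)))
  haveI : Fintype (P : Subgroup (Img M)) := Fintype.ofFinite _
  have hcard : Fintype.card (P : Subgroup (Img M)) = layerDeg M p := by
    rw [← Nat.card_eq_fintype_card]; exact P.card_eq_multiplicity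
  have hW := C.isCT_cover P.isPGroup' hcard (by rw [layerDeg, Nat.card_eq_fintype_card]) htor' hmod'
  have hN : ∀ x : TwAd M, p • x = 0 := fun x => TwAd.nsmul_eq_zero x
  have hloc := C.localEuler_cover (N := TwAd M) hN fun H hH => by
    have e1 := Coh.card_eqHom_modP_congr (N := TwAd M) (p := p) (G := H) e (fun g a => he g a)
    have e2 := Coh.card_eqHom_congr (N := TwAd M) (G := H) e (fun g a => he g a)
    exact e1.symm.trans ((card_eqHom_modP_classes hM.ne_two hM.finite hM.det hL₀ hTK hN H hH).trans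
      (congrArg (_ * ·) e2))
  have hbij := Coh.bijective_ext1Map (N := TwAd M) e he
  haveI := C.finite_ext1_classes hW hN (N := TwAd M)
  haveI hfin1 : Finite (Coh.Ext1 (Img M) (TwAd M) (CT M T)) := Finite.of_injective _ hbij.injective
  haveI : Finite (Coh.eqHom (Img M) (TwAd M) (CT M T)) := Finite.of_injective
    (fun f : Coh.eqHom (Img M) (TwAd M) (CT M T) => fun x : TwAd M =>
      (⟨f.1 x, by rw [← map_nsmul, hN, map_zero]⟩ : {c : CT M T // p • c = 0}))
    fun f f' h => Subtype.ext (AddMonoidHom.ext fun x => congrArg Subtype.val (congrFun h x))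
  refine ⟨hfin1, inferInstance, ?_, fun c => ?_⟩
  · rw [Coh.card_eqHom_congr e he, Nat.card_congr (Equiv.ofBijective _ hbij)]
    exact C.card_eqHom_le_card_ext1 hW hN hloc
  · obtain ⟨g, hg⟩ := C.exists_trace_classes hW hN (h1Zero_twAd hM) (Coh.Ext1.map e.toAddMonoidHom (Coh.mem_eqHom.mpr he) c)
    refine ⟨e.symm.toAddMonoidHom.comp g, hbij.injective ?_⟩
    rw [hg, Coh.Ext1.map_mk]
    refine congrArg Coh.Ext1.mk (Subtype.ext ?_)
    show _ = e.toAddMonoidHom.comp (Coh.htrace (Img M) (e.symm.toAddMonoidHom.comp g))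
    rw [← Coh.htrace_comp_left (Coh.mem_eqHom.mpr he : e.toAddMonoidHom ∈ Coh.eqHom (Img M) (CT M T) C.classes)]
    exact congrArg _ (AddMonoidHom.ext fun x => (e.apply_symm_apply _).symm)

end FLTAgent.TW
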