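import Fermat.Agent.TW.Coh.Lattice

/-!
# Classes of traces attached to a functional and an element

For `u : N →+ ZMod p` and `a : A` the class of the trace of `y ↦ φ y • a`, where `φ : Rel → ℤ` is
any homomorphism with `φ (p • x) ≡ u (proj x)`; these classes generate the group of traces
(`extPair`, `closure_extPair`).
-/

set_option autoImplicit false
set_option linter.unusedSectionVars false
set_option linter.style.haveILetI false

noncomputable section

namespace FLTAgent.TW.Coh

variable {G : Type} [Group G] [Fintype G] {N A : Type} [AddCommGroup N] [DistribMulAction G N]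
  [AddCommGroup A] [DistribMulAction G A] {p : ℕ} [Fact p.Prime]

/-- The class of the trace of `y ↦ φ y • a`. -/
def traceClass (φ : Rel G N →+ ℤ) (a : A) : Ext1 G N A :=
  Ext1.mk ⟨htrace G ((zmultiplesHom A a).comp φ), htrace_mem _⟩

theorem traceClass_add_right (φ : Rel G N →+ ℤ) (a b : A) :
    traceClass φ (a + b) = traceClass φ a + traceClass φ b := by
  rw [traceClass, traceClass, traceClass, ← map_add]
  refine congrArg Ext1.mk (Subtype.ext ?_)
  show htrace G _ = htrace G _ + htrace G _
  rw [← map_add (htrace G)]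
  exact congrArg _ (AddMonoidHom.ext fun y => zsmul_add a b (φ y))

theorem traceClass_add_left (φ φ' : Rel G N →+ ℤ) (a : A) :
    traceClass (φ + φ') a = traceClass φ a + traceClass φ' a := by
  rw [traceClass, traceClass, traceClass, ← map_add]
  refine congrArg Ext1.mk (Subtype.ext ?_)
  show htrace G _ = htrace G _ + htrace G _
  rw [AddMonoidHom.comp_add, map_add]

variable (hN : ∀ n : N, p • n = 0)

/-- The functional of a homomorphism on the relations. -/
def residueFn (φ : Rel G N →+ ℤ) : N →+ ZMod p :=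
  AddMonoidHom.mk' (fun n => ((φ (pRel G p hN (Free.of 1 n)) : ℤ) : ZMod p)) fun n n' => by
    have hy : Free.of 1 (n + n') - (Free.of 1 n + Free.of 1 n') ∈ Rel G N := by
      rw [mem_rel_iff]; simp
    have h : pRel G p hN (Free.of 1 (n + n')) =
        pRel G p hN (Free.of 1 n) + pRel G p hN (Free.of 1 n') +
          p • (⟨_, hy⟩ : Rel G N) := Subtype.ext (by
      show p • Free.of 1 (n + n') = p • Free.of 1 n + p • Free.of 1 n' + p • (_ - _)
      rw [nsmul_sub, nsmul_add]
      abel)
    rw [h, map_add, map_add, map_nsmul]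
    simp

theorem residueFn_proj (φ : Rel G N →+ ℤ) (x : Free G N) :
    residueFn hN φ (proj G N x) = ((φ (pRel G p hN x) : ℤ) : ZMod p) := by
  have hy : x - Free.of 1 (proj G N x) ∈ Rel G N := by
    rw [mem_rel_iff]; simp
  have h : pRel G p hN x = pRel G p hN (Free.of 1 (proj G N x)) + p • (⟨_, hy⟩ : Rel G N) :=
    Subtype.ext (by
      show p • x = p • Free.of 1 (proj G N x) + p • (_ - _)
      rw [nsmul_sub]; abel)
  rw [h, map_add, map_nsmul]
  show _ = ((φ _ + p • _ : ℤ) : ZMod p)
  simp [residueFn]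

theorem residueFn_add (φ φ' : Rel G N →+ ℤ) :
    residueFn hN (φ + φ') = residueFn hN φ + residueFn hN φ' :=
  AddMonoidHom.ext fun n => by simp [residueFn]

/-- The class only depends on the functional. -/
theorem traceClass_congr {φ φ' : Rel G N →+ ℤ} (h : residueFn hN φ = residueFn hN φ') (a : A) :
    traceClass φ a = traceClass φ' a := by
  have hp : (p : ℤ) ≠ 0 := Int.natCast_ne_zero.mpr (Fact.out : p.Prime).ne_zero
  have hdvd : ∀ x : Free G N, (p : ℤ) ∣ φ (pRel G p hN x) - φ' (pRel G p hN x) := fun x => by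
    rw [← ZMod.intCast_zmod_eq_zero_iff_dvd, Int.cast_sub, ← residueFn_proj hN, ← residueFn_proj hN,
      h, sub_self]
  let E : Free G N →+ ℤ := AddMonoidHom.mk' (fun x => (φ (pRel G p hN x) - φ' (pRel G p hN x)) / p)
    fun x y => by
      rw [← Int.add_ediv_of_dvd_left (hdvd x), pRel_add, map_add, map_add]
      congr 1
      ring
  have hE : φ = φ' + E.comp (Rel G N).subtype := AddMonoidHom.ext fun y => by
    show φ y = φ' y + (φ (pRel G p hN (y : Free G N)) - φ' (pRel G p hN (y : Free G N))) / (p : ℤ)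
    have hy : pRel G p hN (y : Free G N) = p • y := Subtype.ext rfl
    rw [hy, map_nsmul, map_nsmul, nsmul_eq_mul, nsmul_eq_mul, ← mul_sub,
      Int.mul_ediv_cancel_left _ hp]
    ring
  have h0 : traceClass (E.comp (Rel G N).subtype) a = 0 := by
    rw [traceClass, Ext1.mk_eq_zero_iff]
    refine ⟨⟨htrace G ((zmultiplesHom A a).comp E), htrace_mem _⟩, fun y => ?_⟩
    show _ = htrace G ((zmultiplesHom A a).comp (E.comp (Rel G N).subtype)) y
    rw [← AddMonoidHom.comp_assoc, htrace_comp_right _ subtype_mem_eqHom]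
    rfl
  rw [hE, traceClass_add_left, h0, add_zero]

variable (G) in
/-- An integral lift of a functional. -/
def liftFn (u : N →+ ZMod p) : Free G N →+ ℤ := Free.lift fun g n => ((u (g • n)).val : ℤ)

theorem cast_liftFn (u : N →+ ZMod p) (x : Free G N) :
    ((liftFn G u x : ℤ) : ZMod p) = u (proj G N x) := by
  haveI : NeZero p := ⟨(Fact.out : p.Prime).ne_zero⟩
  exact DFunLike.congr_fun (Free.hom_ext (f := (Int.castAddHom (ZMod p)).comp (liftFn G u))
    (f' := u.comp (proj G N)) fun g n => by simp [liftFn]) x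

theorem dvd_liftFn (u : N →+ ZMod p) (y : Rel G N) : (p : ℤ) ∣ liftFn G u y := by
  rw [← ZMod.intCast_zmod_eq_zero_iff_dvd, cast_liftFn, mem_rel_iff.mp y.2, map_zero]

/-- A homomorphism on the relations with given functional. -/
def phiOf (u : N →+ ZMod p) : Rel G N →+ ℤ :=
  AddMonoidHom.mk' (fun y => liftFn G u y / p) fun y y' => by
    rw [AddSubgroup.coe_add, map_add, Int.add_ediv_of_dvd_left (dvd_liftFn u y)]

theorem residueFn_phiOf (u : N →+ ZMod p) : residueFn hN (phiOf (G := G) u) = u := by
  refine AddMonoidHom.ext fun n => ?_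
  obtain ⟨x, rfl⟩ := proj_surjective (G := G) n
  rw [residueFn_proj]
  show ((liftFn G u (p • x) / (p : ℤ) : ℤ) : ZMod p) = _
  rw [map_nsmul, nsmul_eq_mul, Int.mul_ediv_cancel_left _
    (Int.natCast_ne_zero.mpr (Fact.out : p.Prime).ne_zero), cast_liftFn]

include hN in
/-- The pairing. -/
theorem exists_extPair : ∃ P : (N →+ ZMod p) →+ A →+ Ext1 G N A,
    ∀ (φ : Rel G N →+ ℤ) (a : A), traceClass φ a = P (residueFn hN φ) a :=
  ⟨AddMonoidHom.mk' (fun u => AddMonoidHom.mk' (traceClass (phiOf u)) (traceClass_add_right _))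
    fun u v => AddMonoidHom.ext fun a => by
      show traceClass (phiOf (u + v)) a = traceClass (phiOf u) a + traceClass (phiOf v) a
      rw [← traceClass_add_left]
      refine traceClass_congr hN ?_ a
      rw [residueFn_add, residueFn_phiOf, residueFn_phiOf, residueFn_phiOf],
  fun φ a => traceClass_congr hN (residueFn_phiOf hN _).symm a⟩

variable (G A) in
/-- The class of the trace attached to a functional and an element. -/
def extPair : (N →+ ZMod p) →+ A →+ Ext1 G N A := (exists_extPair (G := G) (A := A) hN).choose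

theorem traceClass_eq (φ : Rel G N →+ ℤ) (a : A) :
    traceClass φ a = extPair G A hN (residueFn hN φ) a :=
  (exists_extPair (G := G) (A := A) hN).choose_spec φ a

theorem extPair_apply (u : N →+ ZMod p) (a : A) :
    extPair G A hN u a = traceClass (phiOf (G := G) u) a := by
  rw [traceClass_eq hN, residueFn_phiOf]

/-- Invariance. -/
theorem extPair_smul (u : N →+ ZMod p) (g : G) (a : A) :
    extPair G A hN (u.comp (DistribSMul.toAddMonoidHom N g⁻¹)) (g • a) = extPair G A hN u a := by
  let φ : Rel G N →+ ℤ := (phiOf u).comp (DistribSMul.toAddMonoidHom (Rel G N) g⁻¹)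
  have hφ : residueFn hN φ = u.comp (DistribSMul.toAddMonoidHom N g⁻¹) := by
    refine AddMonoidHom.ext fun n => ?_
    obtain ⟨x, rfl⟩ := proj_surjective (G := G) n
    rw [residueFn_proj]
    show ((phiOf u (g⁻¹ • pRel G p hN x) : ℤ) : ZMod p) = u (g⁻¹ • proj G N x)
    rw [← pRel_smul, ← residueFn_proj hN, residueFn_phiOf, proj_smul]
  rw [← hφ, ← traceClass_eq, extPair_apply, traceClass, traceClass]
  refine congrArg Ext1.mk (Subtype.ext ?_)
  show htrace G _ = htrace G _
  have e : (zmultiplesHom A (g • a)).comp φ =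
      hconj g ((zmultiplesHom A a).comp (phiOf (G := G) u)) :=
    AddMonoidHom.ext fun y => by
      show phiOf u (g⁻¹ • y) • (g • a) = g • (phiOf u (g⁻¹ • y) • a)
      exact ((DistribSMul.toAddMonoidHom A g).map_zsmul _ _).symm
  rw [e, htrace_apply, htrace_apply]
  simp only [← hconj_mul]
  exact Fintype.sum_equiv (Equiv.mulRight g) _ _ fun _ => rfl

/-- The classes generate if every class is a trace. -/
theorem closure_extPair [Finite N]
    (htr : ∀ c : Ext1 G N A, ∃ g : Rel G N →+ A, c = Ext1.mk ⟨htrace G g, htrace_mem g⟩) :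
    AddSubgroup.closure (Set.range fun x : (N →+ ZMod p) × A => extPair G A hN x.1 x.2) = ⊤ := by
  refine eq_top_iff.mpr fun c _ => ?_
  obtain ⟨g, rfl⟩ := htr c
  haveI : Module.Free ℤ (Rel G N) := free_addSubgroup _
  haveI : Module.Finite ℤ (Rel G N) :=
    Module.Finite.equiv (M := AddSubgroup.toIntSubmodule (Rel G N)) (N := Rel G N)
      (AddEquiv.refl (Rel G N) : (AddSubgroup.toIntSubmodule (Rel G N)) ≃+ Rel G N).toIntLinearEquiv
  classical
  let b := Module.Free.chooseBasis ℤ (Rel G N)
  have hg : g = ∑ j, (zmultiplesHom A (g (b j))).comp (b.coord j).toAddMonoidHom :=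
    AddMonoidHom.ext fun y => by
      rw [AddMonoidHom.finsetSum_apply]
      conv_lhs => rw [← b.sum_repr y]
      rw [map_sum]
      exact Finset.sum_congr rfl fun j _ => map_zsmul g _ _
  have e : Ext1.mk ⟨htrace G g, htrace_mem g⟩ =
      ∑ j, traceClass (b.coord j).toAddMonoidHom (g (b j)) := by
    simp only [traceClass, ← map_sum]
    refine congrArg Ext1.mk (Subtype.ext ?_)
    rw [AddSubgroup.val_finsetSum, ← map_sum, ← hg]
  rw [e]
  refine AddSubgroup.sum_mem _ fun j _ => AddSubgroup.subset_closure ?_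
  exact ⟨(residueFn hN _, g (b j)), (traceClass_eq hN _ _).symm⟩

omit [Fintype G] in
/-- A proper subgroup of a group killed by `p` is killed by a nonzero functional. -/
theorem exists_functional {V : Type} [AddCommGroup V] (hV : ∀ v : V, p • v = 0)
    (W : AddSubgroup V) (hW : W ≠ ⊤) : ∃ l : V →+ ZMod p, l ≠ 0 ∧ ∀ w ∈ W, l w = 0 := by
  letI : Module (ZMod p) V := AddCommGroup.zmodModule (n := p) hV
  have hne : AddSubgroup.toZModSubmodule p W ≠ ⊤ := by
    intro h
    refine hW (eq_top_iff.mpr fun x _ => ?_)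
    have hx : x ∈ AddSubgroup.toZModSubmodule p W := by rw [h]; exact Submodule.mem_top
    exact hx
  obtain ⟨l, hl0, hlW⟩ := Submodule.exists_le_ker_of_lt_top _ hne.lt_top
  exact ⟨l.toAddMonoidHom, fun h => hl0 (LinearMap.ext fun x => DFunLike.congr_fun h x),
    fun w hw => LinearMap.mem_ker.mp (hlW hw)⟩

/-- A proper subgroup is missed by an invariant nonzero pairing. -/
theorem exists_pairing [Finite N] (hN : ∀ n : N, p • n = 0)
    (htr : ∀ c : Ext1 G N A, ∃ g : Rel G N →+ A, c = Ext1.mk ⟨htrace G g, htrace_mem g⟩)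
    (W : AddSubgroup (Ext1 G N A)) (hW : W ≠ ⊤) :
    ∃ β : (N →+ ZMod p) →+ A →+ ZMod p, β ≠ 0 ∧
      (∀ (u : N →+ ZMod p) (g : G) (a : A),
        β (u.comp (DistribSMul.toAddMonoidHom N g⁻¹)) (g • a) = β u a) ∧
      ∀ u a, β u a ≠ 0 → ∃ φ : Rel G N →+ ℤ, traceClass φ a ∉ W := by
  obtain ⟨l, hl0, hlW⟩ := exists_functional (Ext1.nsmul_eq_zero hN) W hW
  let β : (N →+ ZMod p) →+ A →+ ZMod p :=
    (AddMonoidHom.compHom l).comp (extPair G A hN)
  have hβ : ∀ u a, β u a = l (extPair G A hN u a) := fun _ _ => rfl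
  refine ⟨β, fun h => hl0 ?_, fun u g a => ?_, fun u a hne => ⟨phiOf u, fun hmem => hne ?_⟩⟩
  · refine AddMonoidHom.ext fun c => ?_
    have hc : c ∈ AddSubgroup.closure
        (Set.range fun x : (N →+ ZMod p) × A => extPair G A hN x.1 x.2) := by
      rw [closure_extPair hN htr]; trivial
    refine AddSubgroup.closure_induction (p := fun x _ => l x = 0) ?_ (map_zero l)
      (fun x y _ _ hx hy => by rw [map_add, hx, hy, add_zero])
      (fun x _ hx => by rw [map_neg, hx, neg_zero]) hc
    rintro _ ⟨⟨u, a⟩, rfl⟩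
    rw [← hβ, h]; rfl
  · rw [hβ, hβ, extPair_smul]
  · rw [hβ, extPair_apply]
    exact hlW _ hmem

end FLTAgent.TW.Coh
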