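import Fermat.Agent.TW.Global.CoverField
import Fermat.Agent.TW.Coh.Cover

/-!
# The class field data of the composite of `fieldOf M` with the layer

`exists_coverData`: the idele classes of the composite field, with the action of `Img M` and of a
generator `τ` of the layer, form a `Coh.CoverData`. Its conditions come from class field
theory: `H¹` of the classes vanishes on `p`-subgroups and fixed classes come from ideles of the
smaller fields.
-/

set_option autoImplicit false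
set_option linter.style.haveILetI false
set_option linter.unusedSectionVars false

noncomputable section

namespace FLTAgent.TW

open Matrix FLTAgent.Deform
open scoped Pointwise

local notation "ℚ̄" => AlgebraicClosure ℚ

/-- A norm as a product over given representatives. -/
theorem normIdele_eq_prod_reps {F F' : IntermediateField ℚ ℚ̄} {φ : PreIdele}
    (hφ : φ ∈ ideles F') {n : ℕ} (r : ℕ → GQ) (hr : ∀ i, r i ∈ F.fixingSubgroup)
    (hinj : ∀ i < n, ∀ j < n, (r i)⁻¹ * r j ∈ F'.fixingSubgroup → i = j)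
    (hsurj : ∀ σ ∈ F.fixingSubgroup, ∃ i < n, (r i)⁻¹ * σ ∈ F'.fixingSubgroup) :
    normIdele F F' φ = ∏ i ∈ Finset.range n, r i • φ := by
  rw [normIdele_eq_cosetProd, cosetProd]
  let e : Fin n → F.fixingSubgroup ⧸ F'.fixingSubgroup.subgroupOf F.fixingSubgroup :=
    fun i => QuotientGroup.mk (⟨r i, hr i⟩ : F.fixingSubgroup)
  have he : Function.Bijective e := by
    refine ⟨fun i j h => Fin.ext (hinj i i.2 j j.2 (mem_of_mk_eq h)), fun c => ?_⟩
    obtain ⟨σ, rfl⟩ := QuotientGroup.mk_surjective c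
    obtain ⟨i, hi, h⟩ := hsurj σ σ.2
    exact ⟨⟨i, hi⟩, QuotientGroup.eq.mpr (Subgroup.mem_subgroupOf.mpr (by simpa using h))⟩
  rw [← Fin.prod_univ_eq_prod_range (fun i => r i • φ) n, ← finprod_eq_prod_of_fintype]
  exact (finprod_eq_of_bijective e he fun i => (out_smul hφ.1 (⟨r i, hr i⟩ : F.fixingSubgroup)).symm).symm

/-- The subgroup generated by norms consists of norms. -/
theorem exists_eq_norm {L F F' : IntermediateField ℚ ℚ̄} [FiniteDimensional ℚ L] (hF : F ≤ F')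
    (hF' : F' ≤ L) {z : PreIdele} (hz : z ∈ normSubgroup F F') :
    ∃ u ∈ ideles F', normIdele F F' u = z := by
  haveI := finite_of_le hF'
  haveI := finite_fixing_quotient F.fixingSubgroup F'
  induction hz using Subgroup.closure_induction with
  | mem z hz => exact hz
  | one => exact ⟨1, one_mem _, by rw [normIdele_eq_cosetProd, cosetProd_one]⟩
  | mul x y _ _ hx hy =>
    obtain ⟨u, hu, rfl⟩ := hx
    obtain ⟨v, hv, rfl⟩ := hy
    exact ⟨u * v, mul_mem hu hv, normIdele_mul hF u v⟩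
  | inv x _ hx =>
    obtain ⟨u, hu, rfl⟩ := hx
    refine ⟨u⁻¹, inv_mem hu, eq_inv_of_mul_eq_one_left ?_⟩
    rw [← normIdele_mul hF, inv_mul_cancel, normIdele_eq_cosetProd, cosetProd_one]

theorem injOn_pow_of_index_prime {G : Type*} [Group G] [Finite G] {p : ℕ} [Fact p.Prime]
    {R : Subgroup G} (hR : R.index = p) (hn : R.Normal) {g : G} (hg : g ∉ R) :
    (∀ i < p, ∀ j < p, (g ^ i)⁻¹ * g ^ j ∈ R → i = j) ∧ ∀ x, ∃ i < p, (g ^ i)⁻¹ * x ∈ R := by
  classical
  have hc : Nat.card (G ⧸ R) = p := hR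
  have hne : (g : G ⧸ R) ≠ 1 := fun h => hg ((QuotientGroup.eq_one_iff g).mp h)
  have htop := zpowers_eq_top_of_prime_card hc (g := (g : G ⧸ R)) hne
  have hord : orderOf (g : G ⧸ R) = p := by
    rw [← Nat.card_zpowers, htop, Subgroup.card_top, hc]
  refine ⟨fun i hi j hj h => pow_injOn_Iio_orderOf (x := (g : G ⧸ R)) (by rwa [hord]) (by rwa [hord])
    (by simpa using QuotientGroup.eq.mpr h), fun x => ?_⟩
  have hx : (x : G ⧸ R) ∈ Subgroup.zpowers (g : G ⧸ R) := htop ▸ Subgroup.mem_top _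
  obtain ⟨i, hi, h⟩ :=
    Finset.mem_image.mp ((isOfFinOrder_of_finite _).mem_zpowers_iff_mem_range_orderOf.mp hx)
  exact ⟨i, hord ▸ Finset.mem_range.mp hi, QuotientGroup.eq.mp (by simpa using h)⟩

variable {k : Type} [Field k] {p : ℕ} {M : MatRep k}

namespace Layer

variable (D : Layer M p)

instance : Normal ℚ D.field := D.normal_field

theorem mem_fix_of_eq {σ : GQ} (h1 : toImg M σ = 1) (h2 : D.ψ σ = 1) :
    σ ∈ D.field.fixingSubgroup := by
  rw [IntermediateField.mem_fixingSubgroup_iff]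
  exact fun x hx => hx ⟨σ, D.mem_above.mpr ⟨Subgroup.mem_bot.mpr h1, h2⟩⟩

/-- The classes of the composite field. -/
def LayerClass (T : Finset ℕ) : Type := Additive (IdeleClass T D.field)

variable {T : Finset ℕ}

instance : AddCommGroup (D.LayerClass T) :=
  inferInstanceAs (AddCommGroup (Additive (IdeleClass T D.field)))

/-- The class of an idele. -/
def cls (φ : ideles D.field) : D.LayerClass T := Additive.ofMul (QuotientGroup.mk φ)

theorem cls_surjective : Function.Surjective (D.cls (T := T)) := fun c => by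
  obtain ⟨φ, hφ⟩ := QuotientGroup.mk_surjective (Additive.toMul c)
  exact ⟨φ, congrArg Additive.ofMul hφ⟩

theorem cls_mul (φ ψ : ideles D.field) : D.cls (T := T) (φ * ψ) = D.cls φ + D.cls ψ := rfl

theorem cls_one : D.cls (T := T) 1 = 0 := rfl

theorem cls_zpow (φ : ideles D.field) (j : ℤ) : D.cls (T := T) (φ ^ j) = j • D.cls φ := rfl

theorem cls_eq_iff {φ ψ : ideles D.field} :
    D.cls (T := T) φ = D.cls ψ ↔ φ.1 / ψ.1 ∈ classKer T D.field := by
  refine (Additive.ofMul.injective.eq_iff).trans (QuotientGroup.eq_iff_div_mem.trans ?_)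
  rw [Subgroup.mem_subgroupOf]; rfl

theorem cls_eq_zero_iff {φ : ideles D.field} : D.cls (T := T) φ = 0 ↔ φ.1 ∈ classKer T D.field := by
  rw [← D.cls_one, cls_eq_iff, OneMemClass.coe_one, div_one]

theorem cls_prod {n : ℕ} (f : ℕ → ideles D.field) :
    D.cls (T := T) (∏ i ∈ Finset.range n, f i) = ∑ i ∈ Finset.range n, D.cls (f i) := by
  induction n with
  | zero => exact D.cls_one
  | succ n ih => rw [Finset.prod_range_succ, Finset.sum_range_succ, cls_mul, ih]

/-- The Galois action on the classes. -/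
def galSMul (σ : GQ) : D.LayerClass T →+ D.LayerClass T :=
  (MulDistribMulAction.toMonoidHom (IdeleClass T D.field) σ).toAdditive

theorem galSMul_cls (σ : GQ) (φ : ideles D.field) :
    D.galSMul σ (D.cls (T := T) φ) = D.cls ⟨σ • φ.1, smul_mem_ideles σ φ.2⟩ := rfl

theorem galSMul_mul (σ τ : GQ) (c : D.LayerClass T) :
    D.galSMul (σ * τ) c = D.galSMul σ (D.galSMul τ c) :=
  congrArg Additive.ofMul (mul_smul σ τ (Additive.toMul c))

theorem galSMul_congr {σ τ : GQ} (h1 : toImg M σ = toImg M τ) (h2 : D.ψ σ = D.ψ τ)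
    (c : D.LayerClass T) : D.galSMul σ c = D.galSMul τ c := by
  obtain ⟨φ, rfl⟩ := D.cls_surjective c
  rw [galSMul_cls, galSMul_cls]
  refine congrArg _ (Subtype.ext ?_)
  have h := φ.2.1 _ (D.mem_fix_of_eq (σ := τ⁻¹ * σ) (by rw [map_mul, map_inv, h1, inv_mul_cancel])
    (by rw [map_mul, map_inv, h2, inv_mul_cancel]))
  show σ • φ.1 = τ • φ.1
  calc σ • φ.1 = (τ * (τ⁻¹ * σ)) • φ.1 := by rw [mul_inv_cancel_left]
    _ = τ • φ.1 := by rw [mul_smul, h]

theorem galSMul_eq_self {σ : GQ} (h1 : toImg M σ = 1) (h2 : D.ψ σ = 1) (c : D.LayerClass T) :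
    D.galSMul σ c = c :=
  (D.galSMul_congr (τ := 1) (by rw [h1, map_one]) (by rw [h2, map_one]) c).trans
    (congrArg Additive.ofMul (one_smul GQ (Additive.toMul c)))

instance : DistribMulAction (Img M) (D.LayerClass T) where
  smul g c := D.galSMul (D.lift g) c
  one_smul c := D.galSMul_eq_self (D.toImg_lift 1) (D.psi_lift 1) c
  mul_smul g h c := by
    show D.galSMul (D.lift (g * h)) c = D.galSMul (D.lift g) (D.galSMul (D.lift h) c)
    rw [← galSMul_mul]
    exact D.galSMul_congr (by rw [map_mul, toImg_lift, toImg_lift, toImg_lift])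
      (by rw [map_mul, psi_lift, psi_lift, psi_lift, one_mul]) c
  smul_zero g := map_zero _
  smul_add g := map_add _

theorem smul_eq_galSMul {g : Img M} {σ : GQ} (h1 : toImg M σ = g) (h2 : D.ψ σ = 1)
    (c : D.LayerClass T) : g • c = D.galSMul σ c :=
  D.galSMul_congr ((D.toImg_lift g).trans h1.symm) ((D.psi_lift g).trans h2.symm) c

/-- The generator of the layer. -/
def tau : D.LayerClass T →+ D.LayerClass T := D.galSMul D.t

theorem addPow_tau (i : ℕ) (c : D.LayerClass T) :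
    Coh.addPow D.tau i c = D.galSMul (D.t ^ i) c := by
  induction i with
  | zero => rw [pow_zero]; exact (D.galSMul_eq_self (map_one _) (map_one _) c).symm
  | succ i ih => rw [Coh.addPow_succ_apply, ih, pow_succ', galSMul_mul]; rfl

theorem addPow_tau_deg (c : D.LayerClass T) : Coh.addPow D.tau (layerDeg M p) c = c := by
  rw [addPow_tau]
  exact D.galSMul_eq_self (by rw [map_pow, D.toImg_t, one_pow]) (by rw [map_pow, D.psi_t_pow]) c

theorem tau_smul (g : Img M) (c : D.LayerClass T) : D.tau (g • c) = g • D.tau c := by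
  show D.galSMul D.t (D.galSMul (D.lift g) c) = D.galSMul (D.lift g) (D.galSMul D.t c)
  rw [← galSMul_mul, ← galSMul_mul]
  exact D.galSMul_congr (by rw [map_mul, map_mul, toImg_t, one_mul, mul_one])
    (by rw [map_mul, map_mul, psi_lift, one_mul, mul_one]) c

theorem addPow_tau_smul (i : ℕ) (g : Img M) (c : D.LayerClass T) :
    Coh.addPow D.tau i (g • c) = g • Coh.addPow D.tau i c := by
  induction i with
  | zero => rfl
  | succ i ih => rw [Coh.addPow_succ_apply, ih, tau_smul, Coh.addPow_succ_apply]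

theorem galSMul_fixed (Q : Subgroup (Img M)) {c : D.LayerClass T}
    (hc : ∀ h ∈ Q, h • c = c) {σ : GQ} (hσ : toImg M σ ∈ Q) {i : ℕ}
    (hi : D.ψ σ = D.ψ D.t ^ i) : D.galSMul σ c = Coh.addPow D.tau i c := by
  rw [← mul_inv_cancel_left (D.t ^ i) σ, galSMul_mul, addPow_tau]
  refine congrArg _ ?_
  have h1 : toImg M ((D.t ^ i)⁻¹ * σ) = toImg M σ := by
    rw [map_mul, map_inv, map_pow, D.toImg_t, one_pow, inv_one, one_mul]
  rw [← D.smul_eq_galSMul h1 (D.mem_psiKer_mul hi)]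
  exact hc _ hσ

variable [Finite k] [Fact p.Prime] [CharP k p] (hM : FactorsFinite M)
  (hdet : DetCyclotomic M p) (hL : IdeleSetting T p D.field)
include hM hL

/-! ### Fixed classes -/

omit [Finite k] [Fact p.Prime] [CharP k p] hM hL in
theorem relIndex_eq_card {H : Subgroup GQ} (P : Subgroup (Img M))
    (h1 : ∀ σ ∈ H, toImg M σ ∈ P) (h2 : ∀ g ∈ P, D.lift g ∈ H)
    (h3 : ∀ σ, toImg M σ = 1 → σ ∈ H → D.ψ σ = 1) :
    (D.above ⊥).relIndex H = Nat.card P := by
  have hmap : H.map (toImg M) = P := le_antisymm (Subgroup.map_le_iff_le_comap.mpr h1)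
    fun g hg => ⟨D.lift g, h2 g hg, D.toImg_lift g⟩
  rw [← hmap, ← Subgroup.relIndex_ker H (toImg M), Subgroup.relIndex, Subgroup.relIndex]
  congr 1
  ext ⟨σ, hσ⟩
  simp only [Subgroup.mem_subgroupOf, mem_above, Subgroup.mem_bot, MonoidHom.mem_ker]
  exact ⟨fun h => h.1, fun h => ⟨h, h3 σ h hσ⟩⟩

theorem exists_idele_of_fixed {F : IntermediateField ℚ ℚ̄} (hF : F ≤ D.field)
    (hnormal : (D.field.fixingSubgroup.subgroupOf F.fixingSubgroup).Normal) (c : D.LayerClass T)
    (hc : ∀ σ ∈ F.fixingSubgroup, D.galSMul σ c = c) :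
    ∃ (φ : ideles D.field), φ.1 ∈ ideles F ∧ D.cls φ = c := by
  obtain ⟨φ, rfl⟩ := D.cls_surjective c
  obtain ⟨ψ, hψ, h⟩ := exists_fixed' hL hF le_rfl hnormal φ.2 fun σ hσ =>
    (D.cls_eq_iff (φ := ⟨σ • φ.1, smul_mem_ideles σ φ.2⟩) (ψ := φ)).mp (hc σ hσ)
  exact ⟨⟨ψ, ideles_mono hF hψ⟩, hψ,
    ((D.cls_eq_iff (φ := φ) (ψ := ⟨ψ, ideles_mono hF hψ⟩)).mpr h).symm⟩

omit hL in
theorem normal_field_subgroupOf (U : Subgroup GQ) : (D.field.fixingSubgroup.subgroupOf U).Normal := by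
  rw [D.fix_field hM]
  haveI : (D.above ⊥).Normal := by
    haveI : (⊥ : Subgroup (Img M)).Normal := Subgroup.normal_bot
    exact Subgroup.normal_inf_normal _ _
  infer_instance

theorem exists_idele_sub (Q : Subgroup (Img M)) (c : D.LayerClass T) (hc : ∀ h ∈ Q, h • c = c)
    (hτ : D.tau c = c) : ∃ φ : ideles D.field, φ.1 ∈ ideles (D.sub Q) ∧ D.cls φ = c := by
  refine D.exists_idele_of_fixed hM hL ((D.sub_le hM Q).trans (D.fieldOf_le hM))
    (D.normal_field_subgroupOf hM _) c fun σ hσ => ?_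
  rw [D.fix_sub hM] at hσ
  obtain ⟨i, -, hi⟩ := D.gen σ
  rw [D.galSMul_fixed Q hc hσ hi]
  induction i generalizing σ with
  | zero => rfl
  | succ i ih =>
    rw [Coh.addPow_succ_apply]
    have : Coh.addPow D.tau i c = c := by
      clear ih hi
      induction i with
      | zero => rfl
      | succ i ih => rw [Coh.addPow_succ_apply, ih, hτ]
    rw [this, hτ]

theorem exists_idele_subLayer (Q : Subgroup (Img M)) (c : D.LayerClass T)
    (hc : ∀ h ∈ Q, h • c = c) :
    ∃ φ : ideles D.field, φ.1 ∈ ideles (D.subLayer Q) ∧ D.cls φ = c := by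
  refine D.exists_idele_of_fixed hM hL (D.subLayer_le hM Q) (D.normal_field_subgroupOf hM _) c
    fun σ hσ => ?_
  rw [D.fix_subLayer hM, mem_above] at hσ
  exact D.galSMul_fixed Q hc hσ.1 (i := 0) (by rw [hσ.2, pow_zero])

theorem sum_addPow_cls (Q : Subgroup (Img M)) (φ : ideles D.field)
    (hφ : φ.1 ∈ ideles (D.subLayer Q)) :
    ∃ h : normIdele (D.sub Q) (D.subLayer Q) φ.1 ∈ ideles D.field,
      D.cls (T := T) ⟨_, h⟩ = ∑ i ∈ Finset.range (layerDeg M p), Coh.addPow D.tau i (D.cls φ) := by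
  have hmem : ∀ i, D.t ^ i ∈ (D.sub Q).fixingSubgroup := fun i => by
    rw [D.fix_sub hM, Subgroup.mem_comap, map_pow, D.toImg_t, one_pow]
    exact one_mem Q
  have e : normIdele (D.sub Q) (D.subLayer Q) φ.1 =
      ∏ i ∈ Finset.range (layerDeg M p), D.t ^ i • φ.1 := by
    refine normIdele_eq_prod_reps hφ _ hmem (fun i hi j hj h => ?_) fun σ hσ => ?_
    · rw [D.fix_subLayer hM, mem_above] at h
      have h2 := h.2
      rw [map_mul, map_inv, map_pow, map_pow, _root_.inv_mul_eq_one] at h2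
      exact pow_injOn_Iio_orderOf (by rwa [D.ord]) (by rwa [D.ord]) h2
    · obtain ⟨i, hi, he⟩ := D.gen σ
      rw [D.fix_sub hM] at hσ
      refine ⟨i, hi, ?_⟩
      rw [D.fix_subLayer hM, mem_above]
      exact ⟨by rw [map_mul, map_inv, map_pow, D.toImg_t, one_pow, inv_one, one_mul]; exact hσ,
        D.mem_psiKer_mul he⟩
  let f : ℕ → ideles D.field := fun i => ⟨D.t ^ i • φ.1, smul_mem_ideles _ φ.2⟩
  have e' : normIdele (D.sub Q) (D.subLayer Q) φ.1 =
      (∏ i ∈ Finset.range (layerDeg M p), f i : ideles D.field).1 := by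
    rw [e, SubmonoidClass.coe_finsetProd]
  have hm : normIdele (D.sub Q) (D.subLayer Q) φ.1 ∈ ideles D.field := by
    rw [e']; exact SetLike.coe_mem _
  refine ⟨hm, ?_⟩
  rw [show (⟨_, hm⟩ : ideles D.field) = ∏ i ∈ Finset.range _, f i from
    Subtype.ext e', cls_prod]
  exact Finset.sum_congr rfl fun i _ => by rw [addPow_tau, galSMul_cls]

variable (hT : ∀ E ≤ D.field, TPrincipal T E)
include hT

/-! ### Vanishing of first cohomology -/

theorem exists_of_cocycle {F : IntermediateField ℚ ℚ̄} (hF : F ≤ D.field) (hμ : ContainsMuP p F)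
    {j : ℕ} (hdeg : D.field.fixingSubgroup.relIndex F.fixingSubgroup = p ^ j)
    (A : GQ → D.LayerClass T)
    (hA : ∀ σ ∈ F.fixingSubgroup, ∀ τ ∈ F.fixingSubgroup, A (σ * τ) = A σ + D.galSMul σ (A τ))
    (hA1 : ∀ σ ∈ D.field.fixingSubgroup, A σ = 0) :
    ∃ y : D.LayerClass T, ∀ σ ∈ F.fixingSubgroup, A σ = D.galSMul σ y - y := by
  choose φ hφ using fun σ => D.cls_surjective (A σ)
  have hmem : ∀ σ, (φ σ).1 ∈ ideles D.field := fun σ => (φ σ).2
  have hc : ∀ σ ∈ F.fixingSubgroup, ∀ τ ∈ F.fixingSubgroup,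
      (φ (σ * τ)).1 / ((φ σ).1 * σ • (φ τ).1) ∈ classKer T D.field := fun σ hσ τ hτ => by
    have h1 : D.cls (T := T) (φ (σ * τ)) =
        D.cls (φ σ * ⟨σ • (φ τ).1, smul_mem_ideles σ (φ τ).2⟩) := by
      rw [cls_mul, ← galSMul_cls, hφ, hφ, hφ, hA σ hσ τ hτ]
    exact D.cls_eq_iff.mp h1
  have hz : ∀ σ ∈ D.field.fixingSubgroup, (φ σ).1 ∈ classKer T D.field := fun σ hσ => by
    have h1 : D.cls (T := T) (φ σ) = 0 := by rw [hφ, hA1 σ hσ]
    exact D.cls_eq_zero_iff.mp h1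
  obtain ⟨b, hb, h⟩ := cohomology_one (a := fun σ => (φ σ).1) hL hT hF hμ hdeg
    (fun σ _ => hmem σ) hc hz
  refine ⟨D.cls ⟨b, hb⟩, fun σ hσ => ?_⟩
  rw [← hφ σ, galSMul_cls, eq_sub_iff_add_eq, ← cls_mul, cls_eq_iff]
  have := h σ hσ
  rwa [div_div_eq_mul_div] at this

include hdet in
theorem h1Zero_layerClass (Q : Subgroup (Img M)) (hQ : IsPGroup p Q) :
    Coh.H1Zero Q (D.LayerClass T) := by
  classical
  intro a ha
  let A : GQ → D.LayerClass T := fun σ => if h : toImg M σ ∈ Q then a ⟨_, h⟩ else 0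
  have ha1 : a 1 = 0 := by
    have := ha 1 1
    rwa [one_mul, one_smul, left_eq_add] at this
  obtain ⟨j, hj⟩ := IsPGroup.iff_card.mp hQ
  obtain ⟨y, hy⟩ := D.exists_of_cocycle hM hL hT (D.subLayer_le hM Q)
    ((D.containsMuP_sub hM hdet hQ).mono ((le_sup_left : D.sub Q ≤ D.sub Q ⊔ D.cycField).trans
      (D.sup_cycField hM Q).le)) (j := j) (by
      rw [D.fix_field hM, D.fix_subLayer hM, ← hj]
      exact D.relIndex_eq_card Q (fun σ hσ => (D.mem_above.mp hσ).1)
        (fun g hg => D.mem_above.mpr ⟨by rwa [D.toImg_lift], D.psi_lift g⟩)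
        fun σ _ hσ => (D.mem_above.mp hσ).2) A
    (fun σ hσ τ hτ => by
      rw [D.fix_subLayer hM, mem_above] at hσ hτ
      have hστ : toImg M (σ * τ) ∈ Q := by rw [map_mul]; exact mul_mem hσ.1 hτ.1
      show dite _ _ _ = dite _ _ _ + D.galSMul σ (dite _ _ _)
      rw [dif_pos hστ, dif_pos hσ.1, dif_pos hτ.1, ← D.smul_eq_galSMul rfl hσ.2]
      have := ha ⟨_, hσ.1⟩ ⟨_, hτ.1⟩
      rw [show (⟨toImg M (σ * τ), hστ⟩ : Q) = ⟨_, hσ.1⟩ * ⟨_, hτ.1⟩ from Subtype.ext (map_mul _ _ _)]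
      exact this)
    fun σ hσ => by
      rw [D.mem_fix_field hM] at hσ
      show dite _ _ _ = _
      rw [dif_pos (hσ.1.symm ▸ one_mem Q)]
      exact (congrArg a (Subtype.ext hσ.1)).trans ha1
  refine ⟨y, fun g => ?_⟩
  have h1 : toImg M (D.lift g) = g := D.toImg_lift g
  have h2 := hy (D.lift g) (by
    rw [D.fix_subLayer hM, mem_above, h1]; exact ⟨g.2, D.psi_lift _⟩)
  change dite _ _ _ = _ at h2
  rw [dif_pos (h1.symm ▸ g.2), ← D.smul_eq_galSMul h1 (D.psi_lift _)] at h2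
  exact (congrArg a (Subtype.ext h1.symm)).trans h2

include hdet in
theorem exists_eq_tau_sub (Q : Subgroup (Img M)) (hQ : IsPGroup p Q) (x : D.LayerClass T)
    (hx : ∀ h ∈ Q, h • x = x)
    (hN : ∑ i ∈ Finset.range (layerDeg M p), Coh.addPow D.tau i x = 0) :
    ∃ y : D.LayerClass T, (∀ h ∈ Q, h • y = y) ∧ x = D.tau y - y := by
  classical
  set n := layerDeg M p with hn
  let S : ℕ → D.LayerClass T := fun i => ∑ j ∈ Finset.range i, Coh.addPow D.tau j x
  have hSadd : ∀ i j, S (i + j) = S i + Coh.addPow D.tau i (S j) := fun i j => by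
    simp only [S, Finset.sum_range_add, map_sum, Coh.addPow_add_apply]
  have hSmod : ∀ i, S (i % n) = S i := fun i => by
    have h0 : ∀ q, S (n * q) = 0 := fun q => by
      induction q with
      | zero => simp [S]
      | succ q ih => rw [Nat.mul_succ, hSadd, ih, show S n = 0 from hN, map_zero, add_zero]
    conv_rhs => rw [← Nat.mod_add_div i n]
    rw [hSadd, h0, map_zero, add_zero]
  choose idx hlt hidx using D.gen
  let A : GQ → D.LayerClass T := fun σ => S (idx σ)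
  have hidx1 : ∀ σ, D.ψ σ = 1 → idx σ = 0 := fun σ h => by
    refine pow_injOn_Iio_orderOf (x := D.ψ D.t) (by rw [D.ord]; exact hlt σ)
      (by rw [D.ord]; exact pow_pos (Fact.out : p.Prime).pos _) ?_
    show D.ψ D.t ^ idx σ = D.ψ D.t ^ 0
    rw [← hidx σ, h, pow_zero]
  obtain ⟨j, hj⟩ := IsPGroup.iff_card.mp hQ
  have hF : (D.above ⊥).relIndex (Q.comap (toImg M)) = n * p ^ j := by
    rw [← Subgroup.relIndex_mul_relIndex (D.above ⊥) (D.above Q) _
      (inf_le_inf_right _ (Subgroup.comap_mono bot_le)) inf_le_left, mul_comm n]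
    congr 1
    · rw [← hj]
      exact D.relIndex_eq_card Q (fun σ hσ => (D.mem_above.mp hσ).1)
        (fun g hg => D.mem_above.mpr ⟨by rwa [D.toImg_lift], D.psi_lift g⟩)
        fun σ _ hσ => (D.mem_above.mp hσ).2
    · rw [show D.above Q = D.ψ.ker ⊓ Q.comap (toImg M) from inf_comm _ _,
        Subgroup.inf_relIndex_right, Subgroup.relIndex_ker, hn, ← D.ord, ← Nat.card_zpowers]
      refine congrArg (fun P : Subgroup (ZMod D.ell)ˣ => Nat.card P) (le_antisymm ?_
        (Subgroup.zpowers_le.mpr ⟨D.t, by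
          rw [SetLike.mem_coe, Subgroup.mem_comap, D.toImg_t]; exact one_mem Q, rfl⟩))
      rintro _ ⟨σ, -, rfl⟩
      obtain ⟨i, -, h⟩ := D.gen σ
      exact h ▸ Subgroup.npow_mem_zpowers _ i
  obtain ⟨y, hy⟩ := D.exists_of_cocycle hM hL hT
    (F := D.sub Q) ((D.sub_le hM Q).trans (D.fieldOf_le hM)) (D.containsMuP_sub hM hdet hQ)
    (j := (Nat.card (Img M)).factorization p + j) (by
      rw [D.fix_field hM, D.fix_sub hM, hF, pow_add]; rfl) A
    (fun σ hσ τ _ => by
      rw [D.fix_sub hM] at hσ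
      have hmod : idx (σ * τ) = (idx σ + idx τ) % n := by
        have h1 : D.ψ D.t ^ idx (σ * τ) = D.ψ D.t ^ (idx σ + idx τ) := by
          rw [← hidx, map_mul, pow_add, ← hidx, ← hidx]
        rw [pow_eq_pow_iff_modEq, D.ord] at h1
        exact (Nat.mod_eq_of_lt (hlt _)).symm.trans h1
      show S (idx (σ * τ)) = S (idx σ) + D.galSMul σ (S (idx τ))
      rw [hmod, hSmod, hSadd, D.galSMul_fixed Q (c := S (idx τ)) (fun h hh => by
        simp only [S, Finset.smul_sum]
        exact Finset.sum_congr rfl fun i _ => by rw [← addPow_tau_smul, hx h hh]) hσ (hidx σ)])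
    fun σ hσ => by
      show S (idx σ) = 0
      rw [hidx1 σ ((D.mem_fix_field hM).mp hσ).2]
      simp [S]
  refine ⟨y, fun h hh => ?_, ?_⟩
  · have h1 := hy (D.lift h) (by rw [D.fix_sub hM, Subgroup.mem_comap, D.toImg_lift]; exact hh)
    change S (idx (D.lift h)) = _ at h1
    rw [hidx1 _ (D.psi_lift h), show S 0 = 0 from Finset.sum_range_zero _] at h1
    exact sub_eq_zero.mp h1.symm
  · have h1 := hy D.t (by rw [D.fix_sub hM, Subgroup.mem_comap, D.toImg_t]; exact one_mem Q)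
    change S (idx D.t) = _ at h1
    have hmod : idx D.t = 1 % n := by
      have h2 : D.ψ D.t ^ idx D.t = D.ψ D.t ^ 1 := by rw [← hidx, pow_one]
      rw [pow_eq_pow_iff_modEq, D.ord] at h2
      exact (Nat.mod_eq_of_lt (hlt _)).symm.trans h2
    rw [hmod, hSmod] at h1
    simpa [S, tau, Coh.addPow] using h1

/-! ### The index inequality -/

include hdet in
theorem exists_eq_nsmul_add (Q₁ Q : Subgroup (Img M)) (hQ : IsPGroup p Q) (hle : Q₁ ≤ Q)
    (hrel : Q₁.relIndex Q = p) (g : Img M) (hgQ : g ∈ Q) (hgQ₁ : g ∉ Q₁) (x y : D.LayerClass T)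
    (hx : ∀ h ∈ Q, h • x = x) (hxτ : D.tau x = x) (hy : ∀ h ∈ Q, h • y = y) (hyτ : D.tau y = y)
    (hne : ¬ ∃ u, (∀ h ∈ Q₁, h • u = u) ∧ D.tau u = u ∧
      ∑ i ∈ Finset.range p, g ^ i • u = y) :
    ∃ (m : ℕ) (u : D.LayerClass T), (∀ h ∈ Q₁, h • u = u) ∧ D.tau u = u ∧
      x = m • y + ∑ i ∈ Finset.range p, g ^ i • u := by
  classical
  haveI := hL.finite
  obtain ⟨j, hj⟩ := IsPGroup.iff_card.mp hQ
  have hR : (Q₁.subgroupOf Q).index = p := hrel
  haveI hRn : (Q₁.subgroupOf Q).Normal := Subgroup.normal_of_index_eq_minFac_card (by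
    rcases j with _ | i
    · exfalso
      have h1 := (Q₁.subgroupOf Q).index_dvd_card
      rw [hR, hj, pow_zero, Nat.dvd_one] at h1
      exact (Fact.out : p.Prime).ne_one h1
    · rw [hR, hj, Nat.Prime.pow_minFac (Fact.out : p.Prime) (Nat.succ_ne_zero i)])
  obtain ⟨hinj, hsurj⟩ := injOn_pow_of_index_prime hR hRn (g := (⟨g, hgQ⟩ : Q)) hgQ₁
  set F := D.sub Q
  set F' := D.sub Q₁
  have hFF' : F ≤ F' := le_of_fix (by
    rw [D.fix_sub hM, D.fix_sub hM]; exact Subgroup.comap_mono hle)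
  have hF' : F' ≤ D.field := (D.sub_le hM Q₁).trans (D.fieldOf_le hM)
  have hnormal : (F'.fixingSubgroup.subgroupOf F.fixingSubgroup).Normal := by
    rw [D.fix_sub hM, D.fix_sub hM]
    refine ⟨fun n hn m => ?_⟩
    exact hRn.conj_mem ⟨toImg M n.1, n.2⟩ hn ⟨toImg M m.1, m.2⟩ |> fun h => by
      simpa [Subgroup.mem_subgroupOf] using h
  have hdeg : F'.fixingSubgroup.relIndex F.fixingSubgroup = p := by
    rw [D.fix_sub hM, D.fix_sub hM, Subgroup.relIndex_comap,
      Subgroup.map_comap_eq_self_of_surjective (toImg_surjective M), hrel]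
  have hidx := relIndex_norm hL hT hFF' hF' (D.containsMuP_sub hM hdet hQ) hnormal hdeg
  -- sums over the powers of `g` are norms
  have hnorm : ∀ v ∈ ideles F', ∀ (hv : v ∈ ideles D.field) (hN : normIdele F F' v ∈ ideles D.field),
      (∀ h ∈ Q₁, h • D.cls (T := T) ⟨v, hv⟩ = D.cls ⟨v, hv⟩) ∧
      D.tau (D.cls (T := T) ⟨v, hv⟩) = D.cls ⟨v, hv⟩ ∧
      D.cls (T := T) ⟨_, hN⟩ = ∑ i ∈ Finset.range p, g ^ i • D.cls ⟨v, hv⟩ := fun v hv' hv hN => by
    have hfix : ∀ σ : GQ, toImg M σ ∈ Q₁ →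
        D.galSMul σ (D.cls (T := T) ⟨v, hv⟩) = D.cls ⟨v, hv⟩ := fun σ hσ => by
      rw [galSMul_cls]
      exact congrArg _ (Subtype.ext (hv'.1 σ (by rw [D.fix_sub hM]; exact hσ)))
    refine ⟨fun h hh => hfix _ (by rwa [D.toImg_lift]), hfix _ (by rw [D.toImg_t]; exact one_mem _),
      ?_⟩
    let f : ℕ → ideles D.field := fun i => ⟨D.lift g ^ i • v, smul_mem_ideles _ hv⟩
    have e : normIdele F F' v = (∏ i ∈ Finset.range p, f i : ideles D.field).1 := by
      rw [SubmonoidClass.coe_finsetProd]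
      refine normIdele_eq_prod_reps hv' (fun i => D.lift g ^ i) (fun i => ?_)
        (fun i hi l hl h => hinj i hi l hl ?_) fun σ hσ => ?_
      · rw [D.fix_sub hM, Subgroup.mem_comap, map_pow, D.toImg_lift]; exact pow_mem hgQ i
      · rw [D.fix_sub hM, Subgroup.mem_comap, map_mul, map_inv, map_pow, map_pow, D.toImg_lift] at h
        simpa [Subgroup.mem_subgroupOf] using h
      · rw [D.fix_sub hM] at hσ
        obtain ⟨i, hi, h⟩ := hsurj ⟨toImg M σ, hσ⟩
        refine ⟨i, hi, ?_⟩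
        rw [D.fix_sub hM, Subgroup.mem_comap, map_mul, map_inv, map_pow, D.toImg_lift]
        simpa [Subgroup.mem_subgroupOf] using h
    rw [show (⟨_, hN⟩ : ideles D.field) = ∏ i ∈ Finset.range p, f i from Subtype.ext e, cls_prod]
    exact Finset.sum_congr rfl fun i _ => by
      rw [D.smul_eq_galSMul (σ := D.lift g ^ i) (by rw [map_pow, D.toImg_lift])
        (by rw [map_pow, D.psi_lift, one_pow]), galSMul_cls]
  obtain ⟨X, hXF, rfl⟩ := D.exists_idele_sub hM hL Q x hx hxτ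
  obtain ⟨Y, hYF, rfl⟩ := D.exists_idele_sub hM hL Q y hy hyτ
  have hcls : ∀ z ∈ classKer T F ⊔ normSubgroup F F', ∀ hz : z ∈ ideles D.field,
      ∃ u : D.LayerClass T, (∀ h ∈ Q₁, h • u = u) ∧ D.tau u = u ∧
        D.cls ⟨z, hz⟩ = ∑ i ∈ Finset.range p, g ^ i • u := by
    intro z hz hzL
    obtain ⟨c, hc, w, hw, rfl⟩ := Subgroup.mem_sup.mp hz
    obtain ⟨v, hv, rfl⟩ := exists_eq_norm hFF' hF' hw
    haveI : FiniteDimensional ℚ F' := finite_of_le hF'
    have hNv : normIdele F F' v ∈ ideles D.field :=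
      ideles_mono (hFF'.trans hF') (normIdele_mem hFF' hv)
    obtain ⟨h1, h2, h3⟩ := hnorm v hv (ideles_mono hF' hv) hNv
    refine ⟨_, h1, h2, h3 ▸ (D.cls_eq_iff.mpr ?_)⟩
    rw [mul_div_cancel_right]
    exact classKer_mono (hFF'.trans hF') hc
  let H := (classKer T F ⊔ normSubgroup F F').subgroupOf (ideles F)
  have hY : QuotientGroup.mk (⟨Y.1, hYF⟩ : ideles F) ≠ (1 : ideles F ⧸ H) := fun h => hne (by
    obtain ⟨u, h1, h2, h3⟩ := hcls Y.1
      ((QuotientGroup.eq_one_iff (N := H) (⟨Y.1, hYF⟩ : ideles F)).mp h) Y.2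
    exact ⟨u, h1, h2, h3.symm⟩)
  have hcard : Nat.card (ideles F ⧸ H) = p := hidx
  haveI : Finite (ideles F ⧸ H) := Nat.finite_of_card_ne_zero (hcard ▸ (Fact.out : p.Prime).ne_zero)
  have hX : (QuotientGroup.mk (⟨X.1, hXF⟩ : ideles F) : ideles F ⧸ H) ∈
      Subgroup.zpowers (QuotientGroup.mk ⟨Y.1, hYF⟩) :=
    zpowers_eq_top_of_prime_card hcard hY ▸ Subgroup.mem_top _
  obtain ⟨m, -, hm⟩ :=
    Finset.mem_image.mp ((isOfFinOrder_of_finite _).mem_zpowers_iff_mem_range_orderOf.mp hX)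
  have hm' : X.1 / Y.1 ^ m ∈ classKer T F ⊔ normSubgroup F F' := by
    have h0 := QuotientGroup.eq_iff_div_mem.mp (hm.symm.trans (QuotientGroup.mk_pow H _ m).symm)
    simpa [H, Subgroup.mem_subgroupOf] using h0
  obtain ⟨u, h1, h2, h3⟩ := hcls _ hm' (div_mem X.2 (pow_mem Y.2 m))
  refine ⟨m, u, h1, h2, ?_⟩
  rw [← h3, ← sub_eq_iff_eq_add']
  rfl

/-- The class field data. -/
theorem exists_coverData [Fintype (Img M)] (hdet : DetCyclotomic M p) (hell : D.ell ∈ T) :
    ∃ C : Coh.CoverData (Img M) p (layerDeg M p) (D.LayerClass T), C.τ = D.tau := by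
  haveI := D.normal_cycField
  haveI := hL.finite
  obtain ⟨ω, hω, -, -, hrec⟩ := exists_artin hL hT D.cycField (D.cycField_le hM)
    (D.isCyclic_cycField) (k := (Nat.card (Img M)).factorization p) (D.finrank_cycField)
    D.ell D.prime.pos (fun q hq hqd => (Nat.prime_dvd_prime_iff_eq hq D.prime).mp hqd ▸ hell)
    (D.cycField_le_adjoin)
  haveI := D.isCyclic_cycField
  haveI : FiniteDimensional ℚ D.cycField := finite_of_le (D.cycField_le hM)
  obtain ⟨γ, hγ⟩ := IsCyclic.exists_ofOrder_eq_natCard (α := D.cycField ≃ₐ[ℚ] D.cycField)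
  obtain ⟨α, hα⟩ := hω γ
  haveI : IsGalois ℚ D.cycField := ⟨⟩
  have hγn : orderOf γ = layerDeg M p := by
    rw [hγ, IsGalois.card_aut_eq_finrank, D.finrank_cycField]
  have hαL : α.1 ∈ ideles D.field := ideles_mono bot_le α.2
  let a : D.LayerClass T := D.cls ⟨α.1, hαL⟩
  have hafix : ∀ σ, D.galSMul σ a = a := fun σ => by
    rw [galSMul_cls]
    exact congrArg _ (Subtype.ext (α.2.1 σ (by
      rw [IntermediateField.fixingSubgroup_bot]; exact Subgroup.mem_top σ)))
  -- powers of `α` as norms from the layer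
  have hiff : ∀ (Q : Subgroup (Img M)), IsPGroup p Q → ∀ j : ℤ,
      (α.1 ^ j ∈ classKer T (D.sub Q) ⊔ normSubgroup (D.sub Q) (D.subLayer Q) ↔
        (layerDeg M p : ℤ) ∣ j * Q.index) := fun Q hQ j => by
    haveI : FiniteDimensional ℚ (D.sub Q) := finite_of_le ((D.sub_le hM Q).trans (D.fieldOf_le hM))
    have hN : normIdele ⊥ (D.sub Q) (α.1 ^ j) = ((α ^ (j * Q.index : ℤ) : ideles ⊥) : PreIdele) := by
      rw [normIdele_of_mem bot_le (zpow_mem α.2 j), SubgroupClass.coe_zpow,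
        IntermediateField.fixingSubgroup_bot, Subgroup.relIndex_top_right, D.fix_sub hM,
        Subgroup.index_comap_of_surjective _ (toImg_surjective M), _root_.zpow_mul, zpow_natCast]
    have hNm : normIdele ⊥ (D.sub Q) (α.1 ^ j) ∈ ideles (⊥ : IntermediateField ℚ ℚ̄) := by
      rw [hN]; exact SetLike.coe_mem _
    have h := hrec (D.sub Q) ((D.sub_le hM Q).trans (D.fieldOf_le hM))
      (D.containsMuP_sub hM hdet hQ) (D.inf_cycField hM Q) (α.1 ^ j)
      (ideles_mono bot_le (zpow_mem α.2 j)) hNm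
    rw [D.sup_cycField hM Q] at h
    rw [← h, show (⟨_, hNm⟩ : ideles (⊥ : IntermediateField ℚ ℚ̄)) =
      α ^ (j * Q.index : ℤ) from Subtype.ext hN, map_zpow, hα, ← orderOf_dvd_iff_zpow_eq_one, hγn]
  have hb : ∃ b : D.LayerClass T,
      ∑ i ∈ Finset.range (layerDeg M p), Coh.addPow D.tau i b = a := by
    have h1 := (hiff ⊥ IsPGroup.of_bot 1).mpr (by
      rw [Subgroup.index_bot, one_mul]
      exact Int.natCast_dvd_natCast.mpr (Nat.ordProj_dvd _ p))
    rw [zpow_one] at h1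
    obtain ⟨c, hc, w, hw, he⟩ := Subgroup.mem_sup.mp h1
    obtain ⟨v, hv, rfl⟩ := exists_eq_norm (le_sup_left.trans (D.sup_cycField hM ⊥).le)
      (D.subLayer_le hM ⊥) hw
    obtain ⟨hN, hN'⟩ := D.sum_addPow_cls hM hL ⊥ ⟨v, ideles_mono (D.subLayer_le hM ⊥) hv⟩ hv
    refine ⟨_, hN'.symm.trans ?_⟩
    rw [eq_comm, cls_eq_iff]
    show α.1 / normIdele _ _ v ∈ _
    rw [← he, mul_div_cancel_right]
    exact classKer_mono ((D.sub_le hM ⊥).trans (D.fieldOf_le hM)) hc
  obtain ⟨b, hb⟩ := hb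
  refine ⟨{ τ := D.tau, a := a, b := b, comm := D.tau_smul, pow_eq := D.addPow_tau_deg,
            fix_a := fun g => hafix _, fix_a' := hafix _, norm_b := hb,
            h1 := D.h1Zero_layerClass hM hdet hL hT,
            h1τ := D.exists_eq_tau_sub hM hdet hL hT,
            norm_eq := fun Q hQ d hd j hj => ?_,
            index_le := fun Q₁ Q hQ hle hrel g hg hg₁ x y =>
              D.exists_eq_nsmul_add hM hdet hL hT Q₁ Q hQ hle hrel g hg hg₁ x y }, rfl⟩
  obtain ⟨φ, hφ, rfl⟩ := D.exists_idele_subLayer hM hL Q d hd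
  obtain ⟨hN, hN'⟩ := D.sum_addPow_cls hM hL Q φ hφ
  rw [← hN'] at hj
  change _ = j • D.cls (T := T) _ at hj
  rw [← cls_zpow, cls_eq_iff] at hj
  refine (hiff Q hQ j).mp ?_
  have hF : D.sub Q ≤ D.subLayer Q := le_sup_left.trans (D.sup_cycField hM Q).le
  haveI : FiniteDimensional ℚ (D.subLayer Q) := finite_of_le (D.subLayer_le hM Q)
  have hNF : normIdele (D.sub Q) (D.subLayer Q) φ.1 ∈ ideles (D.sub Q) := normIdele_mem hF hφ
  have h1 : normIdele (D.sub Q) (D.subLayer Q) φ.1 / α.1 ^ j ∈ classKer T (D.sub Q) :=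
    classKer_inter (hF.trans (D.subLayer_le hM Q))
      (div_mem hNF (zpow_mem (ideles_mono bot_le α.2) j)) (by simpa using hj)
  have h2 : α.1 ^ j = (normIdele (D.sub Q) (D.subLayer Q) φ.1 / α.1 ^ j)⁻¹ *
      normIdele (D.sub Q) (D.subLayer Q) φ.1 := by rw [inv_div, div_mul_cancel]
  rw [h2]
  exact Subgroup.mul_mem_sup (inv_mem h1) (Subgroup.subset_closure ⟨_, hφ, rfl⟩)

end Layer

end FLTAgent.TW
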