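import Fermat.Agent.TW.Tangent
import Fermat.Agent.TW.Coh.Basic
import Fermat.Agent.TW.Idele.Defs

/-!
# The finite Galois group, the twisted adjoint module and the class modules

The standing hypotheses `Adequate M p`, the image `Img M`, the module `TwAd M` (`ad⁰` twisted
by the determinant), the field `fieldOf M` cut out by `M`, its classes `CT M T` of ideles and
`CTQ M T Q` (modulo the places above `Q`) as `Img M`-modules, and the set `pairSet` of cocycles
with trivialisations which is compared with `Hom(TwAd, CTQ)`.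
-/

set_option autoImplicit false
set_option linter.style.haveILetI false

noncomputable section

namespace FLTAgent.TW

open Matrix FLTAgent.Deform
open scoped Pointwise

variable {k : Type} [Field k]

local notation "𝕄" => Matrix (Fin 2) (Fin 2) k

/-- The standing hypotheses on the residual representation. -/
structure Adequate (M : MatRep k) (p : ℕ) : Prop where
  ne_two : p ≠ 2
  finite : FactorsFinite M
  det : DetCyclotomic M p
  split : CharpolySplits M
  span : Submodule.span k (Set.range M) = ⊤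
  big : BigImage M

/-! ### The image -/

/-- The image of `M`. -/
abbrev Img (M : MatRep k) : Subgroup 𝕄ˣ := M.toHomUnits.range

/-- The map to the image. -/
def toImg (M : MatRep k) : GQ →* Img M := M.toHomUnits.rangeRestrict

theorem toImg_surjective (M : MatRep k) : Function.Surjective (toImg M) :=
  MonoidHom.rangeRestrict_surjective _

theorem coe_toImg (M : MatRep k) (σ : GQ) : (((toImg M σ : Img M) : 𝕄ˣ) : 𝕄) = M σ := rfl

theorem toImg_eq_one_iff (M : MatRep k) (σ : GQ) : toImg M σ = 1 ↔ M σ = 1 := by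
  rw [← Subtype.coe_inj, Units.ext_iff]; rfl

/-! ### The twisted adjoint module -/

/-- `ad⁰` twisted by the determinant. -/
def TwAd (M : MatRep k) : Type :=
  ↥(LinearMap.ker (Matrix.traceLinearMap (Fin 2) k k))

variable {M : MatRep k}

instance : AddCommGroup (TwAd M) :=
  inferInstanceAs (AddCommGroup ↥(LinearMap.ker (Matrix.traceLinearMap (Fin 2) k k)))

instance : Module k (TwAd M) :=
  inferInstanceAs (Module k ↥(LinearMap.ker (Matrix.traceLinearMap (Fin 2) k k)))

instance [Finite k] : Finite (TwAd M) :=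
  inferInstanceAs (Finite ↥(LinearMap.ker (Matrix.traceLinearMap (Fin 2) k k)))

/-- The matrix of an element of `TwAd`. -/
def TwAd.mat : TwAd M →ₗ[k] 𝕄 := Submodule.subtype _

theorem TwAd.trace_mat (X : TwAd M) : (TwAd.mat X).trace = 0 := LinearMap.mem_ker.mp X.2

theorem TwAd.mat_injective : Function.Injective (TwAd.mat : TwAd M → 𝕄) := Subtype.val_injective

/-- An element of `TwAd` from a matrix of trace zero. -/
def TwAd.mk (X : 𝕄) (h : X.trace = 0) : TwAd M := ⟨X, LinearMap.mem_ker.mpr h⟩

@[simp] theorem TwAd.mat_mk (X : 𝕄) (h : X.trace = 0) : TwAd.mat (TwAd.mk (M := M) X h) = X := rfl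

/-- The twisted conjugation. -/
def twConj (u : 𝕄ˣ) (X : 𝕄) : 𝕄 := (u : 𝕄).det • ((u : 𝕄) * X * (↑u⁻¹ : 𝕄))

theorem trace_twConj (u : 𝕄ˣ) {X : 𝕄} (h : X.trace = 0) : (twConj u X).trace = 0 := by
  rw [twConj, Matrix.trace_smul, Matrix.trace_mul_comm, ← mul_assoc, Units.inv_mul, one_mul, h,
    smul_zero]

instance : DistribMulAction (Img M) (TwAd M) where
  smul g X := TwAd.mk (twConj g.1 (TwAd.mat X)) (trace_twConj _ (TwAd.trace_mat X))
  one_smul X := TwAd.mat_injective (by
    show twConj (1 : 𝕄ˣ) _ = _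
    simp [twConj])
  mul_smul g h X := TwAd.mat_injective (by
    show twConj (g.1 * h.1) _ = twConj g.1 (twConj h.1 _)
    simp only [twConj, Units.val_mul, Matrix.det_mul, _root_.mul_inv_rev, Matrix.mul_smul,
      Matrix.smul_mul, smul_smul, mul_assoc])
  smul_zero g := TwAd.mat_injective (by
    show twConj g.1 (TwAd.mat (0 : TwAd M)) = TwAd.mat (0 : TwAd M)
    simp [twConj])
  smul_add g X Y := TwAd.mat_injective (by
    show twConj g.1 (TwAd.mat (X + Y)) = twConj g.1 (TwAd.mat X) + twConj g.1 (TwAd.mat Y)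
    simp [twConj, mul_add, add_mul])

theorem TwAd.mat_smul (g : Img M) (X : TwAd M) :
    TwAd.mat (g • X) = twConj g.1 (TwAd.mat X) := rfl

theorem TwAd.nsmul_eq_zero {p : ℕ} [CharP k p] (X : TwAd M) : p • X = 0 := by
  rw [← Nat.cast_smul_eq_nsmul k, CharP.cast_eq_zero, zero_smul]

/-! ### The field and its class modules -/

variable (M)

/-- The field cut out by `M`. -/
def fieldOf : IntermediateField ℚ (AlgebraicClosure ℚ) :=
  IntermediateField.fixedField M.toHomUnits.ker

instance normal_fieldOf : Normal ℚ (fieldOf M) := by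
  haveI := GalCommon.normal_Qbar
  refine IntermediateField.normal_iff_forall_map_le'.mpr fun σ x hx => ?_
  obtain ⟨y, hy, rfl⟩ := hx
  intro τ
  have h := hy ⟨σ⁻¹ * τ.1 * σ, by
    have := MonoidHom.normal_ker M.toHomUnits
    simpa using this.conj_mem τ.1 τ.2 σ⁻¹⟩
  change (σ⁻¹ * τ.1 * σ : GQ) y = y at h
  rw [AlgEquiv.mul_apply, AlgEquiv.mul_apply] at h
  show τ.1 (σ y) = σ y
  conv_rhs => rw [← h]
  rw [← AlgEquiv.mul_apply σ, mul_inv_cancel, AlgEquiv.one_apply]

theorem mem_fixingSubgroup_fieldOf {σ : GQ} (h : toImg M σ = 1) :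
    σ ∈ (fieldOf M).fixingSubgroup := by
  rw [IntermediateField.mem_fixingSubgroup_iff]
  intro x hx
  exact hx ⟨σ, MonoidHom.mem_ker.mpr (congrArg Subtype.val h)⟩

/-- A quotient of the ideles of `fieldOf M` by a stable subgroup, written additively. -/
def ClassMod (U : Subgroup PreIdele) : Type :=
  Additive (ideles (fieldOf M) ⧸ U.subgroupOf (ideles (fieldOf M)))

instance (U : Subgroup PreIdele) : AddCommGroup (ClassMod M U) :=
  inferInstanceAs (AddCommGroup (Additive (ideles (fieldOf M) ⧸ U.subgroupOf _)))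

variable {M}

/-- The class of an idele. -/
def classOf (U : Subgroup PreIdele) (φ : ideles (fieldOf M)) : ClassMod M U :=
  Additive.ofMul (QuotientGroup.mk φ)

theorem classOf_surjective (U : Subgroup PreIdele) :
    Function.Surjective (classOf (M := M) U) := fun c => by
  obtain ⟨φ, hφ⟩ := QuotientGroup.mk_surjective (Additive.toMul c)
  exact ⟨φ, congrArg Additive.ofMul hφ⟩

theorem classOf_mul (U : Subgroup PreIdele) (φ ψ : ideles (fieldOf M)) :
    classOf U (φ * ψ) = classOf U φ + classOf U ψ := rfl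

theorem classOf_eq_zero_iff (U : Subgroup PreIdele) (φ : ideles (fieldOf M)) :
    classOf U φ = 0 ↔ φ.1 ∈ U :=
  (QuotientGroup.eq_one_iff φ).trans Subgroup.mem_subgroupOf

/-- The stability of a subgroup under the Galois group. -/
class GalStable (U : Subgroup PreIdele) : Prop where
  smul_mem : ∀ (σ : GQ) (φ : PreIdele), φ ∈ U → σ • φ ∈ U

/-- A chosen lift. -/
def imgLift (g : Img M) : GQ := Function.surjInv (toImg_surjective M) g

theorem toImg_imgLift (g : Img M) : toImg M (imgLift g) = g :=
  Function.surjInv_eq (toImg_surjective M) g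

theorem smul_eq_of_toImg_eq {σ τ : GQ} (h : toImg M σ = toImg M τ) {φ : PreIdele}
    (hφ : φ ∈ ideles (fieldOf M)) : σ • φ = τ • φ := by
  have h1 := hφ.1 _ (mem_fixingSubgroup_fieldOf M (σ := τ⁻¹ * σ) (by
    rw [map_mul, map_inv, h, inv_mul_cancel]))
  conv_lhs => rw [← mul_inv_cancel_left τ σ, mul_smul, h1]

/-- The action of a Galois element on the quotient. -/
def classSMul (U : Subgroup PreIdele) [GalStable U] (σ : GQ) : ClassMod M U →+ ClassMod M U :=
  (QuotientGroup.map (U.subgroupOf (ideles (fieldOf M))) (U.subgroupOf (ideles (fieldOf M)))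
    (((MulDistribMulAction.toMonoidHom PreIdele σ).comp (ideles (fieldOf M)).subtype).codRestrict _
      fun φ => smul_mem_ideles σ φ.2) fun φ hφ => GalStable.smul_mem σ _ hφ).toAdditive

theorem classSMul_classOf (U : Subgroup PreIdele) [GalStable U] (σ : GQ)
    (φ : ideles (fieldOf M)) :
    classSMul U σ (classOf U φ) = classOf U ⟨σ • φ.1, smul_mem_ideles σ φ.2⟩ := rfl

theorem classSMul_congr (U : Subgroup PreIdele) [GalStable U] {σ τ : GQ}
    (h : toImg M σ = toImg M τ) (c : ClassMod M U) : classSMul U σ c = classSMul U τ c := by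
  obtain ⟨φ, rfl⟩ := classOf_surjective U c
  rw [classSMul_classOf, classSMul_classOf]
  exact congrArg (classOf U) (Subtype.ext (smul_eq_of_toImg_eq h φ.2))

instance (U : Subgroup PreIdele) [GalStable U] : DistribMulAction (Img M) (ClassMod M U) where
  smul g c := classSMul U (imgLift g) c
  one_smul c := by
    show classSMul U (imgLift 1) c = c
    rw [classSMul_congr U (τ := 1) (by rw [toImg_imgLift, map_one])]
    obtain ⟨φ, rfl⟩ := classOf_surjective U c
    exact congrArg (classOf U) (Subtype.ext (one_smul GQ φ.1))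
  mul_smul g h c := by
    show classSMul U (imgLift (g * h)) c = classSMul U (imgLift g) (classSMul U (imgLift h) c)
    rw [classSMul_congr U (τ := imgLift g * imgLift h) (by
      rw [map_mul, toImg_imgLift, toImg_imgLift, toImg_imgLift])]
    obtain ⟨φ, rfl⟩ := classOf_surjective U c
    exact congrArg (classOf U) (Subtype.ext (mul_smul (imgLift g) (imgLift h) φ.1))
  smul_zero g := map_zero _
  smul_add g := map_add _

theorem smul_classOf (U : Subgroup PreIdele) [GalStable U] {g : Img M} {σ : GQ}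
    (h : toImg M σ = g) (φ : ideles (fieldOf M)) :
    g • classOf U φ = classOf U ⟨σ • φ.1, smul_mem_ideles σ φ.2⟩ :=
  (classSMul_congr U (by rw [toImg_imgLift, h]) _).trans (classSMul_classOf U σ φ)

variable (M)

/-- The ideles which are trivial above `T ∪ {∞}` and units outside `T ∪ Q`. -/
def qIdeles (T Q : Finset ℕ) : Subgroup PreIdele where
  carrier := {φ | φ ∈ awayIdeles T (fieldOf M) ∧ ∀ A : Place, ¬ A.Over Q → φ.fin A ∈ A.1.unitGroup}
  one_mem' := ⟨one_mem _, fun _ _ => one_mem _⟩
  mul_mem' := by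
    rintro φ ψ ⟨h1, h2⟩ ⟨k1, k2⟩
    exact ⟨mul_mem h1 k1, fun A hA => mul_mem (h2 A hA) (k2 A hA)⟩
  inv_mem' := by
    rintro φ ⟨h1, h2⟩
    exact ⟨inv_mem h1, fun A hA => inv_mem (h2 A hA)⟩

/-- The kernel of `ideles → C_T(K)` modulo the places above `Q`. -/
def awayKer (T Q : Finset ℕ) : Subgroup PreIdele := principal (fieldOf M) ⊔ qIdeles M T Q

instance (T Q : Finset ℕ) : GalStable (awayKer M T Q) where
  smul_mem σ φ hφ := by
    obtain ⟨x, hx, u, hu, rfl⟩ := Subgroup.mem_sup.mp hφ
    rw [smul_mul']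
    refine Subgroup.mul_mem_sup (smul_mem_principal σ hx) ⟨smul_mem_awayIdeles σ hu.1, fun A hA => ?_⟩
    show Units.map _ _ ∈ _
    conv => arg 1; rw [← smul_inv_smul σ A, Place.coe_smul]
    exact unitGroup_smul.mpr (hu.2 _ (by rwa [Place.over_smul_iff]))

instance (T : Finset ℕ) : GalStable (classKer T (fieldOf M)) where
  smul_mem σ _ h := smul_mem_classKer σ h

/-- `C_T(K)` as an `Img M`-module. -/
abbrev CT (T : Finset ℕ) : Type := ClassMod M (classKer T (fieldOf M))

/-- `C_T(K)` modulo the places above `Q`. -/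
abbrev CTQ (T Q : Finset ℕ) : Type := ClassMod M (awayKer M T Q)

/-- The equivariant homomorphisms bounding the tangent space. -/
abbrev HomCTQ (T Q : Finset ℕ) : Type := Coh.eqHom (Img M) (TwAd M) (CTQ M T Q)

/-- A cocycle unramified outside `T ∪ Q` together with trivialisations at the places above `T` and
at infinity. -/
def pairSet (T Q : Finset ℕ) (A : ℕ → ValuationSubring (AlgebraicClosure ℚ)) (τ₀ : GQ) :
    Set ((GQ → 𝕄) × (T → 𝕄) × 𝕄) :=
  {x | IsTangentCocycle M x.1 ∧
    (∀ q : ℕ, q.Prime → q ∉ T → q ∉ Q → ∀ P : ValuationSubring (AlgebraicClosure ℚ),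
      P.LiesOverPrime q → ∀ τ ∈ P.inertiaSubgroupIn ℚ, x.1 τ = 0) ∧
    (∀ l : T, (x.2.1 l).trace = 0 ∧ ∀ τ ∈ (A l).decompositionSubgroup ℚ,
      x.1 τ = x.2.1 l - adAct M τ (x.2.1 l)) ∧
    x.2.2.trace = 0 ∧ x.1 τ₀ = x.2.2 - adAct M τ₀ x.2.2}

end FLTAgent.TW
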