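import Fermat.Agent.TW.Global.GroupFacts
import Fermat.Agent.Density.Main

/-!
# Auxiliary primes from Frobenius elements

A prime whose Frobenius restricts, in a finite Galois extension trivialising `M` and the roots of
unity of order `p ^ (n + 1)`, to a power prime to its order of an element with distinct
eigenvalues fixing these roots of unity, is an auxiliary prime (`isAuxPrime_of_frobenius`).
-/

set_option autoImplicit false
set_option linter.style.haveILetI false
set_option linter.unusedSectionVars false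

noncomputable section

namespace FLTAgent.TW

open Matrix FLTAgent.Deform
open scoped Pointwise

variable {k : Type} [Field k] [Finite k] {p : ℕ} [Fact p.Prime] [CharP k p] {M : MatRep k}

local notation "ℚ̄" => AlgebraicClosure ℚ
local notation "𝕄" => Matrix (Fin 2) (Fin 2) k

theorem trace_pow_of_trace_det {A : 𝕄} {α β : k} (ht : A.trace = α + β) (hd : A.det = α * β) :
    ∀ j : ℕ, (A ^ j).trace = α ^ j + β ^ j := by
  intro j
  induction j using Nat.twoStepInduction with
  | zero => simp [Matrix.trace_one]; norm_num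
  | one => simpa using ht
  | more j h0 h1 =>
    have he : A ^ (j + 2) = A.trace • A ^ (j + 1) - A.det • A ^ j := by
      rw [pow_add, pow_two, mul_self_eq A, mul_sub, Matrix.mul_smul, Matrix.mul_smul, mul_one,
        ← pow_succ]
    rw [he, Matrix.trace_sub, Matrix.trace_smul, Matrix.trace_smul, h0, h1, ht, hd]
    simp only [smul_eq_mul]
    ring

theorem pow_ne_pow_of_coprime {α β : k} {j f : ℕ} (hne : α ≠ β) (hβ : β ≠ 0)
    (hf : α ^ f = β ^ f) (hc : j.Coprime f) : α ^ j ≠ β ^ j := by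
  intro h
  apply hne
  have hj : (α / β) ^ j = 1 := by rw [div_pow, h, div_self (pow_ne_zero _ hβ)]
  have hf' : (α / β) ^ f = 1 := by rw [div_pow, hf, div_self (pow_ne_zero _ hβ)]
  have h1 : (α / β) ^ j.gcd f = 1 := pow_gcd_eq_one.mpr ⟨hj, hf'⟩
  rw [hc, pow_one, div_eq_one_iff_eq hβ] at h1
  exact h1

/-- Restrictions to a field trivialising `M` determine the image. -/
theorem toImg_eq_of_restrict {L : IntermediateField ℚ ℚ̄} [Normal ℚ L]
    (hker : ∀ σ ∈ L.fixingSubgroup, toImg M σ = 1) {σ τ : GQ}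
    (h : AlgEquiv.restrictNormalHom L σ = AlgEquiv.restrictNormalHom L τ) :
    toImg M σ = toImg M τ := by
  have h1 := hker _ (Density.inv_mul_mem_fixingSubgroup_of_restrict_eq h)
  rwa [map_mul, map_inv, _root_.inv_mul_eq_one] at h1

theorem orderOf_toImg_dvd {L : IntermediateField ℚ ℚ̄} [Normal ℚ L]
    (hker : ∀ σ ∈ L.fixingSubgroup, toImg M σ = 1) (σ : GQ) :
    orderOf (toImg M σ) ∣ orderOf (AlgEquiv.restrictNormalHom L σ) := by
  rw [orderOf_dvd_iff_pow_eq_one, ← map_pow, ← map_one (toImg M)]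
  exact toImg_eq_of_restrict hker (by rw [map_pow, pow_orderOf_eq_one, map_one])

/-- The criterion for auxiliary primes. -/
theorem isAuxPrime_of_frobenius (n : ℕ) (L : IntermediateField ℚ ℚ̄) [IsGalois ℚ L]
    (hker : ∀ σ ∈ L.fixingSubgroup, toImg M σ = 1)
    (hroot : ∀ σ ∈ L.fixingSubgroup, ∀ ζ : ℚ̄, ζ ^ p ^ (n + 1) = 1 → σ ζ = ζ)
    {σ : GQ} (hσ : ∀ ζ : ℚ̄, ζ ^ p ^ (n + 1) = 1 → σ ζ = ζ)
    {α β : k} (hne : α ≠ β) (ht : (M σ).trace = α + β) (hd : (M σ).det = α * β)
    {q : ℕ} (hq : q.Prime) (hqp : q ≠ p)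
    (hur : ∀ A : ValuationSubring ℚ̄, A.LiesOverPrime q →
      ∀ ι ∈ A.inertiaSubgroupIn ℚ, AlgEquiv.restrictNormalHom L ι = 1)
    {A : ValuationSubring ℚ̄} (hA : A.LiesOverPrime q) {τ : GQ} (hτ : A.IsFrobeniusAt τ q)
    {j : ℕ} (hj : j.Coprime (orderOf (AlgEquiv.restrictNormalHom L σ)))
    (hres : AlgEquiv.restrictNormalHom L τ = AlgEquiv.restrictNormalHom L σ ^ j) :
    IsAuxPrime M p n q := by
  have hp : p.Prime := Fact.out
  rw [← map_pow] at hres
  have hdvd := Density.inv_mul_mem_fixingSubgroup_of_restrict_eq hres.symm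
  refine ⟨hq, ?_, fun A' hA' φ hφ => ?_⟩
  · haveI : NeZero ((p ^ (n + 1) : ℕ) : ℚ̄) :=
      ⟨Nat.cast_ne_zero.mpr (pow_ne_zero _ hp.ne_zero)⟩
    obtain ⟨ξ, hξ⟩ := HasEnoughRootsOfUnity.exists_primitiveRoot ℚ̄ (p ^ (n + 1))
    have hξ1 : ξ ^ p ^ (n + 1) = 1 := hξ.pow_eq_one
    have hfix : ∀ i : ℕ, (σ ^ i) ξ = ξ := fun i => by
      induction i with
      | zero => simp
      | succ i ih => rw [pow_succ, AlgEquiv.mul_apply, hσ ξ hξ1, ih]
    have h1 : τ ξ = ξ := by
      have h2 := congrArg (σ ^ j : GQ) (hroot _ hdvd ξ hξ1)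
      rw [hfix, ← AlgEquiv.mul_apply, mul_inv_cancel_left] at h2
      exact h2
    have hcop : ¬ q ∣ p ^ (n + 1) := fun h =>
      hqp ((Nat.prime_dvd_prime_iff_eq hq hp).mp (hq.dvd_of_dvd_pow h))
    rw [GalCommon.frobenius_apply_of_pow_eq_one hq hA hcop hτ hξ1] at h1
    rw [← hξ.pow_eq_one_iff_dvd]
    have h3 : ξ ^ (q - 1) * ξ = ξ := by
      rw [← pow_succ, Nat.sub_add_cancel hq.one_le, h1]
    exact (mul_eq_right₀ (hξ.ne_zero (pow_ne_zero _ hp.ne_zero))).mp h3
  · obtain ⟨g, hg⟩ := GalCommon.map_frobenius_isConj (M := 𝕄) M hq hA hA'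
      (fun i hi => (toImg_eq_one_iff M i).mp
        (hker _ (Density.mem_fixingSubgroup_of_restrict_eq_one (hur A' hA' i hi)))) hτ hφ
    have h1 : toImg M τ = toImg M (σ ^ j) := toImg_eq_of_restrict hker hres
    have hMτ : M τ = M σ ^ j := by
      rw [← map_pow, ← coe_toImg, h1, coe_toImg]
    have htr : (M φ).trace = α ^ j + β ^ j := by
      rw [hg, map_mul, map_mul, Matrix.trace_mul_comm, ← mul_assoc, inv_mul_eq_one, one_mul, hMτ,
        trace_pow_of_trace_det ht hd]
    have hdet : (M φ).det = α ^ j * β ^ j := by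
      rw [hg, map_mul, map_mul, Matrix.det_mul, Matrix.det_mul, mul_right_comm, ← Matrix.det_mul,
        mul_inv_eq_one, Matrix.det_one, one_mul, hMτ, Matrix.det_pow, hd, mul_pow]
    refine ⟨α ^ j, β ^ j, pow_ne_pow_of_coprime hne ?_ ?_
      (hj.coprime_dvd_right (orderOf_toImg_dvd hker σ)), htr, hdet⟩
    · exact right_ne_zero_of_mul (hd ▸ det_M_ne_zero M σ)
    · have h2 : M σ ^ orderOf (toImg M σ) = 1 := by
        rw [← map_pow, ← toImg_eq_one_iff, map_pow, pow_orderOf_eq_one]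
      have h3 := trace_pow_of_trace_det ht hd (orderOf (toImg M σ))
      have h4 : (M σ ^ orderOf (toImg M σ)).det = α ^ orderOf (toImg M σ) * β ^ orderOf (toImg M σ) := by
        rw [Matrix.det_pow, hd, mul_pow]
      rw [h2, Matrix.trace_one, Fintype.card_fin] at h3
      rw [h2, Matrix.det_one] at h4
      push_cast at h3
      refine sub_eq_zero.mp (mul_self_eq_zero.mp ?_)
      linear_combination -(α ^ orderOf (toImg M σ) + β ^ orderOf (toImg M σ) + 2) * h3 + 4 * h4

end FLTAgent.TW
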