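import Fermat.Agent.TW.Global.DetectKummer
import Fermat.Agent.TW.Global.DetectFrob

/-!
# Equivariance and non-vanishing of the Kummer map

The Kummer map `ρ` of an invariant pairing is equivariant, by Frobenius density, and if it is
nonzero then it is nonzero at the order of some element with distinct eigenvalues fixing the roots
of unity of order `p ^ (n + 1)` (`rho_equivariant`, `exists_pow_ne_zero`).
-/

set_option autoImplicit false
set_option linter.style.haveILetI false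
set_option linter.unusedSectionVars false

noncomputable section

namespace FLTAgent.TW

open Matrix FLTAgent.Deform
open scoped Pointwise

variable {k : Type} [Field k] [Finite k] {p : ℕ} [Fact p.Prime] [CharP k p] {M : MatRep k}

local notation "ℚ̄" => AlgebraicClosure ℚ

theorem eq_of_forall_functional {N : Type} [AddCommGroup N] (hN : ∀ x : N, p • x = 0) {x y : N}
    (h : ∀ u : N →+ ZMod p, u x = u y) : x = y := by
  letI : Module (ZMod p) N := AddCommGroup.zmodModule (n := p) hN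
  refine sub_eq_zero.mp ((Module.forall_dual_apply_eq_zero_iff (ZMod p) _).mp fun f => ?_)
  rw [map_sub, sub_eq_zero]
  exact h f.toAddMonoidHom

omit [Finite k] [Fact p.Prime] in
theorem eq_zero_of_nsmul_twAd {j : ℕ} (hj : ¬ p ∣ j) {X : TwAd M} (h : j • X = 0) :
    X = 0 := by
  rw [← Nat.cast_smul_eq_nsmul k, smul_eq_zero] at h
  exact h.resolve_left fun h0 => hj ((CharP.cast_eq_zero_iff k p j).mp h0)

theorem twAd_smul_comm (g : Img M) (c : k) (X : TwAd M) : g • (c • X) = c • (g • X) :=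
  TwAd.mat_injective (by
    simp only [TwAd.mat_smul, map_smul, twConj, Matrix.mul_smul, Matrix.smul_mul, smul_comm c])

section

variable {T : Finset ℕ} {L : IntermediateField ℚ ℚ̄} {ρ : GQ → TwAd M} {n : ℕ}
  {β : (TwAd M →+ ZMod p) →+ CT M T →+ ZMod p}
  (hfix : ∀ σ ∈ L.fixingSubgroup, toImg M σ = 1 ∧ ρ σ = 0 ∧
    ∀ ζ : ℚ̄, ζ ^ p ^ (n + 1) = 1 → σ ζ = ζ)
  (hadd : ∀ σ τ, toImg M σ = 1 → toImg M τ = 1 → ρ (σ * τ) = ρ σ + ρ τ)

include hfix hadd in
theorem rho_congr [Normal ℚ L] {σ τ : GQ} (hσ : toImg M σ = 1)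
    (h : AlgEquiv.restrictNormalHom L σ = AlgEquiv.restrictNormalHom L τ) :
    toImg M τ = 1 ∧ ρ τ = ρ σ := by
  obtain ⟨h1, h2, -⟩ := hfix _ (Density.inv_mul_mem_fixingSubgroup_of_restrict_eq h)
  refine ⟨?_, ?_⟩
  · rw [← hσ]
    exact (toImg_eq_of_restrict (fun σ hσ => (hfix σ hσ).1) h).symm
  · have h3 := hadd σ (σ⁻¹ * τ) hσ h1
    rw [mul_inv_cancel_left, h2, add_zero] at h3
    exact h3

include hfix hadd in
theorem rho_pow {σ : GQ} (hσ : toImg M σ = 1) : ∀ i : ℕ, ρ (σ ^ i) = i • ρ σ := fun i => by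
  induction i with
  | zero => rw [pow_zero, zero_nsmul]; exact (hfix 1 (one_mem _)).2.1
  | succ i ih => rw [pow_succ, hadd _ _ (by rw [map_pow, hσ, one_pow]) hσ, ih, succ_nsmul]

include hfix hadd in
theorem rho_equivariant [FiniteDimensional ℚ L] [IsGalois ℚ L] (hM : FactorsFinite M)
    (hfrob : ∀ (q : ℕ) (hq : q.Prime) (A : Place) (hA : A.1.LiesOverPrime q), q ∉ T →
      ∀ σ, A.1.IsFrobeniusAt σ q → ∀ u : TwAd M →+ ZMod p,
        u (ρ (σ ^ orderOf (toImg M σ))) = β u (placeClass M T hq hA))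
    (hinv : ∀ (u : TwAd M →+ ZMod p) (g : Img M) (a : CT M T),
      β (u.comp (DistribSMul.toAddMonoidHom (TwAd M) g⁻¹)) (g • a) = β u a)
    {h : GQ} (hh : toImg M h = 1) (τ : GQ) :
    ρ (τ * h * τ⁻¹) = toImg M τ • ρ h := by
  set r := AlgEquiv.restrictNormalHom L h with hr
  set h' := τ * h * τ⁻¹ with hh'def
  have hh' : toImg M h' = 1 := by rw [hh'def, map_mul, map_mul, hh, mul_one, map_inv, mul_inv_cancel]
  have hr' : AlgEquiv.restrictNormalHom L h' =
      AlgEquiv.restrictNormalHom L τ * r * (AlgEquiv.restrictNormalHom L τ)⁻¹ := by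
    rw [hh'def, map_mul, map_mul, map_inv]
  by_cases hpo : p ∣ orderOf r
  swap
  · have h1 : orderOf r • ρ h = 0 := by
      rw [← rho_pow hfix hadd hh]
      exact (hfix _ (Density.mem_fixingSubgroup_of_restrict_eq_one
        (by rw [map_pow, ← hr, pow_orderOf_eq_one]))).2.1
    have h2 : orderOf r • ρ h' = 0 := by
      rw [← rho_pow hfix hadd hh']
      exact (hfix _ (Density.mem_fixingSubgroup_of_restrict_eq_one
        (by rw [map_pow, hr', conj_pow, pow_orderOf_eq_one, mul_one, mul_inv_cancel]))).2.1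
    rw [eq_zero_of_nsmul_twAd hpo h1, eq_zero_of_nsmul_twAd hpo h2, smul_zero]
  obtain ⟨q, hq, hqT, -, A₀, hA, φ, hφ, j, hj, hres⟩ :=
    Density.exists_isFrobeniusAt_restrict_eq_pow L r T
  have hpj : ¬ p ∣ j := fun hd =>
    (Fact.out : p.Prime).one_lt.ne' (Nat.dvd_one.mp (hj ▸ Nat.dvd_gcd hd hpo))
  let A : Place := ⟨A₀, q, hq, hA⟩
  -- the Frobenius
  have e1 : AlgEquiv.restrictNormalHom L (h ^ j) = AlgEquiv.restrictNormalHom L φ := by
    rw [map_pow, ← hr, hres]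
  obtain ⟨hφ1, hφρ⟩ := rho_congr hfix hadd (by rw [map_pow, hh, one_pow]) e1
  have e2 : AlgEquiv.restrictNormalHom L (h' ^ j) =
      AlgEquiv.restrictNormalHom L (τ * φ * τ⁻¹) := by
    rw [map_pow, hr', conj_pow, map_mul, map_mul, map_inv, hres]
  obtain ⟨hψ1, hψρ⟩ := rho_congr hfix hadd (by rw [map_pow, hh', one_pow]) e2
  rw [rho_pow hfix hadd hh] at hφρ
  rw [rho_pow hfix hadd hh'] at hψρ
  refine sub_eq_zero.mp (eq_zero_of_nsmul_twAd hpj ?_)
  rw [nsmul_sub, sub_eq_zero, smul_comm, ← hφρ, ← hψρ]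
  refine eq_of_forall_functional (TwAd.nsmul_eq_zero (p := p)) fun u => ?_
  have f1 := hfrob q hq (τ • A) (GalCommon.liesOverPrime_smul hA) hqT _
    (GalCommon.isFrobeniusAt_conj hφ τ) u
  rw [hψ1, orderOf_one, pow_one, placeClass_smul hM T hq (A := A) hA τ] at f1
  have f2 := hfrob q hq A hA hqT φ hφ (u.comp (DistribSMul.toAddMonoidHom (TwAd M) (toImg M τ)))
  rw [hφ1, orderOf_one, pow_one] at f2
  have f3 := hinv (u.comp (DistribSMul.toAddMonoidHom (TwAd M) (toImg M τ))) (toImg M τ)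
    (placeClass M T hq (A := A) hA)
  have f4 : (u.comp (DistribSMul.toAddMonoidHom (TwAd M) (toImg M τ))).comp
      (DistribSMul.toAddMonoidHom (TwAd M) (toImg M τ)⁻¹) = u := AddMonoidHom.ext fun x => by
    show u (toImg M τ • (toImg M τ)⁻¹ • x) = u x
    rw [smul_inv_smul]
  rw [f4] at f3
  exact f1.trans (f3.trans f2.symm)

include hfix hadd in
theorem exists_pow_ne_zero (hM : Adequate M p)
    (hequiv : ∀ h, toImg M h = 1 → ∀ τ, ρ (τ * h * τ⁻¹) = toImg M τ • ρ h)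
    (hne : ¬ ∀ σ, toImg M σ = 1 → ρ σ = 0) :
    ∃ σ : GQ, (∀ ζ : ℚ̄, ζ ^ p ^ (n + 1) = 1 → σ ζ = ζ) ∧
      (∃ α β : k, α ≠ β ∧ (M σ).trace = α + β ∧ (M σ).det = α * β) ∧
      ¬ p ∣ orderOf (toImg M σ) ∧ ρ (σ ^ orderOf (toImg M σ)) ≠ 0 := by
  haveI : Fintype k := Fintype.ofFinite k
  have hp : p.Prime := Fact.out
  obtain ⟨σ₀, hσ₀, α, β₀, hαβ, ht, hd⟩ := exists_distinct hM (n + 1)
  have hdet : (M σ₀).det = 1 := by
    rw [hM.det σ₀ 1 fun μ hμ => ?_, Nat.cast_one]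
    rw [pow_one]
    exact hσ₀ μ (by rw [pow_succ', pow_mul, hμ, one_pow])
  set g := toImg M σ₀ with hg
  set f := orderOf g with hfdef
  have hpf : ¬ p ∣ f := by
    have h1 : f ∣ Fintype.card k - 1 := by
      rw [hfdef, orderOf_dvd_iff_pow_eq_one, hg, ← map_pow, toImg_eq_one_iff, map_pow,
        pow_card_sub_one_eq_one hαβ ht hd (det_M_ne_zero M σ₀)]
    have h2 : p ∣ Fintype.card k := (CharP.cast_eq_zero_iff k p _).mp (Nat.cast_card_eq_zero k)
    intro hdf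
    have h3 := Nat.dvd_sub h2 (hdf.trans h1)
    rw [Nat.sub_sub_self Fintype.card_pos] at h3
    exact hp.one_lt.ne' (Nat.dvd_one.mp h3)
  obtain ⟨R, hR, hmemR⟩ := finrank_quotient_twist hM hαβ ht hd hdet
  have hgR : ∀ (i : ℕ) (X : TwAd M), g ^ i • X - X ∈ R := fun i => by
    induction i with
    | zero => intro X; rw [pow_zero, one_smul, sub_self]; exact R.zero_mem
    | succ i ih =>
      intro X
      have : g ^ (i + 1) • X - X = (g • (g ^ i • X) - g ^ i • X) + (g ^ i • X - X) := by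
        rw [pow_succ', mul_smul]; abel
      rw [this]
      exact R.add_mem ((hmemR _).mpr ⟨_, rfl⟩) (ih X)
  -- elements of the kernel fixing the roots of unity
  let H : GQ → Prop := fun h =>
    toImg M h = 1 ∧ ∀ ζ : ℚ̄, ζ ^ p ^ (n + 1) = 1 → h ζ = ζ
  obtain ⟨h, hh, hhR⟩ : ∃ h, H h ∧ ρ h ∉ R := by
    by_contra hcon
    push Not at hcon
    let S : Submodule k (TwAd M) := Submodule.span k {X | ∃ h, H h ∧ ρ h = X}
    have hSR : S ≤ R := Submodule.span_le.mpr (by rintro _ ⟨h, hh, rfl⟩; exact hcon h hh)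
    have hS : ∀ (g : Img M), ∀ X ∈ S, g • X ∈ S := by
      intro g X hX
      induction hX using Submodule.span_induction with
      | mem X hX =>
        obtain ⟨h, ⟨h1, h2⟩, rfl⟩ := hX
        obtain ⟨τ, rfl⟩ := toImg_surjective M g
        refine Submodule.subset_span ⟨τ * h * τ⁻¹, ⟨?_, fun ζ hζ => ?_⟩, hequiv h h1 τ⟩
        · rw [map_mul, map_mul, h1, mul_one, map_inv, mul_inv_cancel]
        · have h3 : h (τ⁻¹ ζ) = τ⁻¹ ζ := h2 _ (by rw [← map_pow, hζ, map_one])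
          rw [AlgEquiv.mul_apply, AlgEquiv.mul_apply, h3, ← AlgEquiv.mul_apply, mul_inv_cancel,
            AlgEquiv.one_apply]
      | zero => rw [smul_zero]; exact S.zero_mem
      | add X Y _ _ hX hY => rw [smul_add]; exact S.add_mem hX hY
      | smul c X _ hX => rw [twAd_smul_comm]; exact S.smul_mem c hX
    rcases twAd_irreducible hM S hS with hS0 | hS1
    · refine hne fun σ hσ => twAd_invariants hM _ fun g' => ?_
      obtain ⟨τ, rfl⟩ := toImg_surjective M g'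
      rw [← hequiv σ hσ τ]
      set c := τ * σ * τ⁻¹ * σ⁻¹ with hc
      have hσ' : toImg M (τ * σ * τ⁻¹) = 1 := by
        rw [map_mul, map_mul, hσ, mul_one, map_inv, mul_inv_cancel]
      have hcH : H c := ⟨by rw [hc, map_mul, hσ', map_inv, hσ, inv_one, one_mul], fun ζ hζ => by
        haveI : NeZero (p ^ (n + 1)) := ⟨pow_ne_zero _ hp.ne_zero⟩
        haveI : NeZero ((p ^ (n + 1) : ℕ) : ℚ̄) :=
          ⟨Nat.cast_ne_zero.mpr (pow_ne_zero _ hp.ne_zero)⟩
        obtain ⟨ξ, hξ⟩ := HasEnoughRootsOfUnity.exists_primitiveRoot ℚ̄ (p ^ (n + 1))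
        obtain ⟨i, -, rfl⟩ := hξ.eq_pow_of_pow_eq_one hζ
        have hpw : ∀ s : GQ, ∃ m : ℕ, s ξ = ξ ^ m := fun s => by
          obtain ⟨m, -, hm⟩ := hξ.eq_pow_of_pow_eq_one
            (show (s ξ) ^ p ^ (n + 1) = 1 by rw [← map_pow, hξ.pow_eq_one, map_one])
          exact ⟨m, hm.symm⟩
        obtain ⟨a, ha⟩ := hpw τ⁻¹
        obtain ⟨b, hb⟩ := hpw σ⁻¹
        have hab : τ⁻¹ (σ⁻¹ ξ) = σ⁻¹ (τ⁻¹ ξ) := by
          rw [hb, ha, map_pow, map_pow, ha, hb, ← pow_mul, ← pow_mul, mul_comm]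
        rw [map_pow, hc, AlgEquiv.mul_apply, AlgEquiv.mul_apply, AlgEquiv.mul_apply, hab,
          ← AlgEquiv.mul_apply σ, mul_inv_cancel, AlgEquiv.one_apply,
          ← AlgEquiv.mul_apply τ, mul_inv_cancel, AlgEquiv.one_apply]⟩
      have hc0 : ρ c = 0 := by
        have : ρ c ∈ S := Submodule.subset_span ⟨c, hcH, rfl⟩
        rwa [hS0, Submodule.mem_bot] at this
      have h4 := hadd c σ hcH.1 hσ
      rwa [hc, inv_mul_cancel_right, ← hc, hc0, zero_add] at h4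
    · have hRtop : R = ⊤ := eq_top_iff.mpr (hS1 ▸ hSR)
      rw [hRtop] at hR
      haveI : Subsingleton (TwAd M ⧸ (⊤ : Submodule k (TwAd M))) :=
        Submodule.Quotient.subsingleton_iff.mpr rfl
      rw [Module.finrank_zero_of_subsingleton] at hR
      exact zero_ne_one hR
  obtain ⟨hh1, hh2⟩ := hh
  by_cases h0 : ρ (σ₀ ^ f) = 0
  swap
  · exact ⟨σ₀, hσ₀, ⟨α, β₀, hαβ, ht, hd⟩, hpf, h0⟩
  set σ := h * σ₀ with hσdef
  have hgσ : toImg M σ = g := by rw [hσdef, map_mul, hh1, one_mul]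
  have hMσ : M σ = M σ₀ := by rw [hσdef, map_mul, (toImg_eq_one_iff M h).mp hh1, one_mul]
  have key : ∀ i : ℕ, toImg M (σ ^ i * (σ₀ ^ i)⁻¹) = 1 ∧
      ρ (σ ^ i * (σ₀ ^ i)⁻¹) - i • ρ h ∈ R := fun i => by
    induction i with
    | zero => simp [(hfix 1 (one_mem _)).2.1]
    | succ i ih =>
      obtain ⟨e1, e2⟩ := ih
      have hdec : σ ^ (i + 1) * (σ₀ ^ (i + 1))⁻¹ =
          (σ ^ i * (σ₀ ^ i)⁻¹) * (σ₀ ^ i * h * (σ₀ ^ i)⁻¹) := by
        rw [hσdef, pow_succ (h * σ₀), pow_succ σ₀]; group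
      have e3 : toImg M (σ₀ ^ i * h * (σ₀ ^ i)⁻¹) = 1 := by
        rw [map_mul, map_mul, hh1, mul_one, map_inv, mul_inv_cancel]
      refine ⟨by rw [hdec, map_mul, e1, e3, one_mul], ?_⟩
      rw [hdec, hadd _ _ e1 e3, hequiv h hh1, map_pow, succ_nsmul]
      have : ρ (σ ^ i * (σ₀ ^ i)⁻¹) + g ^ i • ρ h - (i • ρ h + ρ h) =
          (ρ (σ ^ i * (σ₀ ^ i)⁻¹) - i • ρ h) + (g ^ i • ρ h - ρ h) := by abel
      rw [← hg, this]
      exact R.add_mem e2 (hgR i _)
  refine ⟨σ, fun ζ hζ => by rw [hσdef, AlgEquiv.mul_apply, hσ₀ ζ hζ, hh2 ζ hζ],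
    ⟨α, β₀, hαβ, by rw [hMσ, ht], by rw [hMσ, hd]⟩, by rw [hgσ]; exact hpf, ?_⟩
  rw [hgσ, ← hfdef]
  intro hz
  obtain ⟨e1, e2⟩ := key f
  have e3 : toImg M (σ₀ ^ f) = 1 := by rw [map_pow, ← hg, hfdef, pow_orderOf_eq_one]
  have e4 := hadd _ _ e1 e3
  rw [inv_mul_cancel_right, hz, h0, add_zero] at e4
  rw [← e4, zero_sub, Submodule.neg_mem_iff, ← Nat.cast_smul_eq_nsmul k] at e2
  exact hhR ((R.smul_mem_iff (fun h0 => hpf ((CharP.cast_eq_zero_iff k p f).mp h0))).mp e2)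

end

end FLTAgent.TW
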