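import Fermat.Agent.TW.Global.PlaceExt
import Fermat.Agent.TW.Global.ExtPair
import Fermat.Agent.TW.Global.CoverField
import Fermat.Agent.TW.Global.GroupFacts
import Fermat.Agent.TW.Idele.ClassField
import Fermat.Agent.TW.Idele.ClassField.Generate
import Fermat.Agent.Density.Main

/-!
# The Kummer map of a functional on extension classes

A functional on `Ext¹(TwAd, C_T)` gives, through Kummer theory, a map `ρ : ker (toImg M) → TwAd M`
factoring through a finite Galois extension `L` of `ℚ`, whose values at Frobenius elements are the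
values of the functional on the classes of the places (`exists_rho`).
-/

set_option autoImplicit false
set_option linter.style.haveILetI false
set_option linter.unusedSectionVars false
set_option maxHeartbeats 800000

noncomputable section

namespace FLTAgent.TW

open Matrix FLTAgent.Deform
open scoped Pointwise

variable {k : Type} [Field k] [Finite k] {p : ℕ} [Fact p.Prime] [CharP k p] {M : MatRep k}

local notation "ℚ̄" => AlgebraicClosure ℚ

theorem containsMuP_adequate (hM : Adequate M p) : ContainsMuP p (fieldOf M) :=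
  containsMuP_of_det hM.det fun σ hσ => ⟨0, by
    rw [fixingSubgroup_fieldOf hM.finite, MonoidHom.mem_ker, toImg_eq_one_iff] at hσ
    simp [hσ]⟩

theorem smul_placeIdele_fieldOf (hM : FactorsFinite M) (σ : GQ) (q : ℕ) (hq : q ≠ 0) (A : Place) :
    σ • placeIdele (fieldOf M) q hq A = placeIdele (fieldOf M) q hq (σ • A) := by
  classical
  refine PreIdele.ext (funext fun B => Units.ext ?_) rfl
  have hiff : (∃ t ∈ (fieldOf M).fixingSubgroup, t • A = σ⁻¹ • B) ↔
      ∃ t ∈ (fieldOf M).fixingSubgroup, t • σ • A = B := by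
    rw [fixingSubgroup_fieldOf hM]
    constructor
    · rintro ⟨t, ht, he⟩
      exact ⟨σ * t * σ⁻¹, (toImg M).normal_ker.conj_mem t ht σ, by
        rw [← mul_smul, inv_mul_cancel_right, mul_smul, he, smul_inv_smul]⟩
    · rintro ⟨t, ht, he⟩
      exact ⟨σ⁻¹ * t * σ, by simpa using (toImg M).normal_ker.conj_mem t ht σ⁻¹, by
        rw [← he, mul_smul, mul_smul]⟩
  rw [PreIdele.coe_fin_smul]
  by_cases h : ∃ t ∈ (fieldOf M).fixingSubgroup, t • A = σ⁻¹ • B
  · show σ ((if _ then _ else _ : ℚ̄ˣ) : ℚ̄) = ((if _ then _ else _ : ℚ̄ˣ) : ℚ̄)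
    rw [if_pos h, if_pos (hiff.mp h), Units.val_mk0, map_natCast]
  · rw [placeIdele_fin_of_not q hq h, placeIdele_fin_of_not q hq (fun h' => h (hiff.mpr h')),
      Units.val_one, map_one]

/-- The class of the idele of a place above a prime. -/
def placeClass (M : MatRep k) (T : Finset ℕ) {q : ℕ} (hq : q.Prime) {A : Place}
    (hA : A.1.LiesOverPrime q) : CT M T :=
  classOf _ ⟨placeIdele (fieldOf M) q hq.ne_zero A, placeIdele_mem_ideles hq hA⟩

theorem placeClass_smul (hM : FactorsFinite M) (T : Finset ℕ) {q : ℕ} (hq : q.Prime) {A : Place}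
    (hA : A.1.LiesOverPrime q) (σ : GQ) :
    placeClass M T hq (A := σ • A) (GalCommon.liesOverPrime_smul hA) =
      toImg M σ • placeClass M T hq hA := by
  rw [placeClass, placeClass, smul_classOf _ rfl]
  exact congrArg (classOf _) (Subtype.ext (smul_placeIdele_fieldOf hM σ q hq.ne_zero A).symm)

theorem exists_rho (hM : Adequate M p) (T : Finset ℕ) (hL : IdeleSetting T p (fieldOf M))
    (hT : ∀ E ≤ fieldOf M, TPrincipal T E)
    (β : (TwAd M →+ ZMod p) →+ CT M T →+ ZMod p) (n : ℕ) :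
    ∃ (L : IntermediateField ℚ ℚ̄) (_ : FiniteDimensional ℚ L) (_ : IsGalois ℚ L)
      (ρ : GQ → TwAd M),
      (∀ σ ∈ L.fixingSubgroup, toImg M σ = 1 ∧ ρ σ = 0 ∧
        ∀ ζ : ℚ̄, ζ ^ p ^ (n + 1) = 1 → σ ζ = ζ) ∧
      (∀ σ τ, toImg M σ = 1 → toImg M τ = 1 → ρ (σ * τ) = ρ σ + ρ τ) ∧
      (∀ (q : ℕ) (hq : q.Prime) (A : Place) (hA : A.1.LiesOverPrime q), q ∉ T →
        ∀ σ, A.1.IsFrobeniusAt σ q → ∀ u : TwAd M →+ ZMod p,
          u (ρ (σ ^ orderOf (toImg M σ))) = β u (placeClass M T hq hA)) ∧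
      ((∀ σ, toImg M σ = 1 → ρ σ = 0) → β = 0) := by
  classical
  have hp : p.Prime := Fact.out
  have hN : ∀ X : TwAd M, p • X = 0 := TwAd.nsmul_eq_zero (p := p)
  have hμ := containsMuP_adequate hM
  -- the character of `ZMod p`
  obtain ⟨ζ, hζ⟩ := exists_primitiveRoot_qbar p
  let ζu : ℚ̄ˣ := Units.mk0 ζ (hζ.ne_zero hp.ne_zero)
  have hζu : ζu ^ p = 1 := Units.ext (by simp [ζu, hζ.pow_eq_one])
  let ψ : AddChar (ZMod p) ℚ̄ˣ := AddChar.zmodChar p hζu
  have hψ : ∀ a : ZMod p, ((ψ a : ℚ̄ˣ) : ℚ̄) = ζ ^ a.val := fun a => by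
    simp [ψ, ζu, AddChar.zmodChar_apply]
  let f : ZMod p → ℚ̄ := fun a => ((ψ a : ℚ̄ˣ) : ℚ̄)
  have hf : Function.Injective f := fun a b h => by
    simp only [f, hψ] at h
    exact ZMod.val_injective p (hζ.pow_inj (ZMod.val_lt a) (ZMod.val_lt b) h)
  have hfp : ∀ a, f a ^ p = 1 := fun a => by
    simp only [f, hψ]; rw [← pow_mul, mul_comm, pow_mul, hζ.pow_eq_one, one_pow]
  have hψp : ∀ a : ZMod p, ψ a ^ p = 1 := fun a => Units.ext (by simpa [f] using hfp a)
  have hsurj : ∀ x : ℚ̄, x ^ p = 1 → f (Function.invFun f x) = x := fun x hx => by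
    obtain ⟨i, hi, rfl⟩ := hζ.eq_pow_of_pow_eq_one hx
    exact Function.invFun_eq ⟨(i : ZMod p), by simp [f, hψ, ZMod.val_natCast_of_lt hi]⟩
  -- Kummer elements along a basis
  letI : Module (ZMod p) (TwAd M) := AddCommGroup.zmodModule (n := p) hN
  haveI : Module.Finite (ZMod p) (TwAd M) := Module.Finite.of_finite
  let b := Module.finBasis (ZMod p) (TwAd M)
  let u : Fin (Module.finrank (ZMod p) (TwAd M)) → (TwAd M →+ ZMod p) :=
    fun j => (b.coord j).toAddMonoidHom
  let χ : (TwAd M →+ ZMod p) → ideles (fieldOf M) →* ℚ̄ˣ :=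
    fun v => MonoidHom.mk' (fun φ => ψ (β v (classOf (classKer T (fieldOf M)) φ))) fun φ φ' =>
      (congrArg ψ ((congrArg (β v) (classOf_mul _ φ φ')).trans (map_add (β v) _ _))).trans
        (AddChar.map_add_eq_mul ψ _ _)
  have hχp : ∀ v φ, χ v φ ^ p = 1 := fun v φ => hψp _
  have hχker : ∀ v (φ : ideles (fieldOf M)), φ.1 ∈ classKer T (fieldOf M) → χ v φ = 1 :=
    fun v φ hφ => (congrArg ψ ((congrArg (β v) ((classOf_eq_zero_iff _ φ).mpr hφ)).trans
      (map_zero (β v)))).trans (AddChar.map_zero_eq_one ψ)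
  choose y hy hyur hyF using fun j =>
    exists_kummer hL hT le_rfl hμ (χ (u j)) (hχp (u j)) (hχker (u j))
  -- the field
  obtain ⟨ξ, hξ⟩ : ∃ ξ : ℚ̄, IsPrimitiveRoot ξ (p ^ (n + 1)) := by
    haveI : NeZero (p : ℚ̄) := ⟨Nat.cast_ne_zero.mpr hp.ne_zero⟩
    haveI : NeZero ((p ^ (n + 1) : ℕ) : ℚ̄) :=
      ⟨Nat.cast_ne_zero.mpr (pow_ne_zero _ hp.ne_zero)⟩
    exact HasEnoughRootsOfUnity.exists_primitiveRoot ℚ̄ (p ^ (n + 1))
  let s : Set ℚ̄ := insert ξ (Set.range fun j => ((y j : ℚ̄ˣ) : ℚ̄))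
  haveI hsfin : FiniteDimensional ℚ (IntermediateField.adjoin ℚ s) := by
    haveI : Finite s := ((Set.finite_range _).insert ξ).to_subtype
    exact IntermediateField.finiteDimensional_adjoin fun x _ =>
      Algebra.IsIntegral.isIntegral (R := ℚ) x
  obtain ⟨L, hfin, hgal, hLU⟩ := Density.exists_finite_galois_fixingSubgroup_le
    ((toImg M).ker ⊓ (IntermediateField.adjoin ℚ s).fixingSubgroup) (by
      rw [Subgroup.coe_inf]
      exact (isOpen_ker hM.finite).inter (IntermediateField.fixingSubgroup_isOpen _))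
  let e : Fin (Module.finrank (ZMod p) (TwAd M)) → GQ → ZMod p :=
    fun j h => Function.invFun f (h (y j : ℚ̄) / (y j : ℚ̄))
  let ρ : GQ → TwAd M := fun h => ∑ j, e j h • b j
  have hfixF : ∀ h, toImg M h = 1 → ∀ x ∈ fieldOf M, h x = x := fun h hh x hx =>
    (IntermediateField.mem_fixingSubgroup_iff _ _).mp (mem_fixingSubgroup_fieldOf M hh) x hx
  have he : ∀ j h, toImg M h = 1 → h (y j : ℚ̄) = f (e j h) * (y j : ℚ̄) := fun j h hh => by
    have h1 : (h (y j : ℚ̄) / (y j : ℚ̄)) ^ p = 1 := by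
      rw [div_pow, ← map_pow, hfixF h hh _ (hy j),
        div_self (pow_ne_zero _ (Units.ne_zero _))]
    show _ = f (Function.invFun f _) * _
    rw [hsurj _ h1, div_mul_cancel₀ _ (Units.ne_zero _)]
  have hfrob : ∀ (q : ℕ) (hq : q.Prime) (A : Place) (hA : A.1.LiesOverPrime q), q ∉ T →
      ∀ σ, A.1.IsFrobeniusAt σ q → ∀ v : TwAd M →+ ZMod p,
        v (ρ (σ ^ orderOf (toImg M σ))) = β v (placeClass M T hq hA) := by
    intro q hq A hA hqT σ hσ v
    haveI : Finite (Img M) := Finite.of_fintype _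
    set o := orderOf (toImg M σ) with ho
    have hmem : σ ^ o ∈ (fieldOf M).fixingSubgroup := mem_fixingSubgroup_fieldOf M (by
      rw [map_pow, ho, pow_orderOf_eq_one])
    have hej : ∀ j, e j (σ ^ o) = β (u j) (placeClass M T hq hA) := fun j => by
      have h1 := hyF j q hq A hqT hA σ hσ o (orderOf_pos _) hmem
        (fun g hg hgo hgF => by
          rw [fixingSubgroup_fieldOf hM.finite, MonoidHom.mem_ker, map_pow] at hgF
          exact absurd (orderOf_le_of_pow_eq_one hg hgF) (not_le.mpr hgo))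
        (placeIdele_mem_ideles hq hA)
      show Function.invFun f _ = _
      rw [← h1]
      exact Function.leftInverse_invFun hf _
    show v (∑ j, e j (σ ^ o) • b j) = _
    rw [map_sum]
    simp only [ZMod.map_smul, hej]
    have hv : v = ∑ j, v (b j) • u j := AddMonoidHom.ext fun x => by
      conv_lhs => rw [← b.sum_repr x]
      rw [map_sum, AddMonoidHom.finsetSum_apply]
      exact Finset.sum_congr rfl fun j _ => by
        rw [ZMod.map_smul, AddMonoidHom.smul_apply]
        exact mul_comm _ _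
    conv_rhs => rw [hv]
    let B : (TwAd M →+ ZMod p) →+ ZMod p := β.flip (placeClass M T hq hA)
    show _ = B (∑ j, v (b j) • u j)
    rw [map_sum]
    exact Finset.sum_congr rfl fun j _ => by
      rw [ZMod.map_smul]
      exact mul_comm _ _
  refine ⟨L, hfin, hgal, ρ, fun σ hσ => ?_, fun σ τ hσ hτ => ?_, hfrob, ?_⟩
  · obtain ⟨h1, h2⟩ := Subgroup.mem_inf.mp (hLU hσ)
    rw [IntermediateField.mem_fixingSubgroup_iff] at h2
    have h3 : ∀ x ∈ s, σ x = x := fun x hx => h2 x (IntermediateField.subset_adjoin ℚ s hx)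
    refine ⟨h1, Finset.sum_eq_zero fun j _ => ?_, fun z hz => ?_⟩
    · have h4 := he j σ h1
      rw [h3 _ (Set.mem_insert_of_mem _ ⟨j, rfl⟩)] at h4
      have h5 : f (e j σ) = f 0 := by
        rw [(mul_left_eq_self₀.mp h4.symm).resolve_right (Units.ne_zero _)]
        simp [f]
      rw [hf h5, zero_smul]
    · haveI : NeZero (p ^ (n + 1)) := ⟨pow_ne_zero _ hp.ne_zero⟩
      obtain ⟨i, -, rfl⟩ := hξ.eq_pow_of_pow_eq_one hz
      rw [map_pow, h3 ξ (Set.mem_insert _ _)]
  · show ∑ j, e j (σ * τ) • b j = _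
    rw [← Finset.sum_add_distrib]
    refine Finset.sum_congr rfl fun j _ => ?_
    rw [← add_smul]
    congr 1
    refine hf ?_
    have h1 : (σ * τ) (y j : ℚ̄) = f (e j (σ * τ)) * (y j : ℚ̄) :=
      he j _ (by rw [map_mul, hσ, hτ, one_mul])
    rw [AlgEquiv.mul_apply, he j τ hτ, map_mul,
      hfixF σ hσ _ (hμ _ (hfp _)), he j σ hσ, ← mul_assoc] at h1
    rw [← mul_right_cancel₀ (Units.ne_zero _) h1, mul_comm]
    simp only [f, AddChar.map_add_eq_mul, Units.val_mul]
  · intro h0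
    refine AddMonoidHom.ext fun v => AddMonoidHom.ext fun c => ?_
    obtain ⟨φ, rfl⟩ := classOf_surjective _ c
    have h1 : χ v φ = 1 := by
      refine eq_one_of_places hL le_rfl hμ (χ v) (hχp v) (hχker v) ?_ φ
      intro q hq A hqT hA hmem
      obtain ⟨σ, hσ⟩ := GalCommon.exists_isFrobeniusAt hq hA
      show ψ (β v (placeClass M T hq hA)) = 1
      rw [← hfrob q hq A hA hqT σ hσ v, h0 _ (by rw [map_pow, pow_orderOf_eq_one]), map_zero,
        AddChar.map_zero_eq_one]
    exact hf (by simpa [f, χ] using congrArg Units.val h1)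

end FLTAgent.TW
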